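/-
DS programme, brick B3-C3 (Chebotarev crossing), helper51.  Part 5: assembly.

`cheb_abelian_sym` : for a finite abelian extension `L/F` of number fields, `σ ∈ Gal(L/F)` and
`ε > 0`, the good primes of `F` with Frobenius `σ` or `σ⁻¹` (counted twice if `σ = σ⁻¹`) carry
`(2 / [L : F]) log (1 / (s - 1))` of the prime zeta function up to `ε log (1 / (s - 1)) + O(1)`,
assuming the symmetric cyclotomic statement `C2SymStatement`.
-/
import Mathlib
import Fermat.Agent.DS.Cheb.Cross51Pair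

set_option autoImplicit false
set_option linter.unusedSectionVars false

open IsDedekindDomain Ideal NumberField
open Fermat.Agent.CFT.SplitPrimes Fermat.Agent.CFT.NotAllSplit Fermat.Agent.CFT.ArtinSymbol
  Fermat.Agent.ES.GAL.ChebAbstract23 Fermat.Agent.ES.GAL.ChebDensity23
  Fermat.Agent.CFT.CycloDisjoint
  Fermat.Agent.DS.Cheb.Cross51Count Fermat.Agent.DS.Cheb.Cross51Defs
  Fermat.Agent.DS.Cheb.Cross51Desc Fermat.Agent.DS.Cheb.Cross51Pair

namespace Fermat.Agent.DS.Cheb.Cross51Main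

/-- The primes of `F`, good for `L` (prime norm not dividing `M * disc L`), with Frobenius `σ`. -/
def frobEq (F L : Type) [Field F] [Field L] [NumberField F] [NumberField L] [Algebra F L]
    [IsGalois F L] (M : ℕ) (σ : L ≃ₐ[F] L) : Set (HeightOneSpectrum (𝓞 F)) :=
  {p | p ∈ good F L M ∧ frobOf F L p.asIdeal = σ}

section Generic

variable {F L Ω : Type} [Field F] [Field L] [Field Ω] [NumberField F] [NumberField L]
  [NumberField Ω] [Algebra F L] [Algebra L Ω] [Algebra F Ω] [IsScalarTower F L Ω]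
  [IsGalois F L] [IsMulCommutative (L ≃ₐ[F] L)] [IsGalois F Ω] [IsMulCommutative (Ω ≃ₐ[F] Ω)]
  {m : ℕ} [NeZero m] [IsCyclotomicExtension {m} L Ω] {ζ : Ω}

theorem TF_subset_frobEq (hζ : IsPrimitiveRoot ζ m) (M : ℕ) (σ : L ≃ₐ[F] L) (u : (ZMod m)ˣ) :
    TF (F := F) (L := L) hζ M σ u ⊆ frobEq F L M σ := by
  rintro p ⟨hp, hσ, -⟩
  exact ⟨good_top_subset (L := L) M hp, by rw [frob_restrictNormal (L := L) M p hp, hσ]⟩

/-- Summing the sets `TF σ (f u)` over `u`: every prime is counted at most twice. -/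
theorem sum_TF_le (hζ : IsPrimitiveRoot ζ m) (M : ℕ) (σ : L ≃ₐ[F] L)
    (f : (ZMod m)ˣ → (ZMod m)ˣ) (hf : Function.Injective f) (A : Finset (ZMod m)ˣ)
    {s : ℝ} (hs : 1 < s) :
    ∑ u ∈ A, wsum (xP F s) (TF (F := F) (L := L) hζ M σ (f u)) ≤
      2 * wsum (xP F s) (frobEq F L M σ) := by
  classical
  have hx0 : ∀ p, 0 ≤ xP F s p := fun p => (xP_pos F s p).le
  have h := sum_wsum_le (xP F s) hx0 (summable_xP F hs) A
    (fun u => TF (F := F) (L := L) hζ M σ (f u)) (frobEq F L M σ) 2 ?_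
    (fun u _ => TF_subset_frobEq hζ M σ (f u))
  · exact_mod_cast h
  · intro p B _ hB
    have hsub : B.image f ⊆ {hζ.autToPow F (frobOf F Ω p.asIdeal),
        -hζ.autToPow F (frobOf F Ω p.asIdeal)} := by
      intro v hv
      obtain ⟨u, hu, rfl⟩ := Finset.mem_image.mp hv
      obtain ⟨-, -, h | h⟩ := hB u hu
      · rw [Finset.mem_insert]; left; exact h.symm
      · rw [Finset.mem_insert, Finset.mem_singleton]; right; rw [h, neg_neg]
    calc B.card = (B.image f).card := (Finset.card_image_of_injective B hf).symm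
      _ ≤ _ := Finset.card_le_card hsub
      _ ≤ 2 := Finset.card_le_two

/-- **Lower bound from the crossing** with one auxiliary prime `m`. -/
theorem lower_sym (h2 : C2SymStatement) (hζ : IsPrimitiveRoot ζ m)
    (hm : Nat.Coprime m (discr L).natAbs) (hmp : m.Prime) (h3 : 3 ≤ m) (M : ℕ) (hM : M ≠ 0)
    (σ : L ≃ₐ[F] L) (k : ℕ) (hmk : 2 * Module.finrank F L ^ k ∣ m - 1) :
    ∃ B : ℝ, ∀ s ∈ Set.Ioc (1 : ℝ) 2,
      2 * (1 - (Module.finrank F L : ℝ) / 2 ^ k) * Real.log (1 / (s - 1)) - B ≤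
        (Module.finrank F L : ℝ) *
          (wsum (xP F s) (frobEq F L M σ) + wsum (xP F s) (frobEq F L M σ⁻¹)) := by
  classical
  have : Fact m.Prime := ⟨hmp⟩
  set n := Module.finrank F L with hn
  have hn0 : n ≠ 0 := (Module.finrank_pos (R := F) (M := L)).ne'
  set GoodU : Finset (ZMod m)ˣ := Finset.univ.filter (fun u => GoodUnit n u) with hGoodU
  have hpair : ∀ u ∈ GoodU, ∃ B : ℝ, ∀ s ∈ Set.Ioc (1 : ℝ) 2,
      2 * (2 * (Real.log (1 / (s - 1)) - B)) ≤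
        (Module.finrank F Ω : ℝ) * (wsum (xP F s) (TF (F := F) (L := L) hζ M σ u) +
          wsum (xP F s) (TF (F := F) (L := L) hζ M σ⁻¹ u⁻¹)) :=
    fun u hu => pair_lower_sym h2 hζ hm hmp h3 M hM σ u (Finset.mem_filter.mp hu).2
  choose! B hB using hpair
  set B₀ : ℝ := ∑ u ∈ GoodU, |B u| with hB₀
  have hB₀0 : 0 ≤ B₀ := Finset.sum_nonneg fun u _ => abs_nonneg _
  have hcard := card_good_ge (m := m) hn0 hmk
  have hdeg : Module.finrank F Ω = n * (m - 1) := by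
    rw [finrank_top_eq (K := F) (L := L) hm, Nat.totient_prime hmp]
  refine ⟨2 * B₀, fun s hs => ?_⟩
  have hx0 : ∀ p, 0 ≤ xP F s p := fun p => (xP_pos F s p).le
  set W1 := wsum (xP F s) (frobEq F L M σ) with hW1
  set W2 := wsum (xP F s) (frobEq F L M σ⁻¹) with hW2
  have hW10 : 0 ≤ W1 := wsum_nonneg hx0 _
  have hW20 : 0 ≤ W2 := wsum_nonneg hx0 _
  set Lg := Real.log (1 / (s - 1)) with hLg
  have hLg0 : 0 ≤ Lg := by
    apply Real.log_nonneg
    rw [le_div_iff₀ (by linarith [hs.1])]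
    linarith [hs.2]
  -- sum the pair bounds
  have h1 : ∑ u ∈ GoodU, 2 * (2 * (Lg - B u)) ≤
      ∑ u ∈ GoodU, (Module.finrank F Ω : ℝ) *
        (wsum (xP F s) (TF (F := F) (L := L) hζ M σ u) +
          wsum (xP F s) (TF (F := F) (L := L) hζ M σ⁻¹ u⁻¹)) :=
    Finset.sum_le_sum fun u hu => hB u hu s hs
  have h2' : ∑ u ∈ GoodU, (Module.finrank F Ω : ℝ) *
        (wsum (xP F s) (TF (F := F) (L := L) hζ M σ u) +
          wsum (xP F s) (TF (F := F) (L := L) hζ M σ⁻¹ u⁻¹)) =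
      (Module.finrank F Ω : ℝ) * (∑ u ∈ GoodU, wsum (xP F s) (TF (F := F) (L := L) hζ M σ u) +
        ∑ u ∈ GoodU, wsum (xP F s) (TF (F := F) (L := L) hζ M σ⁻¹ u⁻¹)) := by
    rw [← Finset.mul_sum, Finset.sum_add_distrib]
  have h3' := sum_TF_le (F := F) (L := L) hζ M σ id Function.injective_id GoodU hs.1
  have h4 := sum_TF_le (F := F) (L := L) hζ M σ⁻¹ (fun u => u⁻¹) inv_injective GoodU hs.1
  simp only [id] at h3'
  have h5 : ∑ u ∈ GoodU, 2 * (2 * (Lg - B u)) = 4 * (GoodU.card : ℝ) * Lg - 4 * ∑ u ∈ GoodU, B u := by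
    have h : ∀ u ∈ GoodU, 2 * (2 * (Lg - B u)) = 4 * Lg - 4 * B u := fun u _ => by ring
    rw [Finset.sum_congr rfl h, Finset.sum_sub_distrib, Finset.sum_const, nsmul_eq_mul,
      ← Finset.mul_sum]
    ring
  have h6 : ∑ u ∈ GoodU, B u ≤ B₀ := Finset.sum_le_sum fun u _ => le_abs_self _
  have hq : (2 : ℝ) ≤ ((m - 1 : ℕ) : ℝ) := by
    have : 2 ≤ m - 1 := by omega
    exact_mod_cast this
  have hdegR : (Module.finrank F Ω : ℝ) = (n : ℝ) * ((m - 1 : ℕ) : ℝ) := by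
    rw [hdeg]; push_cast; ring
  have hfin0 : (0 : ℝ) ≤ (Module.finrank F Ω : ℝ) := Nat.cast_nonneg _
  -- combine
  have h7 : 4 * (GoodU.card : ℝ) * Lg - 4 * B₀ ≤
      (n : ℝ) * ((m - 1 : ℕ) : ℝ) * (2 * W1 + 2 * W2) := by
    have h8 : (Module.finrank F Ω : ℝ) *
        (∑ u ∈ GoodU, wsum (xP F s) (TF (F := F) (L := L) hζ M σ u) +
          ∑ u ∈ GoodU, wsum (xP F s) (TF (F := F) (L := L) hζ M σ⁻¹ u⁻¹)) ≤
        (Module.finrank F Ω : ℝ) * (2 * W1 + 2 * W2) :=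
      mul_le_mul_of_nonneg_left (add_le_add h3' h4) hfin0
    rw [← hdegR]
    linarith
  have h9 : 4 * (((m - 1 : ℕ) : ℝ) * (1 - (n : ℝ) / 2 ^ k)) * Lg ≤ 4 * (GoodU.card : ℝ) * Lg := by
    have := mul_le_mul_of_nonneg_right hcard hLg0
    linarith
  -- divide by `2 (m - 1)`
  have hqpos : (0 : ℝ) < ((m - 1 : ℕ) : ℝ) := by linarith
  have h10 : ((m - 1 : ℕ) : ℝ) * (2 * (1 - (n : ℝ) / 2 ^ k) * Lg - 2 * B₀) ≤
      ((m - 1 : ℕ) : ℝ) * ((n : ℝ) * (W1 + W2)) := by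
    have h11 : 2 * B₀ ≤ ((m - 1 : ℕ) : ℝ) * B₀ := mul_le_mul_of_nonneg_right hq hB₀0
    nlinarith [h7, h9, h11]
  exact le_of_mul_le_mul_left h10 hqpos

end Generic

/-! ### The main theorem -/

section Main

variable (F L : Type) [Field F] [Field L] [NumberField F] [NumberField L] [Algebra F L]
  [IsGalois F L] [IsMulCommutative (L ≃ₐ[F] L)]

/-- Lower bound with relative error `n / 2 ^ k`, for every `k`. -/
theorem lower_sym_all (h2 : C2SymStatement) (M : ℕ) (hM : M ≠ 0) (k : ℕ) :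
    ∀ σ : L ≃ₐ[F] L, ∃ B : ℝ, ∀ s ∈ Set.Ioc (1 : ℝ) 2,
      2 * (1 - (Module.finrank F L : ℝ) / 2 ^ k) * Real.log (1 / (s - 1)) - B ≤
        (Module.finrank F L : ℝ) *
          (wsum (xP F s) (frobEq F L M σ) + wsum (xP F s) (frobEq F L M σ⁻¹)) := by
  classical
  set n := Module.finrank F L with hn
  have hn0 : n ≠ 0 := (Module.finrank_pos (R := F) (M := L)).ne'
  have hd0 : (discr L).natAbs ≠ 0 := Int.natAbs_ne_zero.mpr (discr_ne_zero L)
  obtain ⟨m, hmp, hgt, hmod⟩ := Nat.exists_prime_gt_modEq_one (k := 2 * n ^ k)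
    (max 2 (discr L).natAbs) (Nat.mul_ne_zero two_ne_zero (pow_ne_zero k hn0))
  have h3 : 3 ≤ m := by
    have := le_max_left 2 (discr L).natAbs
    omega
  have hmd : (discr L).natAbs < m := lt_of_le_of_lt (le_max_right _ _) hgt
  have hm : Nat.Coprime m (discr L).natAbs := by
    rw [Nat.Prime.coprime_iff_not_dvd hmp]
    intro h
    exact absurd (Nat.le_of_dvd (Nat.pos_of_ne_zero hd0) h) (not_le.mpr hmd)
  have hmk : 2 * n ^ k ∣ m - 1 := (Nat.modEq_iff_dvd' hmp.one_le).mp hmod.symm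
  have : NeZero m := ⟨hmp.ne_zero⟩
  have hζ := IsCyclotomicExtension.zeta_spec m L (CyclotomicField m L)
  have : IsGalois F (CyclotomicField m L) := isGalois_top (K := F) (L := L) hζ
  have : IsMulCommutative ((CyclotomicField m L) ≃ₐ[F] (CyclotomicField m L)) :=
    ⟨⟨fun a b => (galEquivProd (K := F) (L := L) hζ hm).injective (by
      rw [map_mul, map_mul]
      exact Prod.ext (mul_comm' _ _) (mul_comm _ _))⟩⟩
  intro σ
  exact lower_sym (F := F) (L := L) (Ω := CyclotomicField m L) h2 hζ hm hmp h3 M hM σ k hmk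

/-- **Chebotarev for abelian extensions, symmetric form** (crossing argument). -/
theorem cheb_abelian_sym (h2 : C2SymStatement) (M : ℕ) (hM : M ≠ 0) (σ : L ≃ₐ[F] L)
    (ε : ℝ) (hε : 0 < ε) :
    ∃ B : ℝ, ∀ s ∈ Set.Ioc (1 : ℝ) 2,
      |(Module.finrank F L : ℝ) *
          (wsum (xP F s) (frobEq F L M σ) + wsum (xP F s) (frobEq F L M σ⁻¹)) -
        2 * Real.log (1 / (s - 1))| ≤ ε * Real.log (1 / (s - 1)) + B := by
  classical
  let _ : Fintype (L ≃ₐ[F] L) := Fintype.ofFinite _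
  set n := Module.finrank F L with hn
  have hn0 : 0 < n := Module.finrank_pos (R := F) (M := L)
  have hn1 : (1 : ℝ) ≤ (n : ℝ) := by exact_mod_cast hn0
  -- choose `k`
  obtain ⟨k, hk⟩ := pow_unbounded_of_one_lt (2 * (n : ℝ) * n / ε) (one_lt_two : (1 : ℝ) < 2)
  set δ : ℝ := (n : ℝ) / 2 ^ k with hδ
  have h2k : (0 : ℝ) < 2 ^ k := by positivity
  have hδ0 : 0 ≤ δ := by positivity
  have hδε : 2 * (n : ℝ) * δ ≤ ε := by
    rw [div_lt_iff₀ hε] at hk
    rw [hδ, ← mul_div_assoc, div_le_iff₀ h2k]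
    linarith
  -- lower bounds for all elements
  choose Bl hBl using lower_sym_all F L h2 M hM k
  set Bsum : ℝ := ∑ τ : L ≃ₐ[F] L, |Bl τ| with hBsum
  have hBsum0 : 0 ≤ Bsum := Finset.sum_nonneg fun τ _ => abs_nonneg _
  obtain ⟨B1, hB1⟩ := primeZeta_bound F
  refine ⟨2 * (n : ℝ) * |B1| + Bsum, fun s hs => ?_⟩
  have hx0 : ∀ p, 0 ≤ xP F s p := fun p => (xP_pos F s p).le
  have hsum : Summable (xP F s) := summable_xP F hs.1
  set Lg := Real.log (1 / (s - 1)) with hLg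
  have hLg0 : 0 ≤ Lg := by
    apply Real.log_nonneg
    rw [le_div_iff₀ (by linarith [hs.1])]
    linarith [hs.2]
  set W : (L ≃ₐ[F] L) → ℝ := fun τ =>
    wsum (xP F s) (frobEq F L M τ) + wsum (xP F s) (frobEq F L M τ⁻¹) with hW
  -- total
  have htot1 : ∑ τ : L ≃ₐ[F] L, wsum (xP F s) (frobEq F L M τ) = wsum (xP F s) (good F L M) :=
    (wsum_eq_sum_fiber (xP F s) hsum (good F L M) (fun p => frobOf F L p.asIdeal)).symm
  have htot2 : ∑ τ : L ≃ₐ[F] L, wsum (xP F s) (frobEq F L M τ⁻¹) =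
      wsum (xP F s) (good F L M) := by
    rw [← htot1]
    exact Equiv.sum_comp (Equiv.inv (L ≃ₐ[F] L)) (fun τ => wsum (xP F s) (frobEq F L M τ))
  have hgood : wsum (xP F s) (good F L M) ≤ Lg + |B1| := by
    have h1 : wsum (xP F s) (good F L M) ≤ primeZeta F s := by
      unfold wsum primeZeta
      exact Summable.tsum_le_tsum (fun p => Set.indicator_le_self' (fun _ _ => hx0 _) p)
        (hsum.indicator _) hsum
    have h3 := (abs_le.mp (hB1 s hs)).2
    linarith [le_abs_self B1]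
  have htot : ∑ τ : L ≃ₐ[F] L, (n : ℝ) * W τ ≤ 2 * (n : ℝ) * (Lg + |B1|) := by
    rw [← Finset.mul_sum, hW, Finset.sum_add_distrib, htot1, htot2]
    nlinarith [hgood, hn1]
  -- split off `σ`
  have hsplit : ∑ τ : L ≃ₐ[F] L, (n : ℝ) * W τ =
      (n : ℝ) * W σ + ∑ τ ∈ Finset.univ.erase σ, (n : ℝ) * W τ :=
    (Finset.add_sum_erase Finset.univ _ (Finset.mem_univ σ)).symm
  have hlowsum : ∑ τ ∈ Finset.univ.erase σ, (2 * (1 - δ) * Lg - Bl τ) ≤
      ∑ τ ∈ Finset.univ.erase σ, (n : ℝ) * W τ :=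
    Finset.sum_le_sum fun τ _ => hBl τ s hs
  have hcardG : (Finset.univ.erase σ).card = n - 1 := by
    rw [Finset.card_erase_of_mem (Finset.mem_univ σ), Finset.card_univ,
      ← Nat.card_eq_fintype_card, IsGalois.card_aut_eq_finrank F L]
  have hlowsum' : ∑ τ ∈ Finset.univ.erase σ, (2 * (1 - δ) * Lg - Bl τ) =
      ((n : ℝ) - 1) * (2 * (1 - δ) * Lg) - ∑ τ ∈ Finset.univ.erase σ, Bl τ := by
    rw [Finset.sum_sub_distrib, Finset.sum_const, hcardG, nsmul_eq_mul, Nat.cast_sub hn0,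
      Nat.cast_one]
  have hBle : ∑ τ ∈ Finset.univ.erase σ, Bl τ ≤ Bsum := by
    calc ∑ τ ∈ Finset.univ.erase σ, Bl τ ≤ ∑ τ ∈ Finset.univ.erase σ, |Bl τ| :=
          Finset.sum_le_sum fun τ _ => le_abs_self _
      _ ≤ Bsum := Finset.sum_le_sum_of_subset_of_nonneg (Finset.erase_subset _ _)
          (fun τ _ _ => abs_nonneg _)
  have hlowσ := hBl σ s hs
  have hBlσ : Bl σ ≤ Bsum :=
    (le_abs_self _).trans (Finset.single_le_sum (f := fun τ => |Bl τ|)
      (fun τ _ => abs_nonneg _) (Finset.mem_univ σ))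
  have hδL : 0 ≤ δ * Lg := mul_nonneg hδ0 hLg0
  have hεL : 2 * (n : ℝ) * δ * Lg ≤ ε * Lg := mul_le_mul_of_nonneg_right hδε hLg0
  have hnB : 0 ≤ (n : ℝ) * |B1| := mul_nonneg (by linarith) (abs_nonneg _)
  rw [abs_le]
  constructor
  · -- lower
    have : 2 * δ * Lg ≤ 2 * (n : ℝ) * δ * Lg := by nlinarith [hδL, hn1]
    change -(ε * Lg + (2 * (n : ℝ) * |B1| + Bsum)) ≤ (n : ℝ) * W σ - 2 * Lg
    nlinarith [hlowσ, hBlσ]
  · -- upper
    have h5 : (n : ℝ) * W σ ≤ 2 * (n : ℝ) * (Lg + |B1|) -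
        (((n : ℝ) - 1) * (2 * (1 - δ) * Lg) - Bsum) := by
      have := hsplit ▸ htot
      linarith [hlowsum, hlowsum'.symm.le, hlowsum'.le]
    have h6 : ((n : ℝ) - 1) * (2 * δ * Lg) ≤ 2 * (n : ℝ) * δ * Lg := by nlinarith [hδL, hn1]
    change (n : ℝ) * W σ - 2 * Lg ≤ ε * Lg + (2 * (n : ℝ) * |B1| + Bsum)
    nlinarith [h5, h6, hεL]

end Main

end Fermat.Agent.DS.Cheb.Cross51Main
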