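/-
Programme DS (S48), brick B3-D (helper7): Deuring reduction, part 3: the counting identities.

`L/K` finite Galois extension of number fields, `G = Gal(L/K)`, `m : ℕ`.  Good primes: prime
absolute norm not dividing `m * disc L` (as in `ES/GAL/ChebDensity23`).

* `frobClass K L m σ` : good primes `q` of `K` such that `σ` is a Frobenius at some prime over `q`;
* `frobAllIn K L m C` : good primes `q` of `K` all of whose Frobenius elements lie in `C`;
* `wK K L m σ s = ∑_{q good} #{P | q : Frob_P = σ} · N q ^ (-s)`.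

Main results (exact identities, valid for every `s > 1`; no asymptotics):

* `wsum_frobClass_fixed` : for `F.fixingSubgroup = ⟨σ⟩`, `τ ∈ Gal(L/F)` restricting to `σ`:
  `wsum (xP F s) (frobClass F L m τ) = wK K L m σ s`;
* `orderOf_mul_wK` : `ord σ · wK K L m σ s = |C_G(σ)| · wsum (xP K s) (frobClass K L m σ)`;
* `sum_orderOf_mul_wK` : for `C` stable under conjugation
  `∑_{σ ∈ C} ord σ · wK K L m σ s = |G| · wsum (xP K s) (frobAllIn K L m C)`.
-/
import Mathlib
import Fermat.Agent.DS.Cheb.Reduce7Fixed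

set_option autoImplicit false
set_option linter.unusedSectionVars false
set_option linter.style.longLine false
set_option linter.style.haveILetI false

open IsDedekindDomain Ideal NumberField
open scoped Pointwise
open Fermat.Agent.CFT.SplitPrimes Fermat.Agent.CFT.NotAllSplit
  Fermat.Agent.ES.GAL.ChebAbstract23
  Fermat.Agent.DS.Cheb.Reduce7Decomp Fermat.Agent.DS.Cheb.Reduce7Fixed

namespace Fermat.Agent.DS.Cheb.Reduce7Count

/-! ### An abstract summation lemma -/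

/-- Summation along the fibres of `π` of a function that is constant (`= y b`) on the part of each
fibre inside `A`. -/
theorem tsum_indicator_eq_tsum_ncard {α β : Type*} (π : α → β) (A : Set α) (x : α → ℝ)
    (y : β → ℝ) (hxy : ∀ a ∈ A, x a = y (π a)) (hx : Summable (A.indicator x)) :
    ∑' a, A.indicator x a = ∑' b, ((A ∩ π ⁻¹' {b}).ncard : ℝ) * y b := by
  classical
  rw [← (hx.hasSum.tsum_fiberwise π).tsum_eq]
  refine tsum_congr fun b => ?_
  rw [tsum_subtype (π ⁻¹' {b}) (A.indicator x)]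
  have h1 : (π ⁻¹' {b}).indicator (A.indicator x) = (A ∩ π ⁻¹' {b}).indicator (fun _ => y b) := by
    funext a
    simp only [Set.indicator_apply, Set.mem_inter_iff, Set.mem_preimage, Set.mem_singleton_iff]
    by_cases ha : a ∈ A
    · by_cases hb : π a = b
      · rw [if_pos hb, if_pos ha, if_pos (show a ∈ A ∧ π a = b from ⟨ha, hb⟩), hxy a ha, hb]
      · rw [if_neg hb, if_neg (show ¬ (a ∈ A ∧ π a = b) from fun h => hb h.2)]
    · rw [if_neg (show ¬ (a ∈ A ∧ π a = b) from fun h => ha h.1)]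
      by_cases hb : π a = b
      · rw [if_pos hb, if_neg ha]
      · rw [if_neg hb]
  rw [h1, ← tsum_subtype (A ∩ π ⁻¹' {b}) (fun _ => y b), tsum_const, Nat.card_coe_set_eq,
    nsmul_eq_mul]

/-! ### The sets of primes -/

section Defs

variable (K L : Type) [Field K] [Field L] [NumberField K] [NumberField L] [Algebra K L]
  [IsGalois K L]

/-- Good primes `q` of `K` such that `σ` is a Frobenius at some prime of `L` over `q`. -/
def frobClass (m : ℕ) (σ : L ≃ₐ[K] L) : Set (HeightOneSpectrum (𝓞 K)) :=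
  {q | q ∈ goodPrimes K (m * (discr L).natAbs) ∧ (frobPrimes q.asIdeal σ).Nonempty}

/-- Good primes `q` of `K` all of whose Frobenius elements lie in `C`. -/
def frobAllIn (m : ℕ) (C : Set (L ≃ₐ[K] L)) : Set (HeightOneSpectrum (𝓞 K)) :=
  {q | q ∈ goodPrimes K (m * (discr L).natAbs) ∧
    ∀ (P : Ideal (𝓞 L)) (σ : L ≃ₐ[K] L), P.IsPrime → P.under (𝓞 K) = q.asIdeal →
      IsArithFrobAt (𝓞 K) σ P → σ ∈ C}

/-- `∑_{q good} #{P | q : Frob_P = σ} · N q ^ (-s)`. -/
noncomputable def wK (m : ℕ) (σ : L ≃ₐ[K] L) (s : ℝ) : ℝ :=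
  ∑' q : HeightOneSpectrum (𝓞 K), (goodPrimes K (m * (discr L).natAbs)).indicator
    (fun q => ((frobPrimes q.asIdeal σ).ncard : ℝ) * xP K s q) q

end Defs

variable {K L : Type} [Field K] [Field L] [NumberField K] [NumberField L] [Algebra K L]
  [IsGalois K L]

/-! ### Good primes: unramifiedness -/

theorem good_not_dvd_discr {m : ℕ} {q : HeightOneSpectrum (𝓞 K)}
    (hq : q ∈ goodPrimes K (m * (discr L).natAbs)) {P : Ideal (𝓞 L)}
    (hPq : P.under (𝓞 K) = q.asIdeal) :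
    (absNorm (P.under (𝓞 K))).Prime ∧ ¬ ((absNorm (P.under (𝓞 K)) : ℕ) : ℤ) ∣ discr L := by
  rw [hPq]
  exact ⟨hq.1, Fermat.Agent.ES.GAL.ChebDensity23.not_dvd_discr_of_not_dvd_mul hq.2⟩

theorem frobPrimes_finite (q : HeightOneSpectrum (𝓞 K)) (σ : L ≃ₐ[K] L) :
    (frobPrimes q.asIdeal σ).Finite := by
  have := q.isMaximal
  refine (IsDedekindDomain.primesOver_finite q.asIdeal (𝓞 L)).subset ?_
  rintro P ⟨hP, hPq, -⟩
  exact ⟨hP, ⟨hPq.symm⟩⟩

/-! ### The fibres of `below` on `frobClass F L m τ` -/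

section Fibre

variable (F : IntermediateField K L)

theorem below_mem_good {m : ℕ} {𝔭 : HeightOneSpectrum (𝓞 F)}
    (h𝔭 : 𝔭 ∈ goodPrimes F (m * (discr L).natAbs)) :
    below (R := 𝓞 K) 𝔭 ∈ goodPrimes K (m * (discr L).natAbs) ∧
      absNorm 𝔭.asIdeal = absNorm (below (R := 𝓞 K) 𝔭).asIdeal := by
  have h := absNorm_under_of_prime (K := K) F (𝔭 := 𝔭.asIdeal) h𝔭.1
  rw [below_asIdeal]
  refine ⟨⟨?_, ?_⟩, h.symm⟩
  · rw [below_asIdeal, h]; exact h𝔭.1
  · rw [below_asIdeal, h]; exact h𝔭.2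

/-- The fibre of `below` over a good prime `q` inside `frobClass F L m τ` is in bijection with the
set of primes of `L` over `q` with Frobenius `σ`. -/
theorem ncard_fibre {σ : L ≃ₐ[K] L} (hF : F.fixingSubgroup = Subgroup.zpowers σ)
    {τ : L ≃ₐ[F] L} (hτ : τ.restrictScalars K = σ) (m : ℕ) {q : HeightOneSpectrum (𝓞 K)}
    (hq : q ∈ goodPrimes K (m * (discr L).natAbs)) :
    (frobClass F L m τ ∩ below (R := 𝓞 K) ⁻¹' {q}).ncard = (frobPrimes q.asIdeal σ).ncard := by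
  symm
  have hprime : ∀ P ∈ frobPrimes q.asIdeal σ, P.IsPrime := fun P hP => hP.1
  have hne : ∀ P ∈ frobPrimes q.asIdeal σ, P.under (𝓞 F) ≠ ⊥ := by
    rintro P ⟨hP, hPq, -⟩
    have hP0 : P ≠ ⊥ := ne_bot_of_good (K := K) (by rw [hPq]; exact hq.1)
    exact Ideal.under_ne_bot (𝓞 F) hP0
  refine Set.ncard_congr
    (fun P hP => (⟨P.under (𝓞 F), by haveI := hprime P hP; infer_instance, hne P hP⟩ :
      HeightOneSpectrum (𝓞 F))) ?_ ?_ ?_
  · -- maps to
    rintro P ⟨hP, hPq, hPσ⟩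
    haveI := hP
    obtain ⟨hqn, hd⟩ := good_not_dvd_discr hq hPq
    have hN := absNorm_under_eq F hF hqn hd hPσ
    have hbelow : below (R := 𝓞 K) (⟨P.under (𝓞 F), inferInstance,
        hne P ⟨hP, hPq, hPσ⟩⟩ : HeightOneSpectrum (𝓞 F)) = q := by
      apply HeightOneSpectrum.ext
      rw [below_asIdeal]
      change (P.under (𝓞 F)).under (𝓞 K) = q.asIdeal
      rw [Ideal.under_under, hPq]
    refine ⟨⟨⟨?_, ?_⟩, ⟨P, hP, rfl, isArithFrobAt_of_restrictScalars F hF hτ hqn hd hPσ⟩⟩, hbelow⟩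
    · change (absNorm (P.under (𝓞 F))).Prime
      rw [hN]; exact hqn
    · change ¬ absNorm (P.under (𝓞 F)) ∣ _
      rw [hN, hPq]; exact hq.2
  · -- injective
    intro P P' hPmem hP'mem h
    obtain ⟨hP, hPq, hPσ⟩ := hPmem
    have hP' : P'.IsPrime := hP'mem.1
    haveI := hP
    haveI := hP'
    obtain ⟨hqn, hd⟩ := good_not_dvd_discr hq hPq
    exact under_injOn F hF hqn hd hPσ (congrArg HeightOneSpectrum.asIdeal h)
  · -- surjective
    rintro 𝔭 ⟨⟨h𝔭g, P, hP, hP𝔭, hPτ⟩, h𝔭q⟩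
    haveI := hP
    have hq' : below (R := 𝓞 K) 𝔭 = q := h𝔭q
    have hPq : P.under (𝓞 K) = q.asIdeal := by
      rw [← hq', below_asIdeal, ← hP𝔭, Ideal.under_under]
    have hn : (absNorm (P.under (𝓞 F))).Prime := by rw [hP𝔭]; exact h𝔭g.1
    have hσ : IsArithFrobAt (𝓞 K) σ P := by
      rw [← hτ]
      exact isArithFrobAt_restrictScalars F hn hPτ
    exact ⟨P, ⟨hP, hPq, hσ⟩, HeightOneSpectrum.ext hP𝔭⟩

theorem fibre_eq_empty {τ : L ≃ₐ[F] L} (m : ℕ) {q : HeightOneSpectrum (𝓞 K)}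
    (hq : q ∉ goodPrimes K (m * (discr L).natAbs)) :
    frobClass F L m τ ∩ below (R := 𝓞 K) ⁻¹' {q} = ∅ := by
  rw [Set.eq_empty_iff_forall_notMem]
  rintro 𝔭 ⟨⟨h𝔭g, -⟩, h𝔭q⟩
  have hq' : below (R := 𝓞 K) 𝔭 = q := h𝔭q
  exact hq (hq' ▸ (below_mem_good F h𝔭g).1)

/-- **Deuring's identity.**  The prime zeta sum over the good primes of the fixed field `F` of
`⟨σ⟩` with Frobenius `σ` is the sum over the good primes `q` of `K` of
`#{P | q : Frob_P = σ} · N q ^ (-s)`. -/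
theorem wsum_frobClass_fixed {σ : L ≃ₐ[K] L} (hF : F.fixingSubgroup = Subgroup.zpowers σ)
    {τ : L ≃ₐ[F] L} (hτ : τ.restrictScalars K = σ) (m : ℕ) {s : ℝ} (hs : 1 < s) :
    wsum (xP F s) (frobClass F L m τ) = wK K L m σ s := by
  unfold wsum wK
  rw [tsum_indicator_eq_tsum_ncard (below (R := 𝓞 K)) (frobClass F L m τ) (xP F s) (xP K s) ?_
    ((summable_xP F hs).indicator _)]
  · refine tsum_congr fun q => ?_
    by_cases hq : q ∈ goodPrimes K (m * (discr L).natAbs)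
    · rw [Set.indicator_of_mem hq, ncard_fibre F hF hτ m hq]
    · rw [Set.indicator_of_notMem hq, fibre_eq_empty F m hq, Set.ncard_empty, Nat.cast_zero,
        zero_mul]
  · rintro 𝔭 ⟨h𝔭g, -⟩
    unfold xP
    rw [(below_mem_good (K := K) F h𝔭g).2]

end Fibre

/-! ### Summability of the weighted sum -/

theorem ncard_frobPrimes_le (q : HeightOneSpectrum (𝓞 K)) (σ : L ≃ₐ[K] L) :
    (frobPrimes q.asIdeal σ).ncard ≤ Module.finrank K L := by
  have := q.isMaximal
  obtain ⟨hfin, hle⟩ := ncard_primesOver_le (S := 𝓞 L) q.asIdeal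
  rw [finrank_int] at hle
  refine (Set.ncard_le_ncard ?_ hfin).trans hle
  rintro P ⟨hP, hPq, -⟩
  exact ⟨hP, ⟨hPq.symm⟩⟩

theorem summable_wK (m : ℕ) (σ : L ≃ₐ[K] L) {s : ℝ} (hs : 1 < s) :
    Summable (fun q : HeightOneSpectrum (𝓞 K) =>
      (goodPrimes K (m * (discr L).natAbs)).indicator
        (fun q => ((frobPrimes q.asIdeal σ).ncard : ℝ) * xP K s q) q) := by
  refine Summable.of_nonneg_of_le (fun q => ?_) (fun q => ?_)
    ((summable_xP K hs).mul_left (Module.finrank K L : ℝ))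
  · exact Set.indicator_nonneg (fun q _ => mul_nonneg (Nat.cast_nonneg _) (xP_pos K s q).le) q
  · by_cases hq : q ∈ goodPrimes K (m * (discr L).natAbs)
    · rw [Set.indicator_of_mem hq]
      exact mul_le_mul_of_nonneg_right (by exact_mod_cast ncard_frobPrimes_le q σ)
        (xP_pos K s q).le
    · rw [Set.indicator_of_notMem hq]
      exact mul_nonneg (Nat.cast_nonneg _) (xP_pos K s q).le

/-! ### The per-element identity with the centraliser -/

/-- `ord σ · wK σ = |C_G(σ)| · ∑_{q ∈ frobClass σ} N q ^ (-s)`. -/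
theorem orderOf_mul_wK (m : ℕ) (σ : L ≃ₐ[K] L) (s : ℝ) :
    (orderOf σ : ℝ) * wK K L m σ s =
      (Nat.card (Subgroup.centralizer ({σ} : Set (L ≃ₐ[K] L))) : ℝ) *
        wsum (xP K s) (frobClass K L m σ) := by
  unfold wK wsum
  rw [← tsum_mul_left, ← tsum_mul_left]
  refine tsum_congr fun q => ?_
  by_cases hq : q ∈ goodPrimes K (m * (discr L).natAbs)
  · rw [Set.indicator_of_mem hq]
    by_cases hne : (frobPrimes q.asIdeal σ).Nonempty
    · have hmem : q ∈ frobClass K L m σ := ⟨hq, hne⟩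
      rw [Set.indicator_of_mem hmem]
      obtain ⟨P₀, hP₀, hP₀q, hP₀σ⟩ := hne
      haveI := hP₀
      obtain ⟨hqn, hd⟩ := good_not_dvd_discr hq hP₀q
      have h := ncard_frobPrimes_mul_orderOf (ne_bot_of_good (K := K) hqn)
        (inertia_eq_bot_of_good hqn hd) hP₀σ
      rw [hP₀q] at h
      rw [← h]
      push_cast
      ring
    · have hmem : q ∉ frobClass K L m σ := fun h => hne h.2
      rw [Set.indicator_of_notMem hmem, Set.not_nonempty_iff_eq_empty.mp hne, Set.ncard_empty]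
      simp
  · have hmem : q ∉ frobClass K L m σ := fun h => hq h.1
    rw [Set.indicator_of_notMem hq, Set.indicator_of_notMem hmem, mul_zero, mul_zero]

/-! ### The weighted identity for a conjugation-stable set -/

section Weighted

variable {m : ℕ} {q : HeightOneSpectrum (𝓞 K)}

/-- At a good prime, the order of a Frobenius is the common residue degree. -/
theorem orderOf_eq_inertiaDeg (hq : q ∈ goodPrimes K (m * (discr L).natAbs))
    {P₀ : Ideal (𝓞 L)} [P₀.IsPrime] (hP₀q : P₀.under (𝓞 K) = q.asIdeal)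
    {σ : L ≃ₐ[K] L} {P : Ideal (𝓞 L)} (hP : P ∈ frobPrimes q.asIdeal σ) :
    orderOf σ = P₀.inertiaDeg (𝓞 K) := by
  obtain ⟨hPp, hPq, hPσ⟩ := hP
  haveI := hPp
  obtain ⟨hqn, hd⟩ := good_not_dvd_discr hq hPq
  have hP0 : P ≠ ⊥ := ne_bot_of_good (K := K) hqn
  have hunr := inertia_eq_bot_of_good hqn hd
  have := q.isMaximal
  haveI : P.LiesOver q.asIdeal := ⟨hPq.symm⟩
  haveI : P₀.LiesOver q.asIdeal := ⟨hP₀q.symm⟩
  rw [← Nat.card_zpowers, ← stabilizer_eq_zpowers hP0 hunr hPσ,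
    card_stabilizer_eq_inertiaDeg hP0 hunr]
  exact Ideal.inertiaDeg_eq_of_isGaloisGroup q.asIdeal P P₀ (L ≃ₐ[K] L)

/-- Distinct elements have disjoint sets of primes (unramified case). -/
theorem frobPrimes_disjoint (hq : q ∈ goodPrimes K (m * (discr L).natAbs))
    {σ σ' : L ≃ₐ[K] L} (hne : σ ≠ σ') :
    Disjoint (frobPrimes q.asIdeal σ) (frobPrimes q.asIdeal σ') := by
  rw [Set.disjoint_left]
  rintro P ⟨hP, hPq, hPσ⟩ ⟨-, -, hPσ'⟩
  haveI := hP
  obtain ⟨hqn, hd⟩ := good_not_dvd_discr hq hPq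
  exact hne (Fermat.Agent.CFT.ArtinSymbol.isArithFrobAt_unique (inertia_eq_bot_of_good hqn hd)
    hPσ hPσ')

/-- The count at a good prime all of whose Frobenius elements lie in `C`. -/
theorem sum_orderOf_mul_ncard_of_mem (C : Finset (L ≃ₐ[K] L))
    (hq : q ∈ frobAllIn K L m (C : Set (L ≃ₐ[K] L))) :
    ∑ σ ∈ C, orderOf σ * (frobPrimes q.asIdeal σ).ncard = Nat.card (L ≃ₐ[K] L) := by
  classical
  obtain ⟨hqg, hall⟩ := hq
  obtain ⟨P₀, hP₀, hP₀q⟩ := Fermat.Agent.CFT.ArtinSymbol.exists_prime_over K L q.asIdeal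
  haveI := hP₀
  have := q.isMaximal
  haveI : P₀.LiesOver q.asIdeal := ⟨hP₀q.symm⟩
  obtain ⟨hqn, hd⟩ := good_not_dvd_discr hqg hP₀q
  have hunr := inertia_eq_bot_of_good hqn hd
  -- every term has `ord σ = f`
  have h1 : ∀ σ ∈ C, orderOf σ * (frobPrimes q.asIdeal σ).ncard =
      P₀.inertiaDeg (𝓞 K) * (frobPrimes q.asIdeal σ).ncard := by
    intro σ _
    by_cases hne : (frobPrimes q.asIdeal σ).Nonempty
    · obtain ⟨P, hP⟩ := hne
      rw [orderOf_eq_inertiaDeg hqg hP₀q hP]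
    · rw [Set.not_nonempty_iff_eq_empty.mp hne, Set.ncard_empty, mul_zero, mul_zero]
  rw [Finset.sum_congr rfl h1, ← Finset.mul_sum]
  -- the union of the `frobPrimes` over `C` is `primesOver`
  have hU : (⋃ σ ∈ (C : Set (L ≃ₐ[K] L)), frobPrimes q.asIdeal σ) =
      q.asIdeal.primesOver (𝓞 L) := by
    ext P
    simp only [Set.mem_iUnion, exists_prop]
    constructor
    · rintro ⟨σ, -, hP, hPq, -⟩
      exact ⟨hP, ⟨hPq.symm⟩⟩
    · rintro ⟨hP, hPq⟩
      haveI := hP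
      have hPq' : P.under (𝓞 K) = q.asIdeal := hPq.over.symm
      have hP0 : P ≠ ⊥ := ne_bot_of_good (K := K) (by rw [hPq']; exact hqg.1)
      obtain ⟨σ, hσ⟩ := Fermat.Agent.CFT.ArtinSymbol.exists_isArithFrobAt (K := K) P hP0
      exact ⟨σ, hall P σ hP hPq' hσ, hP, hPq', hσ⟩
  have hsum : ∑ σ ∈ C, (frobPrimes q.asIdeal σ).ncard =
      (q.asIdeal.primesOver (𝓞 L)).ncard := by
    rw [← hU, Set.Finite.ncard_biUnion C.finite_toSet (fun σ _ => frobPrimes_finite q σ)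
      (fun σ _ σ' _ hne => frobPrimes_disjoint hqg hne), finsum_mem_coe_finset]
  rw [hsum]
  have hmain := Ideal.ncard_primesOver_mul_card_inertia_mul_finrank (G := L ≃ₐ[K] L) q.asIdeal P₀
  rw [hunr, Subgroup.card_bot, mul_one] at hmain
  rw [mul_comm]
  exact hmain

/-- At a good prime having a Frobenius outside the conjugation-stable set `C`, no element of `C`
is a Frobenius. -/
theorem frobPrimes_eq_empty_of_notMem (C : Set (L ≃ₐ[K] L))
    (hC : ∀ g σ : L ≃ₐ[K] L, σ ∈ C → g * σ * g⁻¹ ∈ C)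
    (hqg : q ∈ goodPrimes K (m * (discr L).natAbs)) (hq : q ∉ frobAllIn K L m C)
    {σ : L ≃ₐ[K] L} (hσ : σ ∈ C) : frobPrimes q.asIdeal σ = ∅ := by
  rw [Set.eq_empty_iff_forall_notMem]
  rintro P ⟨hP, hPq, hPσ⟩
  apply hq
  refine ⟨hqg, fun P₁ σ₁ hP₁ hP₁q hσ₁ => ?_⟩
  haveI := hP
  haveI := hP₁
  obtain ⟨g, hg⟩ := Algebra.IsInvariant.exists_smul_of_under_eq (𝓞 K) (𝓞 L) (L ≃ₐ[K] L) P P₁
    (by rw [hPq, hP₁q])
  obtain ⟨hqn, hd⟩ := good_not_dvd_discr hqg hP₁q
  have hconj : IsArithFrobAt (𝓞 K) (g * σ * g⁻¹) (g • P) := hPσ.conj g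
  rw [← hg] at hconj
  have := Fermat.Agent.CFT.ArtinSymbol.isArithFrobAt_unique (inertia_eq_bot_of_good hqn hd)
    hσ₁ hconj
  rw [this]
  exact hC g σ hσ

/-- **Weighted Deuring identity.**  For `C` stable under conjugation,
`∑_{σ ∈ C} ord σ · wK σ = |G| · ∑_{q good, Frobenius elements in C} N q ^ (-s)`. -/
theorem sum_orderOf_mul_wK (m : ℕ) (C : Finset (L ≃ₐ[K] L))
    (hC : ∀ g σ : L ≃ₐ[K] L, σ ∈ C → g * σ * g⁻¹ ∈ C) {s : ℝ} (hs : 1 < s) :
    ∑ σ ∈ C, (orderOf σ : ℝ) * wK K L m σ s =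
      (Nat.card (L ≃ₐ[K] L) : ℝ) * wsum (xP K s) (frobAllIn K L m (C : Set (L ≃ₐ[K] L))) := by
  unfold wK wsum
  simp_rw [← tsum_mul_left]
  rw [← Summable.tsum_finsetSum (fun σ _ => (summable_wK m σ hs).mul_left _)]
  refine tsum_congr fun q => ?_
  by_cases hqg : q ∈ goodPrimes K (m * (discr L).natAbs)
  · simp_rw [Set.indicator_of_mem hqg]
    by_cases hq : q ∈ frobAllIn K L m (C : Set (L ≃ₐ[K] L))
    · rw [Set.indicator_of_mem hq, ← sum_orderOf_mul_ncard_of_mem C hq]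
      push_cast
      rw [Finset.sum_mul]
      refine Finset.sum_congr rfl fun σ _ => ?_
      ring
    · rw [Set.indicator_of_notMem hq, mul_zero]
      refine Finset.sum_eq_zero fun σ hσ => ?_
      rw [frobPrimes_eq_empty_of_notMem (C : Set (L ≃ₐ[K] L)) (fun g σ h => hC g σ h) hqg hq
        (Finset.mem_coe.mpr hσ), Set.ncard_empty]
      simp
  · have hq : q ∉ frobAllIn K L m (C : Set (L ≃ₐ[K] L)) := fun h => hqg h.1
    simp_rw [Set.indicator_of_notMem hqg, Set.indicator_of_notMem hq, mul_zero]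
    exact Finset.sum_const_zero

end Weighted

end Fermat.Agent.DS.Cheb.Reduce7Count
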