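/-
Programme DS (S48), brick B3-D (helper7): Deuring reduction, part 4: transfer of the symmetric
abelian density to conjugation- and inversion-stable sets of an arbitrary Galois extension.

* `frobClass_eq_of_comm` : in the abelian case `frobClass K L m σ = {q good | frobOf K L q = σ}`;
* `fixF σ`, `fixT σ` : the fixed field of `⟨σ⟩` and `σ` as an element of `Gal(L / fixF σ)`;
* `AbelianSymStatement` : the output shape of the crossing step (`Cross51Main.cheb_abelian_sym`);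
* `abs_card_mul_wsum_frobAllIn_sub_le` : `AbelianSymStatement` implies, for every Galois `L/K`,
  every `C ⊆ Gal(L/K)` stable under conjugation and inversion and every `ε > 0`,
  `| |G| · ∑_{q good, Frob ⊆ C} N q ^ (-s) - |C| · log (1/(s-1)) | ≤ ε · log (1/(s-1)) + B`.
-/
import Mathlib
import Fermat.Agent.DS.Cheb.Reduce7Count

set_option autoImplicit false
set_option linter.unusedSectionVars false
set_option linter.style.longLine false
set_option linter.style.haveILetI false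

open IsDedekindDomain Ideal NumberField
open scoped Pointwise
open Fermat.Agent.CFT.SplitPrimes Fermat.Agent.CFT.NotAllSplit Fermat.Agent.CFT.ArtinSymbol
  Fermat.Agent.ES.GAL.ChebAbstract23
  Fermat.Agent.DS.Cheb.Reduce7Decomp Fermat.Agent.DS.Cheb.Reduce7Fixed
  Fermat.Agent.DS.Cheb.Reduce7Count

namespace Fermat.Agent.DS.Cheb.Reduce7Transfer

variable {K L : Type} [Field K] [Field L] [NumberField K] [NumberField L] [Algebra K L]
  [IsGalois K L]

/-! ### The abelian case: `frobClass` in terms of `frobOf` -/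

/-- In the abelian case `frobClass` is the set of good primes with `frobOf = σ`. -/
theorem frobClass_eq_of_comm [IsMulCommutative (L ≃ₐ[K] L)] (m : ℕ) (σ : L ≃ₐ[K] L) :
    frobClass K L m σ =
      {p | p ∈ goodPrimes K (m * (discr L).natAbs) ∧ frobOf K L p.asIdeal = σ} := by
  ext q
  constructor
  · rintro ⟨hq, P, hP, hPq, hPσ⟩
    haveI := hP
    obtain ⟨hqn, hd⟩ := good_not_dvd_discr hq hPq
    exact ⟨hq, (eq_frobOf_of_isArithFrobAt q.isPrime q.ne_bot hPq
      (inertia_eq_bot_of_good hqn hd) hPσ).symm⟩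
  · rintro ⟨hq, hσ⟩
    obtain ⟨P, hP, hPq⟩ := exists_prime_over K L q.asIdeal
    haveI := hP
    refine ⟨hq, P, hP, hPq, ?_⟩
    rw [← hσ]
    exact isArithFrobAt_frobOf q.isPrime q.ne_bot P hPq

/-! ### The fixed field of `⟨σ⟩` -/

section Fixed

variable (σ : L ≃ₐ[K] L)

/-- The fixed field of `⟨σ⟩`. -/
abbrev fixF : IntermediateField K L := IntermediateField.fixedField (Subgroup.zpowers σ)

theorem fixF_fixingSubgroup : (fixF σ).fixingSubgroup = Subgroup.zpowers σ :=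
  IntermediateField.fixingSubgroup_fixedField _

theorem mem_fixF_fixingSubgroup : σ ∈ (fixF σ).fixingSubgroup := by
  rw [fixF_fixingSubgroup]; exact Subgroup.mem_zpowers σ

/-- `σ` as an element of `Gal(L / fixF σ)`. -/
noncomputable def fixT : L ≃ₐ[fixF σ] L :=
  (fixF σ).fixingSubgroupEquiv ⟨σ, mem_fixF_fixingSubgroup σ⟩

theorem fixT_restrictScalars : (fixT σ).restrictScalars K = σ := by
  ext x; rfl

theorem fixT_inv_restrictScalars : ((fixT σ)⁻¹).restrictScalars K = σ⁻¹ := by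
  have h : ((fixT σ)⁻¹).restrictScalars K * (fixT σ).restrictScalars K = 1 := by
    ext x
    change (fixT σ)⁻¹ ((fixT σ) x) = x
    exact (fixT σ).symm_apply_apply x
  rw [fixT_restrictScalars] at h
  exact eq_inv_of_mul_eq_one_left h

theorem fixF_fixingSubgroup_inv : (fixF σ).fixingSubgroup = Subgroup.zpowers σ⁻¹ := by
  rw [fixF_fixingSubgroup, Subgroup.zpowers_inv]

theorem finrank_fixF : Module.finrank (fixF σ) L = orderOf σ := by
  rw [IntermediateField.finrank_fixedField_eq_card, Nat.card_zpowers]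

/-- `Gal(L / fixF σ)` is commutative. -/
theorem isMulCommutative_fixF : IsMulCommutative (L ≃ₐ[fixF σ] L) := by
  refine ⟨⟨fun a b => ?_⟩⟩
  obtain ⟨a', rfl⟩ := (fixF σ).fixingSubgroupEquiv.surjective a
  obtain ⟨b', rfl⟩ := (fixF σ).fixingSubgroupEquiv.surjective b
  rw [← map_mul, ← map_mul]
  congr 1
  apply Subtype.ext
  obtain ⟨a, ha⟩ := a'
  obtain ⟨b, hb⟩ := b'
  rw [fixF_fixingSubgroup] at ha hb
  obtain ⟨i, rfl⟩ := Subgroup.mem_zpowers_iff.mp ha
  obtain ⟨j, rfl⟩ := Subgroup.mem_zpowers_iff.mp hb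
  change σ ^ i * σ ^ j = σ ^ j * σ ^ i
  rw [← zpow_add, ← zpow_add, add_comm]

end Fixed

/-! ### The shape of the abelian symmetric density statement -/

/-- Output shape of the crossing step: for an abelian extension `L/F` of number fields, the good
primes with Frobenius `σ` or `σ⁻¹` (counted twice if `σ = σ⁻¹`) carry
`(2/[L:F]) log (1/(s-1)) (1 + o(1))`. -/
def AbelianSymStatement : Prop :=
  ∀ (F L : Type) [Field F] [Field L] [NumberField F] [NumberField L] [Algebra F L]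
    [IsGalois F L] [IsMulCommutative (L ≃ₐ[F] L)] (M : ℕ) (_ : M ≠ 0) (σ : L ≃ₐ[F] L)
    (ε : ℝ) (_ : 0 < ε), ∃ B : ℝ, ∀ s ∈ Set.Ioc (1 : ℝ) 2,
      |(Module.finrank F L : ℝ) *
          (wsum (xP F s)
              {p | p ∈ goodPrimes F (M * (discr L).natAbs) ∧ frobOf F L p.asIdeal = σ} +
            wsum (xP F s)
              {p | p ∈ goodPrimes F (M * (discr L).natAbs) ∧ frobOf F L p.asIdeal = σ⁻¹}) -
        2 * Real.log (1 / (s - 1))| ≤ ε * Real.log (1 / (s - 1)) + B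

/-- The abelian symmetric statement, for `L / fixF σ`, in terms of `wK`. -/
theorem abs_orderOf_mul_wK_add_sub_le (hcyc : AbelianSymStatement) (m : ℕ) (hm : m ≠ 0)
    (σ : L ≃ₐ[K] L) (ε : ℝ) (hε : 0 < ε) :
    ∃ B : ℝ, ∀ s ∈ Set.Ioc (1 : ℝ) 2,
      |(orderOf σ : ℝ) * (wK K L m σ s + wK K L m σ⁻¹ s) - 2 * Real.log (1 / (s - 1))| ≤
        ε * Real.log (1 / (s - 1)) + B := by
  haveI := isMulCommutative_fixF σ
  obtain ⟨B, hB⟩ := hcyc (fixF σ) L m hm (fixT σ) ε hε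
  refine ⟨B, fun s hs => ?_⟩
  have h := hB s hs
  rw [← frobClass_eq_of_comm, ← frobClass_eq_of_comm,
    wsum_frobClass_fixed (fixF σ) (fixF_fixingSubgroup σ) (fixT_restrictScalars σ) m hs.1,
    wsum_frobClass_fixed (fixF σ) (fixF_fixingSubgroup_inv σ) (fixT_inv_restrictScalars σ) m hs.1,
    finrank_fixF] at h
  exact h

/-! ### The transfer -/

/-- **Deuring reduction.**  The abelian symmetric density statement implies the symmetric
Chebotarev density theorem for every finite Galois extension `L/K` of number fields: for `C`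
stable under conjugation and inversion,
`|G| · ∑_{q good, Frob_q ⊆ C} N q ^ (-s) = |C| · log (1/(s-1)) · (1 + o(1))`. -/
theorem abs_card_mul_wsum_frobAllIn_sub_le (hcyc : AbelianSymStatement) (m : ℕ) (hm : m ≠ 0)
    (C : Finset (L ≃ₐ[K] L)) (hconj : ∀ g σ : L ≃ₐ[K] L, σ ∈ C → g * σ * g⁻¹ ∈ C)
    (hinv : ∀ σ ∈ C, σ⁻¹ ∈ C) (ε : ℝ) (hε : 0 < ε) :
    ∃ B : ℝ, ∀ s ∈ Set.Ioc (1 : ℝ) 2,
      |(Nat.card (L ≃ₐ[K] L) : ℝ) * wsum (xP K s) (frobAllIn K L m (C : Set (L ≃ₐ[K] L))) -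
        (C.card : ℝ) * Real.log (1 / (s - 1))| ≤ ε * Real.log (1 / (s - 1)) + B := by
  classical
  set ε₀ : ℝ := 2 * ε / (C.card + 1) with hε₀
  have hc0 : (0 : ℝ) < (C.card : ℝ) + 1 := by positivity
  have hε₀pos : 0 < ε₀ := by positivity
  choose B hB using fun σ : L ≃ₐ[K] L => abs_orderOf_mul_wK_add_sub_le hcyc m hm σ ε₀ hε₀pos
  refine ⟨(∑ σ ∈ C, B σ) / 2, fun s hs => ?_⟩
  set ℓ : ℝ := Real.log (1 / (s - 1)) with hℓ
  have hℓ0 : 0 ≤ ℓ := by
    apply Real.log_nonneg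
    rw [le_div_iff₀ (by linarith [hs.1])]
    linarith [hs.2]
  set W : ℝ := wsum (xP K s) (frobAllIn K L m (C : Set (L ≃ₐ[K] L))) with hW
  -- the two sums
  have h1 : ∑ σ ∈ C, (orderOf σ : ℝ) * wK K L m σ s = (Nat.card (L ≃ₐ[K] L) : ℝ) * W :=
    sum_orderOf_mul_wK m C hconj hs.1
  have h2 : ∑ σ ∈ C, (orderOf σ : ℝ) * wK K L m σ⁻¹ s = (Nat.card (L ≃ₐ[K] L) : ℝ) * W := by
    rw [← h1]
    refine Finset.sum_nbij' (fun σ => σ⁻¹) (fun σ => σ⁻¹) (fun σ hσ => hinv σ hσ)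
      (fun σ hσ => hinv σ hσ) (fun σ _ => inv_inv σ) (fun σ _ => inv_inv σ) (fun σ _ => ?_)
    rw [orderOf_inv]
  have hsum : ∑ σ ∈ C, ((orderOf σ : ℝ) * (wK K L m σ s + wK K L m σ⁻¹ s) - 2 * ℓ) =
      2 * ((Nat.card (L ≃ₐ[K] L) : ℝ) * W - (C.card : ℝ) * ℓ) := by
    simp_rw [mul_add]
    rw [Finset.sum_sub_distrib, Finset.sum_add_distrib, h1, h2, Finset.sum_const, nsmul_eq_mul]
    ring
  have hbound : |∑ σ ∈ C, ((orderOf σ : ℝ) * (wK K L m σ s + wK K L m σ⁻¹ s) - 2 * ℓ)| ≤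
      ∑ σ ∈ C, (ε₀ * ℓ + B σ) :=
    (Finset.abs_sum_le_sum_abs _ _).trans (Finset.sum_le_sum fun σ _ => hB σ s hs)
  rw [hsum, abs_mul, abs_two, Finset.sum_add_distrib, Finset.sum_const, nsmul_eq_mul] at hbound
  have hε₁ : (C.card : ℝ) * (ε₀ * ℓ) ≤ 2 * ε * ℓ := by
    have : (C.card : ℝ) * ε₀ ≤ 2 * ε := by
      rw [hε₀, mul_div_assoc', div_le_iff₀ hc0]
      nlinarith [hε.le, (Nat.cast_nonneg C.card : (0 : ℝ) ≤ C.card)]
    calc (C.card : ℝ) * (ε₀ * ℓ) = ((C.card : ℝ) * ε₀) * ℓ := by ring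
      _ ≤ 2 * ε * ℓ := mul_le_mul_of_nonneg_right this hℓ0
  linarith

end Fermat.Agent.DS.Cheb.Reduce7Transfer
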