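/-
DS programme, Chebotarev, helper51: glue between the crossing step (`Cross51Main`) and helper7's
Deuring reduction (`Reduce7Transfer`).  The only remaining input of the symmetric Chebotarev
density theorem for arbitrary finite Galois extensions of number fields is `C2SymStatement`.
-/
import Mathlib
import Fermat.Agent.DS.Cheb.Cross51Main
import Fermat.Agent.DS.Cheb.Reduce7Transfer

set_option autoImplicit false

open IsDedekindDomain Ideal NumberField
open Fermat.Agent.CFT.SplitPrimes Fermat.Agent.ES.GAL.ChebAbstract23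

namespace Fermat.Agent.DS.Cheb.Cross51Glue

open Fermat.Agent.DS.Cheb.Cross51Defs Fermat.Agent.DS.Cheb.Cross51Main
  Fermat.Agent.DS.Cheb.Reduce7Transfer Fermat.Agent.DS.Cheb.Reduce7Count

/-- The crossing step delivers exactly the hypothesis of the Deuring reduction. -/
theorem abelianSym_of_c2Sym (h : C2SymStatement) : AbelianSymStatement :=
  fun F L _ _ _ _ _ _ _ M hM σ ε hε => cheb_abelian_sym F L h M hM σ ε hε

/-- **Symmetric Chebotarev density theorem** for a finite Galois extension `L/K` of number fields,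
assuming only the symmetric cyclotomic statement `C2SymStatement`. -/
theorem cheb_galois_sym (h : C2SymStatement) {K L : Type} [Field K] [Field L] [NumberField K]
    [NumberField L] [Algebra K L] [IsGalois K L] (m : ℕ) (hm : m ≠ 0)
    (C : Finset (L ≃ₐ[K] L)) (hconj : ∀ g σ : L ≃ₐ[K] L, σ ∈ C → g * σ * g⁻¹ ∈ C)
    (hinv : ∀ σ ∈ C, σ⁻¹ ∈ C) (ε : ℝ) (hε : 0 < ε) :
    ∃ B : ℝ, ∀ s ∈ Set.Ioc (1 : ℝ) 2,
      |(Nat.card (L ≃ₐ[K] L) : ℝ) * wsum (xP K s) (frobAllIn K L m (C : Set (L ≃ₐ[K] L))) -
        (C.card : ℝ) * Real.log (1 / (s - 1))| ≤ ε * Real.log (1 / (s - 1)) + B :=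
  abs_card_mul_wsum_frobAllIn_sub_le (abelianSym_of_c2Sym h) m hm C hconj hinv ε hε

end Fermat.Agent.DS.Cheb.Cross51Glue
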