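/-
Programme DS (S48), brick B3-B (helper20), part 3: the abstract character sum argument.

`Q` a finite abelian group, `τ : ι → Q` a labelling of a set of "primes" `S ⊆ ι`, `x ≥ 0` a summable
weight.  For a character `χ` of `Q` put `R χ = ∑_{p ∈ S} Re χ(τ p) x p`.  Orthogonality gives
`|Q| (∑_{τ p = q} x p + ∑_{τ p = q⁻¹} x p) = ∑_χ 2 Re χ(q) R χ` (`sum_cr_mul_R`).  If `R χ` is
bounded ABOVE for every `χ ≠ 1`, and `∑_{p ∈ S} x p` and `|Q| ∑_{τ p = 1} x p` are both `L + O(1)`,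
then all `R χ`, `χ ≠ 1`, are `O(1)` and every symmetrised class carries `2 L / |Q| + O(1)`
(`coset_lower`, uniform version `coset_lower_unif`).
-/
import Mathlib
import Fermat.Agent.CFT.CharOrtho
import Fermat.Agent.CFT.ZetaRBounds
import Fermat.Agent.ES.GAL.ChebAbstract23

set_option autoImplicit false
set_option linter.unusedSectionVars false
set_option linter.unusedVariables false
set_option linter.style.haveILetI false

open Fermat.Agent.ES.GAL.ChebAbstract23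

namespace Fermat.Agent.DS.Cheb.CharSum20

variable {Q : Type*} [CommGroup Q] [Finite Q] {ι : Type*}

/-- the real part of a character value -/
noncomputable def cr (χ : Q →* ℂˣ) (u : Q) : ℝ := ((χ u : ℂˣ) : ℂ).re

theorem abs_cr_le (χ : Q →* ℂˣ) (u : Q) : |cr χ u| ≤ 1 := by
  have h := Complex.abs_re_le_norm ((χ u : ℂˣ) : ℂ)
  rw [Fermat.Agent.CFT.ZetaRBounds.norm_unit_apply] at h
  exact h

theorem cr_one_char (u : Q) : cr (1 : Q →* ℂˣ) u = 1 := by
  simp [cr]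

theorem cr_one (χ : Q →* ℂˣ) : cr χ 1 = 1 := by
  simp [cr]

/-- `2 Re a Re b = Re (a b) + Re (a⁻¹ b)` for character values -/
theorem two_cr_mul_cr (χ : Q →* ℂˣ) (q u : Q) :
    2 * cr χ q * cr χ u = cr χ (q * u) + cr χ (q⁻¹ * u) := by
  unfold cr
  have hinv : ((χ q⁻¹ : ℂˣ) : ℂ) = (starRingEnd ℂ) ((χ q : ℂˣ) : ℂ) := by
    rw [map_inv, Units.val_inv_eq_inv_val]
    exact Complex.inv_eq_conj (Fermat.Agent.CFT.ZetaRBounds.norm_unit_apply χ q)
  rw [map_mul, map_mul, Units.val_mul, Units.val_mul, hinv, Complex.mul_re, Complex.mul_re,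
    Complex.conj_re, Complex.conj_im]
  ring

open scoped Classical in
/-- **Orthogonality, symmetrised and in real form.** -/
theorem sum_cr_mul [Fintype (Q →* ℂˣ)] (q u : Q) :
    ∑ χ : Q →* ℂˣ, 2 * cr χ q * cr χ u =
      (Nat.card Q : ℝ) * ((if u = q then 1 else 0) + (if u = q⁻¹ then 1 else 0)) := by
  have h1 : ∀ v : Q, ∑ χ : Q →* ℂˣ, cr χ v = if v = 1 then (Nat.card Q : ℝ) else 0 := by
    intro v
    have := congrArg Complex.re (Fermat.Agent.CFT.CharOrtho.sum_apply v)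
    rw [Complex.re_sum] at this
    rw [show (∑ χ : Q →* ℂˣ, cr χ v) = ∑ χ : Q →* ℂˣ, (((χ v : ℂˣ) : ℂ)).re from rfl, this]
    split_ifs <;> simp
  simp_rw [two_cr_mul_cr]
  rw [Finset.sum_add_distrib, h1, h1]
  have e1 : (q * u = 1) ↔ (u = q⁻¹) := by
    constructor
    · intro h; exact eq_inv_of_mul_eq_one_right h
    · rintro rfl; exact mul_inv_cancel q
  have e2 : (q⁻¹ * u = 1) ↔ (u = q) := by
    constructor
    · intro h
      have := eq_inv_of_mul_eq_one_right h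
      rw [inv_inv] at this
      exact this
    · rintro rfl; exact inv_mul_cancel u
  simp only [e1, e2]
  split_ifs <;> ring

/-- The real part of the prime sum twisted by `χ`. -/
noncomputable def R (x : ι → ℝ) (τ : ι → Q) (S : Set ι) (χ : Q →* ℂˣ) : ℝ :=
  ∑' p, S.indicator (fun p => cr χ (τ p) * x p) p

theorem summable_R_term {x : ι → ℝ} (hx : ∀ p, 0 ≤ x p) (hsum : Summable x) (τ : ι → Q)
    (S : Set ι) (χ : Q →* ℂˣ) : Summable (S.indicator (fun p => cr χ (τ p) * x p)) := by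
  refine Summable.indicator ?_ S
  refine Summable.of_norm_bounded hsum (fun p => ?_)
  rw [Real.norm_eq_abs, abs_mul, abs_of_nonneg (hx p)]
  calc |cr χ (τ p)| * x p ≤ 1 * x p := mul_le_mul_of_nonneg_right (abs_cr_le χ _) (hx p)
    _ = x p := one_mul _

theorem R_one {x : ι → ℝ} (τ : ι → Q) (S : Set ι) : R x τ S (1 : Q →* ℂˣ) = wsum x S := by
  unfold R wsum
  refine tsum_congr (fun p => ?_)
  by_cases hp : p ∈ S
  · rw [Set.indicator_of_mem hp, Set.indicator_of_mem hp, cr_one_char, one_mul]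
  · rw [Set.indicator_of_notMem hp, Set.indicator_of_notMem hp]

/-- **Key identity**: the symmetrised class sums in terms of the twisted sums. -/
theorem sum_cr_mul_R [Fintype (Q →* ℂˣ)] {x : ι → ℝ} (hx : ∀ p, 0 ≤ x p) (hsum : Summable x)
    (τ : ι → Q) (S : Set ι) (q : Q) :
    ∑ χ : Q →* ℂˣ, 2 * cr χ q * R x τ S χ =
      (Nat.card Q : ℝ) * (wsum x {p | p ∈ S ∧ τ p = q} + wsum x {p | p ∈ S ∧ τ p = q⁻¹}) := by
  classical
  unfold R wsum
  have hs : ∀ χ : Q →* ℂˣ, Summable (S.indicator (fun p => cr χ (τ p) * x p)) :=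
    fun χ => summable_R_term hx hsum τ S χ
  simp_rw [← tsum_mul_left]
  rw [← Summable.tsum_finsetSum (fun χ _ => (hs χ).mul_left _),
    ← (hsum.indicator _).tsum_add (hsum.indicator _), ← tsum_mul_left]
  refine tsum_congr (fun p => ?_)
  by_cases hp : p ∈ S
  · have h1 : ∀ χ : Q →* ℂˣ, 2 * cr χ q * S.indicator (fun p => cr χ (τ p) * x p) p =
        (2 * cr χ q * cr χ (τ p)) * x p := by
      intro χ
      rw [Set.indicator_of_mem hp]
      ring
    simp_rw [h1]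
    rw [← Finset.sum_mul, sum_cr_mul]
    by_cases h2 : τ p = q
    · by_cases h3 : τ p = q⁻¹
      · rw [if_pos h2, if_pos h3, Set.indicator_of_mem (show p ∈ {p | p ∈ S ∧ τ p = q} from ⟨hp, h2⟩),
          Set.indicator_of_mem (show p ∈ {p | p ∈ S ∧ τ p = q⁻¹} from ⟨hp, h3⟩)]
        ring
      · rw [if_pos h2, if_neg h3,
          Set.indicator_of_mem (show p ∈ {p | p ∈ S ∧ τ p = q} from ⟨hp, h2⟩),
          Set.indicator_of_notMem (show p ∉ {p | p ∈ S ∧ τ p = q⁻¹} from fun h => h3 h.2)]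
        ring
    · by_cases h3 : τ p = q⁻¹
      · rw [if_neg h2, if_pos h3,
          Set.indicator_of_notMem (show p ∉ {p | p ∈ S ∧ τ p = q} from fun h => h2 h.2),
          Set.indicator_of_mem (show p ∈ {p | p ∈ S ∧ τ p = q⁻¹} from ⟨hp, h3⟩)]
        ring
      · rw [if_neg h2, if_neg h3,
          Set.indicator_of_notMem (show p ∉ {p | p ∈ S ∧ τ p = q} from fun h => h2 h.2),
          Set.indicator_of_notMem (show p ∉ {p | p ∈ S ∧ τ p = q⁻¹} from fun h => h3 h.2)]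
        ring
  · have h1 : ∀ χ : Q →* ℂˣ, 2 * cr χ q * S.indicator (fun p => cr χ (τ p) * x p) p = 0 := by
      intro χ
      rw [Set.indicator_of_notMem hp, mul_zero]
    simp_rw [h1]
    rw [Finset.sum_const_zero,
      Set.indicator_of_notMem (show p ∉ {p | p ∈ S ∧ τ p = q} from fun h => hp h.1),
      Set.indicator_of_notMem (show p ∉ {p | p ∈ S ∧ τ p = q⁻¹} from fun h => hp h.1)]
    ring

/-- **Abstract symmetric density, pointwise form.** -/
theorem coset_lower [Fintype (Q →* ℂˣ)] {x : ι → ℝ} (hx : ∀ p, 0 ≤ x p) (hsum : Summable x)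
    (τ : ι → Q) (S : Set ι) (L c₁ c₂ : ℝ) (b : (Q →* ℂˣ) → ℝ) (hb0 : ∀ χ, 0 ≤ b χ)
    (h1 : |(Nat.card Q : ℝ) * wsum x {p | p ∈ S ∧ τ p = 1} - L| ≤ c₁)
    (h2 : |wsum x S - L| ≤ c₂)
    (hb : ∀ χ : Q →* ℂˣ, χ ≠ 1 → R x τ S χ ≤ b χ) (q : Q) :
    2 * (L - (c₂ + (Nat.card Q : ℝ) * (c₁ + c₂ + ∑ χ : Q →* ℂˣ, b χ))) ≤
      (Nat.card Q : ℝ) * (wsum x {p | p ∈ S ∧ τ p = q} + wsum x {p | p ∈ S ∧ τ p = q⁻¹}) := by
  classical
  have hc1 : 0 ≤ c₁ := (abs_nonneg _).trans h1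
  have hc2 : 0 ≤ c₂ := (abs_nonneg _).trans h2
  set sb : ℝ := ∑ χ : Q →* ℂˣ, b χ with hsb
  have hsb0 : 0 ≤ sb := Finset.sum_nonneg (fun χ _ => hb0 χ)
  set D : ℝ := c₁ + c₂ + sb with hD
  have hD0 : 0 ≤ D := by positivity
  -- the identity at `q = 1`
  have hK1 := sum_cr_mul_R hx hsum τ S (1 : Q)
  simp only [cr_one, mul_one, inv_one] at hK1
  have hK1' : ∑ χ : Q →* ℂˣ, R x τ S χ = (Nat.card Q : ℝ) * wsum x {p | p ∈ S ∧ τ p = 1} := by
    have : ∑ χ : Q →* ℂˣ, 2 * R x τ S χ = 2 * ∑ χ : Q →* ℂˣ, R x τ S χ := by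
      rw [Finset.mul_sum]
    rw [this] at hK1
    linarith
  -- the sum over the nontrivial characters
  have hsplit : R x τ S 1 + ∑ χ ∈ (Finset.univ.erase (1 : Q →* ℂˣ)), R x τ S χ =
      ∑ χ : Q →* ℂˣ, R x τ S χ :=
    Finset.add_sum_erase Finset.univ (fun χ => R x τ S χ) (Finset.mem_univ _)
  rw [R_one] at hsplit
  have hT : -(c₁ + c₂) ≤ ∑ χ ∈ (Finset.univ.erase (1 : Q →* ℂˣ)), R x τ S χ := by
    have h1' := (abs_le.mp h1).1
    have h2' := (abs_le.mp h2).2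
    linarith
  -- each `R χ` is bounded in absolute value
  have hRabs : ∀ χ : Q →* ℂˣ, χ ≠ 1 → |R x τ S χ| ≤ D := by
    intro χ₀ hχ₀
    have hmem : χ₀ ∈ Finset.univ.erase (1 : Q →* ℂˣ) :=
      Finset.mem_erase.mpr ⟨hχ₀, Finset.mem_univ _⟩
    have hsplit2 := Finset.add_sum_erase (Finset.univ.erase (1 : Q →* ℂˣ))
      (fun χ => R x τ S χ) hmem
    have hrest : ∑ χ ∈ (Finset.univ.erase (1 : Q →* ℂˣ)).erase χ₀, R x τ S χ ≤ sb := by
      calc ∑ χ ∈ (Finset.univ.erase (1 : Q →* ℂˣ)).erase χ₀, R x τ S χ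
          ≤ ∑ χ ∈ (Finset.univ.erase (1 : Q →* ℂˣ)).erase χ₀, b χ := by
            refine Finset.sum_le_sum (fun χ hχ => hb χ ?_)
            exact (Finset.mem_erase.mp (Finset.mem_of_mem_erase hχ)).1
        _ ≤ sb := Finset.sum_le_sum_of_subset_of_nonneg (Finset.subset_univ _)
            (fun χ _ _ => hb0 χ)
    have hup : R x τ S χ₀ ≤ sb :=
      (hb χ₀ hχ₀).trans (Finset.single_le_sum (fun χ _ => hb0 χ) (Finset.mem_univ χ₀))
    rw [abs_le]
    constructor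
    · linarith
    · linarith
  -- the identity at `q`
  have hK := sum_cr_mul_R hx hsum τ S q
  rw [← hK]
  have hsplitq : 2 * cr (1 : Q →* ℂˣ) q * R x τ S 1 +
      ∑ χ ∈ (Finset.univ.erase (1 : Q →* ℂˣ)), 2 * cr χ q * R x τ S χ =
      ∑ χ : Q →* ℂˣ, 2 * cr χ q * R x τ S χ :=
    Finset.add_sum_erase Finset.univ (fun χ => 2 * cr χ q * R x τ S χ) (Finset.mem_univ _)
  rw [← hsplitq, cr_one_char, R_one, mul_one]
  have hlow : -((Nat.card Q : ℝ) * (2 * D)) ≤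
      ∑ χ ∈ (Finset.univ.erase (1 : Q →* ℂˣ)), 2 * cr χ q * R x τ S χ := by
    have habs : |∑ χ ∈ (Finset.univ.erase (1 : Q →* ℂˣ)), 2 * cr χ q * R x τ S χ| ≤
        ∑ χ ∈ (Finset.univ.erase (1 : Q →* ℂˣ)), 2 * D := by
      refine (Finset.abs_sum_le_sum_abs _ _).trans (Finset.sum_le_sum (fun χ hχ => ?_))
      have hχ1 : χ ≠ 1 := (Finset.mem_erase.mp hχ).1
      rw [abs_mul, abs_mul, abs_of_nonneg (by norm_num : (0 : ℝ) ≤ 2)]
      have h3 := abs_cr_le χ q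
      have h4 := hRabs χ hχ1
      have h5 : |cr χ q| * |R x τ S χ| ≤ 1 * D :=
        mul_le_mul h3 h4 (abs_nonneg _) zero_le_one
      nlinarith [abs_nonneg (cr χ q), abs_nonneg (R x τ S χ)]
    have hcard : ∑ χ ∈ (Finset.univ.erase (1 : Q →* ℂˣ)), 2 * D ≤ (Nat.card Q : ℝ) * (2 * D) := by
      rw [Finset.sum_const, nsmul_eq_mul]
      refine mul_le_mul_of_nonneg_right ?_ (by positivity)
      have : (Finset.univ.erase (1 : Q →* ℂˣ)).card ≤ Nat.card Q := by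
        rw [← Fermat.Agent.CFT.CharOrtho.card_monoidHom Q]
        exact Finset.card_le_univ _
      exact_mod_cast this
    have := (abs_le.mp (habs.trans hcard)).1
    exact this
  have h2' := (abs_le.mp h2).1
  linarith

/-- **Abstract symmetric density, uniform form.** -/
theorem coset_lower_unif (x : ℝ → ι → ℝ) (I : Set ℝ) (L : ℝ → ℝ)
    (hx : ∀ s ∈ I, ∀ p, 0 ≤ x s p) (hsum : ∀ s ∈ I, Summable (x s)) (τ : ι → Q) (S : Set ι)
    (h1 : ∃ c, ∀ s ∈ I, |(Nat.card Q : ℝ) * wsum (x s) {p | p ∈ S ∧ τ p = 1} - L s| ≤ c)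
    (h2 : ∃ c, ∀ s ∈ I, |wsum (x s) S - L s| ≤ c)
    (hb : ∀ χ : Q →* ℂˣ, χ ≠ 1 → ∃ b, ∀ s ∈ I, R (x s) τ S χ ≤ b) (q : Q) :
    ∃ B, ∀ s ∈ I, 2 * (L s - B) ≤
      (Nat.card Q : ℝ) * (wsum (x s) {p | p ∈ S ∧ τ p = q} +
        wsum (x s) {p | p ∈ S ∧ τ p = q⁻¹}) := by
  classical
  haveI : Fintype (Q →* ℂˣ) := Fintype.ofFinite _
  obtain ⟨c₁, hc₁⟩ := h1
  obtain ⟨c₂, hc₂⟩ := h2
  choose b0 hb0 using hb
  let b : (Q →* ℂˣ) → ℝ := fun χ => if h : χ ≠ 1 then max (b0 χ h) 0 else 0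
  have hbnn : ∀ χ, 0 ≤ b χ := by
    intro χ
    simp only [b]
    split_ifs
    · exact le_max_right _ _
    · exact le_refl _
  refine ⟨c₂ + (Nat.card Q : ℝ) * (c₁ + c₂ + ∑ χ : Q →* ℂˣ, b χ), fun s hs => ?_⟩
  refine coset_lower (hx s hs) (hsum s hs) τ S (L s) c₁ c₂ b hbnn (hc₁ s hs) (hc₂ s hs)
    (fun χ hχ => ?_) q
  have : b χ = max (b0 χ hχ) 0 := by
    simp only [b]
    rw [dif_pos hχ]
  rw [this]
  exact (hb0 χ hχ s hs).trans (le_max_left _ _)


/-! ### Subgroup form -/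

/-- **Abstract symmetric density for the cosets of a subgroup.**  `G` a finite abelian group,
`J` a subgroup, `fr : ι → G`.  If the primes with `fr p ∈ J` carry `L / [G : J] + O(1)`, all the
primes of `S` carry `L + O(1)`, and for every nontrivial character `ψ` of `G` trivial on `J` the
real part of `∑_{p ∈ S} ψ (fr p) x p` is bounded above, then for every `g` the primes with
`fr p ∈ g J ∪ g⁻¹ J` (counted twice on the intersection) carry at least `2 L / [G : J] - O(1)`. -/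
theorem coset_lower_subgroup {G : Type*} [CommGroup G] [Finite G] (J : Subgroup G)
    (x : ℝ → ι → ℝ) (I : Set ℝ) (L : ℝ → ℝ)
    (hx : ∀ s ∈ I, ∀ p, 0 ≤ x s p) (hsum : ∀ s ∈ I, Summable (x s)) (fr : ι → G) (S : Set ι)
    (h1 : ∃ c, ∀ s ∈ I, |(J.index : ℝ) * wsum (x s) {p | p ∈ S ∧ fr p ∈ J} - L s| ≤ c)
    (h2 : ∃ c, ∀ s ∈ I, |wsum (x s) S - L s| ≤ c)
    (hb : ∀ ψ : G →* ℂˣ, ψ ≠ 1 → J ≤ ψ.ker → ∃ b, ∀ s ∈ I,
      ∑' p, S.indicator (fun p => ((ψ (fr p) : ℂˣ) : ℂ).re * x s p) p ≤ b) (g : G) :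
    ∃ B, ∀ s ∈ I, 2 * (L s - B) ≤
      (J.index : ℝ) * (wsum (x s) {p | p ∈ S ∧ (fr p)⁻¹ * g ∈ J} +
        wsum (x s) {p | p ∈ S ∧ (fr p)⁻¹ * g⁻¹ ∈ J}) := by
  classical
  let τ : ι → G ⧸ J := fun p => (fr p : G ⧸ J)
  have hcard : (Nat.card (G ⧸ J) : ℝ) = (J.index : ℝ) := by
    rw [Subgroup.index_eq_card]
  have hset1 : {p | p ∈ S ∧ τ p = 1} = {p | p ∈ S ∧ fr p ∈ J} := by
    ext p
    simp only [Set.mem_ofPred_eq, τ, QuotientGroup.eq_one_iff]
  have hsetg : ∀ g : G, {p | p ∈ S ∧ τ p = (g : G ⧸ J)} = {p | p ∈ S ∧ (fr p)⁻¹ * g ∈ J} := by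
    intro g
    ext p
    simp only [Set.mem_ofPred_eq, τ, QuotientGroup.eq]
  have key := coset_lower_unif (Q := G ⧸ J) x I L hx hsum τ S
    (by rw [hcard, hset1]; exact h1) h2 (fun χ hχ => ?_) (g : G ⧸ J)
  · obtain ⟨B, hB⟩ := key
    refine ⟨B, fun s hs => ?_⟩
    have := hB s hs
    rw [hcard, hsetg g, ← QuotientGroup.mk_inv, hsetg g⁻¹] at this
    exact this
  · have hψ1 : χ.comp (QuotientGroup.mk' J) ≠ 1 := by
      intro h
      apply hχ
      refine MonoidHom.ext fun q => ?_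
      obtain ⟨a, rfl⟩ := QuotientGroup.mk'_surjective J q
      have := DFunLike.congr_fun h a
      simpa using this
    have hψJ : J ≤ (χ.comp (QuotientGroup.mk' J)).ker := by
      intro a ha
      rw [MonoidHom.mem_ker, MonoidHom.comp_apply, QuotientGroup.mk'_apply,
        (QuotientGroup.eq_one_iff a).mpr ha, map_one]
    obtain ⟨b, hb'⟩ := hb _ hψ1 hψJ
    exact ⟨b, fun s hs => hb' s hs⟩

end Fermat.Agent.DS.Cheb.CharSum20
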