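/-
DS programme, brick B3-C3 (Chebotarev crossing), helper51.  Part 2: the interface with B3-C2 and
general lemmas on weighted sums over sets of primes.

* `pmSubgroup E ζ` : the automorphisms of `Ω/E` sending `ζ` to `ζ` or `ζ⁻¹` (for `Ω = E(ζ_m)` this is
  `Gal(Ω/E(ζ)⁺)`).
* `C2Statement` : the output of brick B3-C2 in the form consumed by the crossing argument: in
  `Ω = E(ζ_m)` every coset of `pmSubgroup E ζ` carries at least `log (1 / (s - 1)) / index - O(1)`
  of the prime zeta function (only the lower bound is used).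
* `wsum_fiber_le` : descent of weighted sums along `below`.
* `wsum_eq_sum_fiber`, `sum_wsum_le` : finite additivity / bounded multiplicity.
-/
import Mathlib
import Fermat.Agent.ES.GAL.ChebDensity23

set_option autoImplicit false
set_option linter.unusedSectionVars false

open IsDedekindDomain Ideal NumberField
open Fermat.Agent.CFT.SplitPrimes Fermat.Agent.CFT.NotAllSplit Fermat.Agent.CFT.ArtinSymbol
  Fermat.Agent.ES.GAL.ChebAbstract23 Fermat.Agent.ES.GAL.ChebDensity23

namespace Fermat.Agent.DS.Cheb.Cross51Defs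

/-! ### The `±` subgroup and the C2 interface -/

section Pm

variable (E : Type*) {Ω : Type*} [Field E] [Field Ω] [Algebra E Ω]

/-- The automorphisms of `Ω/E` sending `ζ` to `ζ` or to `ζ⁻¹`. -/
def pmSubgroup (ζ : Ω) : Subgroup (Ω ≃ₐ[E] Ω) where
  carrier := {h | h ζ = ζ ∨ h ζ = ζ⁻¹}
  one_mem' := Or.inl rfl
  mul_mem' := by
    intro a b ha hb
    change a (b ζ) = ζ ∨ a (b ζ) = ζ⁻¹
    rcases hb with hb | hb <;> rcases ha with ha | ha
    · left; rw [hb, ha]
    · right; rw [hb, ha]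
    · right; rw [hb, map_inv₀, ha]
    · left; rw [hb, map_inv₀, ha, inv_inv]
  inv_mem' := by
    intro a ha
    change a.symm ζ = ζ ∨ a.symm ζ = ζ⁻¹
    rcases ha with ha | ha
    · left
      rw [AlgEquiv.symm_apply_eq, ha]
    · right
      rw [AlgEquiv.symm_apply_eq, map_inv₀, ha, inv_inv]

variable {E}

theorem mem_pmSubgroup {ζ : Ω} {h : Ω ≃ₐ[E] Ω} :
    h ∈ pmSubgroup E ζ ↔ h ζ = ζ ∨ h ζ = ζ⁻¹ := Iff.rfl

end Pm

/-- **Output of brick B3-C2** (element-wise density in `E(ζ_m)⁺/E`, lower bound, coset form in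
the full cyclotomic extension `Ω = E(ζ_m)`).  `htop` says `Ω = E(ζ)`. -/
def C2Statement : Prop :=
  ∀ (E Ω : Type) [Field E] [Field Ω] [NumberField E] [NumberField Ω] [Algebra E Ω]
    [IsGalois E Ω] [IsMulCommutative (Ω ≃ₐ[E] Ω)] (m : ℕ) (_ : m.Prime) (ζ : Ω)
    (_ : IsPrimitiveRoot ζ m) (_ : ∀ h : Ω ≃ₐ[E] Ω, h ζ = ζ → h = 1) (M : ℕ) (_ : M ≠ 0)
    (g : Ω ≃ₐ[E] Ω),
    ∃ B : ℝ, ∀ s ∈ Set.Ioc (1 : ℝ) 2,
      Real.log (1 / (s - 1)) - B ≤ ((pmSubgroup E ζ).index : ℝ) *
        wsum (xP E s) {p | p ∈ good E Ω M ∧ (frobOf E Ω p.asIdeal)⁻¹ * g ∈ pmSubgroup E ζ}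

/-- **Symmetric form of the output of brick B3-C2/B** (the form used by the DS programme): the
cosets of `g` and `g⁻¹` together carry at least `2 log (1 / (s - 1)) / index - O(1)`. -/
def C2SymStatement : Prop :=
  ∀ (E Ω : Type) [Field E] [Field Ω] [NumberField E] [NumberField Ω] [Algebra E Ω]
    [IsGalois E Ω] [IsMulCommutative (Ω ≃ₐ[E] Ω)] (m : ℕ) (_ : m.Prime) (ζ : Ω)
    (_ : IsPrimitiveRoot ζ m) (_ : ∀ h : Ω ≃ₐ[E] Ω, h ζ = ζ → h = 1) (M : ℕ) (_ : M ≠ 0)
    (g : Ω ≃ₐ[E] Ω),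
    ∃ B : ℝ, ∀ s ∈ Set.Ioc (1 : ℝ) 2,
      2 * (Real.log (1 / (s - 1)) - B) ≤ ((pmSubgroup E ζ).index : ℝ) *
        (wsum (xP E s) {p | p ∈ good E Ω M ∧ (frobOf E Ω p.asIdeal)⁻¹ * g ∈ pmSubgroup E ζ} +
          wsum (xP E s)
            {p | p ∈ good E Ω M ∧ (frobOf E Ω p.asIdeal)⁻¹ * g⁻¹ ∈ pmSubgroup E ζ})

/-- The element-wise statement implies the symmetric one. -/
theorem c2Sym_of_c2 (h : C2Statement) : C2SymStatement := by
  intro E Ω _ _ _ _ _ _ _ m hm ζ hζ htop M hM g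
  obtain ⟨B1, hB1⟩ := h E Ω m hm ζ hζ htop M hM g
  obtain ⟨B2, hB2⟩ := h E Ω m hm ζ hζ htop M hM g⁻¹
  refine ⟨(B1 + B2) / 2, fun s hs => ?_⟩
  have h1 := hB1 s hs
  have h2 := hB2 s hs
  rw [mul_add]
  linarith

/-! ### Weighted sums -/

section Fiber

variable (F E : Type) [Field F] [Field E] [NumberField F] [NumberField E] [Algebra F E]

/-- **Descent of weighted sums**: if `below` maps `TE` into `TF` preserving norms then the sum
over `TE` is at most `[E : F]` times the sum over `TF`. -/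
theorem wsum_fiber_le (TE : Set (HeightOneSpectrum (𝓞 E))) (TF : Set (HeightOneSpectrum (𝓞 F)))
    (h : ∀ P ∈ TE, below (R := 𝓞 F) P ∈ TF ∧
      absNorm P.asIdeal = absNorm (below (R := 𝓞 F) P).asIdeal)
    {s : ℝ} (hs : 1 < s) :
    wsum (xP E s) TE ≤ Module.finrank F E * wsum (xP F s) TF := by
  classical
  have key : ∀ P : HeightOneSpectrum (𝓞 E),
      TE.indicator (fun P => ENNReal.ofReal (xP E s P)) P ≤
        (fun p : HeightOneSpectrum (𝓞 F) =>
          TF.indicator (fun p => ENNReal.ofReal (xP F s p)) p) (below (R := 𝓞 F) P) := by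
    intro P
    beta_reduce
    by_cases hP : P ∈ TE
    · obtain ⟨h1, h2⟩ := h P hP
      rw [Set.indicator_of_mem hP, Set.indicator_of_mem h1]
      unfold xP
      rw [h2]
    · rw [Set.indicator_of_notMem hP]
      exact zero_le
  have h1 : ∑' P : HeightOneSpectrum (𝓞 E),
      TE.indicator (fun P => ENNReal.ofReal (xP E s P)) P ≤
      (Module.finrank (𝓞 F) (𝓞 E) : ℕ) * ∑' p : HeightOneSpectrum (𝓞 F),
        TF.indicator (fun p => ENNReal.ofReal (xP F s p)) p :=
    (ENNReal.tsum_le_tsum key).trans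
      (tsum_comp_le_mul_tsum (below (R := 𝓞 F) (S := 𝓞 E)) _ (fun p => ncard_fiber_le p) _)
  rw [tsum_indicator_ofReal E _ hs, tsum_indicator_ofReal F _ hs, finrank_int,
    primeIdealZetaSum_eq_wsum, primeIdealZetaSum_eq_wsum,
    ← ENNReal.ofReal_natCast, ← ENNReal.ofReal_mul (Nat.cast_nonneg _)] at h1
  have hx0 : ∀ p, 0 ≤ xP F s p := fun p => (xP_pos F s p).le
  exact (ENNReal.ofReal_le_ofReal_iff
    (mul_nonneg (Nat.cast_nonneg _) (wsum_nonneg hx0 _))).mp h1

end Fiber

section Finite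

variable {ι : Type*}

/-- Finite additivity of `wsum` along the fibres of a map to a finite type. -/
theorem wsum_eq_sum_fiber {G : Type*} [Fintype G] (x : ι → ℝ) (hs : Summable x) (S : Set ι)
    (τ : ι → G) : wsum x S = ∑ g : G, wsum x {p | p ∈ S ∧ τ p = g} := by
  classical
  unfold wsum
  rw [← Summable.tsum_finsetSum (fun g _ => hs.indicator _)]
  refine tsum_congr fun p => ?_
  by_cases hp : p ∈ S
  · rw [Set.indicator_of_mem hp, Finset.sum_eq_single (τ p)]
    · rw [Set.indicator_of_mem]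
      exact ⟨hp, rfl⟩
    · intro g _ hg
      rw [Set.indicator_of_notMem]
      rintro ⟨-, h⟩
      exact hg h.symm
    · intro h
      exact absurd (Finset.mem_univ _) h
  · rw [Set.indicator_of_notMem hp]
    symm
    refine Finset.sum_eq_zero fun g _ => ?_
    rw [Set.indicator_of_notMem]
    rintro ⟨h, -⟩
    exact hp h

/-- A finite family of subsets of `S`, each point lying in at most `c` of them. -/
theorem sum_wsum_le {κ : Type*} (x : ι → ℝ) (hx : ∀ p, 0 ≤ x p) (hs : Summable x)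
    (A : Finset κ) (T : κ → Set ι) (S : Set ι) (c : ℕ)
    (hmult : ∀ p, ∀ B : Finset κ, B ⊆ A → (∀ u ∈ B, p ∈ T u) → B.card ≤ c)
    (hsub : ∀ u ∈ A, T u ⊆ S) :
    ∑ u ∈ A, wsum x (T u) ≤ c * wsum x S := by
  classical
  unfold wsum
  rw [← Summable.tsum_finsetSum (fun u _ => hs.indicator _), ← tsum_mul_left]
  refine Summable.tsum_le_tsum (fun p => ?_) (summable_sum fun u _ => hs.indicator _)
    ((hs.indicator S).mul_left _)
  have h1 : ∑ u ∈ A, (T u).indicator x p = ∑ u ∈ A.filter (fun u => p ∈ T u), x p := by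
    rw [Finset.sum_filter]
    refine Finset.sum_congr rfl fun u _ => ?_
    by_cases h : p ∈ T u
    · rw [Set.indicator_of_mem h, if_pos h]
    · rw [Set.indicator_of_notMem h, if_neg h]
  rw [h1, Finset.sum_const, nsmul_eq_mul]
  by_cases hp : p ∈ S
  · rw [Set.indicator_of_mem hp]
    refine mul_le_mul_of_nonneg_right ?_ (hx p)
    exact_mod_cast hmult p _ (Finset.filter_subset _ _)
      (fun u hu => (Finset.mem_filter.mp hu).2)
  · have : A.filter (fun u => p ∈ T u) = ∅ := by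
      rw [Finset.filter_eq_empty_iff]
      intro u hu h
      exact hp (hsub u hu h)
    rw [this, Set.indicator_of_notMem hp]
    simp

end Finite

end Fermat.Agent.DS.Cheb.Cross51Defs
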