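/-
Programme DS (S48), brick B3-B (helper20), part 1: even Dirichlet characters as functions on ideals.

* `exists_even_extension` : a character `ψ` of a group `G`, trivial on the preimage of `{1, c}`
  (`c * c = 1`) under `κ : G →* U` (`U` finite abelian), is of the form `χ ∘ κ` with `χ c = 1`.
* `normChar χ` : for `χ : (ZMod m)ˣ →* ℂˣ`, the completely multiplicative function
  `𝔞 ↦ χ (N 𝔞 mod m)` on the ideals of `𝓞 K` (zero if `N 𝔞` is not prime to `m`).
* `normChar_periodic` : for `χ (-1) = 1` the value on a principal ideal `(α)` only depends on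
  `α mod m` (`norm_cast_eq_of_sub_mem`: `α ≡ β mod m 𝓞 K → N α ≡ N β mod m`).
* `norm_normChar_eq_one` : absolute value one on the ideals prime to `m` (`m` prime).
-/
import Mathlib
import Fermat.Agent.CFT.CharOrtho
import Fermat.Agent.CFT.ZetaRBounds

set_option autoImplicit false
set_option linter.unusedSectionVars false
set_option linter.style.haveILetI false

open NumberField

namespace Fermat.Agent.DS.Cheb.CycloChar20

/-! ### Extension of characters -/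

section Ext

variable {G U : Type*} [Group G] [CommGroup U] [Finite U]

/-- the subgroup generated by an element of order at most two -/
theorem mem_zpowers_of_mul_self {c x : U} (hc : c * c = 1) (hx : x ∈ Subgroup.zpowers c) :
    x = 1 ∨ x = c := by
  obtain ⟨n, rfl⟩ := Subgroup.mem_zpowers_iff.mp hx
  have hc2 : c ^ (2 : ℤ) = 1 := by rw [zpow_two]; exact hc
  rcases Int.even_or_odd' n with ⟨k, hk | hk⟩
  · left
    rw [hk, zpow_mul, hc2, one_zpow]
  · right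
    rw [hk, zpow_add, zpow_mul, hc2, one_zpow, one_mul, zpow_one]

/-- A character of `G` which is trivial on `κ ⁻¹ {1, c}` factors through `κ` via a character of `U`
which is trivial at `c`. -/
theorem exists_even_extension (κ : G →* U) (c : U) (hc : c * c = 1) (ψ : G →* ℂˣ)
    (hψ : ∀ h : G, κ h = 1 ∨ κ h = c → ψ h = 1) :
    ∃ χ : U →* ℂˣ, χ c = 1 ∧ ∀ h : G, χ (κ h) = ψ h := by
  classical
  let Z : Subgroup U := Subgroup.zpowers c
  let π : U →* U ⧸ Z := QuotientGroup.mk' Z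
  let f : G →* U ⧸ Z := π.comp κ
  have hker : f.rangeRestrict.ker ≤ ψ.ker := by
    intro h hh
    rw [MonoidHom.ker_rangeRestrict, MonoidHom.mem_ker] at hh
    have h1 : κ h ∈ Z := by
      have : π (κ h) = 1 := hh
      exact (QuotientGroup.eq_one_iff _).mp this
    exact hψ h (mem_zpowers_of_mul_self hc h1)
  let ψbar : f.range →* ℂˣ :=
    MonoidHom.liftOfSurjective f.rangeRestrict f.rangeRestrict_surjective ⟨ψ, hker⟩
  have hψbar : ∀ h : G, ψbar (f.rangeRestrict h) = ψ h := fun h =>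
    MonoidHom.liftOfRightInverse_comp_apply _ _ _ ⟨ψ, hker⟩ h
  haveI := Fermat.Agent.CFT.CharOrtho.hasEnoughRootsOfUnity_complex (U ⧸ Z)
  obtain ⟨χbar, hχbar⟩ := MonoidHom.domRestrict_surjective ℂ f.range ψbar
  refine ⟨χbar.comp π, ?_, fun h => ?_⟩
  · have : π c = 1 := (QuotientGroup.eq_one_iff _).mpr (Subgroup.mem_zpowers c)
    rw [MonoidHom.comp_apply, this, map_one]
  · rw [← hψbar h, ← hχbar]
    rfl

end Ext

/-! ### Norms and congruences -/

section Norm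

variable {K : Type*} [Field K] [NumberField K]

/-- If `α ≡ β` modulo `m 𝓞 K` then `N(α) ≡ N(β)` modulo `m`. -/
theorem norm_cast_eq_of_sub_mem (m : ℕ) (α β : 𝓞 K) (h : α - β ∈ Ideal.span {(m : 𝓞 K)}) :
    ((Algebra.norm ℤ α : ℤ) : ZMod m) = ((Algebra.norm ℤ β : ℤ) : ZMod m) := by
  classical
  obtain ⟨γ, hγ⟩ := Ideal.mem_span_singleton'.mp h
  have hα : α = β + (m : ℤ) • γ := by
    have : α = β + γ * (m : 𝓞 K) := by rw [hγ]; ring
    rw [this, zsmul_eq_mul, mul_comm γ]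
    push_cast
    rfl
  let b := RingOfIntegers.basis K
  rw [Algebra.norm_eq_matrix_det b α, Algebra.norm_eq_matrix_det b β, hα, map_add, map_zsmul]
  change (Int.castRingHom (ZMod m)) _ = (Int.castRingHom (ZMod m)) _
  rw [RingHom.map_det, RingHom.map_det]
  congr 1
  rw [map_add, map_zsmul]
  have h0 : ((m : ℤ) • (Int.castRingHom (ZMod m)).mapMatrix (Algebra.leftMulMatrix b γ)) = 0 := by
    ext i j
    rw [Matrix.smul_apply, zsmul_eq_mul, Int.cast_natCast, ZMod.natCast_self, zero_mul]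
    rfl
  rw [h0, add_zero]

/-- An ideal prime to `m` (a prime number) has norm prime to `m`. -/
theorem not_dvd_absNorm_of_sup_eq_top {m : ℕ} (hm : m.Prime) (𝔞 : Ideal (𝓞 K))
    (h : 𝔞 ⊔ Ideal.span {(m : 𝓞 K)} = ⊤) : ¬ m ∣ Ideal.absNorm 𝔞 := by
  intro hdvd
  have h𝔞0 : 𝔞 ≠ ⊥ := by
    rintro rfl
    rw [bot_sup_eq, Ideal.span_singleton_eq_top] at h
    rw [Ideal.absNorm_bot] at hdvd
    have h1 := (NumberField.isUnit_iff_norm (K := K)).mp h
    have h2 : (RingOfIntegers.norm ℚ (m : 𝓞 K) : ℚ) = (m : ℚ) ^ Module.finrank ℚ K := by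
      rw [RingOfIntegers.coe_norm]
      have : ((m : 𝓞 K) : K) = algebraMap ℚ K (m : ℚ) := by simp
      rw [this, Algebra.norm_algebraMap]
    rw [h2, abs_pow, pow_eq_one_iff_of_nonneg (abs_nonneg _) Module.finrank_pos.ne'] at h1
    have : |(m : ℚ)| = (m : ℚ) := abs_of_nonneg (Nat.cast_nonneg m)
    rw [this] at h1
    have : m = 1 := by exact_mod_cast h1
    exact hm.one_lt.ne' this
  have hfin : Finite (𝓞 K ⧸ 𝔞) := Ideal.finiteQuotientOfFreeOfNeBot 𝔞 h𝔞0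
  have hcard : Nat.card (𝓞 K ⧸ 𝔞) = Ideal.absNorm 𝔞 := by
    rw [Ideal.absNorm_apply]; rfl
  haveI : Fact m.Prime := ⟨hm⟩
  obtain ⟨x, hx⟩ := exists_prime_addOrderOf_dvd_card' (G := 𝓞 K ⧸ 𝔞) m (by rw [hcard]; exact hdvd)
  have hx0 : x ≠ 0 := by
    rintro rfl
    rw [addOrderOf_zero] at hx
    exact hm.one_lt.ne hx
  have h1 : (m : 𝓞 K ⧸ 𝔞) * x = 0 := by
    rw [← nsmul_eq_mul, ← hx]
    exact addOrderOf_nsmul_eq_zero x
  -- `m` is a unit modulo `𝔞`
  obtain ⟨a, ha, b, hb, hab⟩ := Submodule.mem_sup.mp ((Ideal.eq_top_iff_one _).mp h)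
  obtain ⟨c, hc⟩ := Ideal.mem_span_singleton'.mp hb
  have h2 : (Ideal.Quotient.mk 𝔞 c) * (m : 𝓞 K ⧸ 𝔞) = 1 := by
    have : Ideal.Quotient.mk 𝔞 (c * (m : 𝓞 K)) = 1 := by
      rw [hc, ← map_one (Ideal.Quotient.mk 𝔞)]
      refine (Ideal.Quotient.eq.mpr ?_)
      have : b - 1 = -a := by rw [← hab]; ring
      rw [this]
      exact neg_mem ha
    rw [map_mul, map_natCast] at this
    exact this
  apply hx0
  calc x = (Ideal.Quotient.mk 𝔞 c * (m : 𝓞 K ⧸ 𝔞)) * x := by rw [h2, one_mul]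
    _ = Ideal.Quotient.mk 𝔞 c * ((m : 𝓞 K ⧸ 𝔞) * x) := by ring
    _ = 0 := by rw [h1, mul_zero]

end Norm

/-! ### The function on ideals attached to a Dirichlet character -/

section NormChar

variable (K : Type*) [Field K] [NumberField K] {m : ℕ} [Fact m.Prime]

/-- `𝔞 ↦ χ (N 𝔞 mod m)` -/
noncomputable def normChar (χ : (ZMod m)ˣ →* ℂˣ) : Ideal (𝓞 K) →*₀ ℂ :=
  ((MulChar.ofUnitHom χ).toMonoidWithZeroHom.comp
    ((Nat.castRingHom (ZMod m)).toMonoidWithZeroHom)).comp Ideal.absNorm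

variable {K}

theorem normChar_apply (χ : (ZMod m)ˣ →* ℂˣ) (𝔞 : Ideal (𝓞 K)) :
    normChar K χ 𝔞 = MulChar.ofUnitHom χ ((Ideal.absNorm 𝔞 : ℕ) : ZMod m) := rfl

theorem norm_ofUnitHom_le (χ : (ZMod m)ˣ →* ℂˣ) (x : ZMod m) :
    ‖MulChar.ofUnitHom χ x‖ ≤ 1 := by
  by_cases hx : IsUnit x
  · obtain ⟨u, rfl⟩ := hx
    rw [MulChar.ofUnitHom_coe, Fermat.Agent.CFT.ZetaRBounds.norm_unit_apply]
  · rw [MulChar.map_nonunit _ hx, norm_zero]
    exact zero_le_one

theorem norm_ofUnitHom_of_isUnit (χ : (ZMod m)ˣ →* ℂˣ) {x : ZMod m} (hx : IsUnit x) :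
    ‖MulChar.ofUnitHom χ x‖ = 1 := by
  obtain ⟨u, rfl⟩ := hx
  rw [MulChar.ofUnitHom_coe, Fermat.Agent.CFT.ZetaRBounds.norm_unit_apply]

theorem norm_normChar_le (χ : (ZMod m)ˣ →* ℂˣ) (𝔞 : Ideal (𝓞 K)) : ‖normChar K χ 𝔞‖ ≤ 1 :=
  norm_ofUnitHom_le χ _

theorem isUnit_natCast_of_not_dvd {n : ℕ} (h : ¬ m ∣ n) : IsUnit ((n : ℕ) : ZMod m) := by
  rw [ZMod.isUnit_iff_coprime]
  exact ((Nat.Prime.coprime_iff_not_dvd (Fact.out : m.Prime)).mpr h).symm

theorem norm_normChar_eq_one (χ : (ZMod m)ˣ →* ℂˣ) (𝔞 : Ideal (𝓞 K))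
    (h : 𝔞 ⊔ Ideal.span {(m : 𝓞 K)} = ⊤) : ‖normChar K χ 𝔞‖ = 1 :=
  norm_ofUnitHom_of_isUnit χ
    (isUnit_natCast_of_not_dvd (not_dvd_absNorm_of_sup_eq_top (Fact.out : m.Prime) 𝔞 h))

/-- an even character does not see the sign -/
theorem ofUnitHom_neg (χ : (ZMod m)ˣ →* ℂˣ) (hχ : χ (-1) = 1) (x : ZMod m) :
    MulChar.ofUnitHom χ (-x) = MulChar.ofUnitHom χ x := by
  have h1 : MulChar.ofUnitHom χ (-1 : ZMod m) = 1 := by
    have : ((-1 : (ZMod m)ˣ) : ZMod m) = -1 := by simp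
    rw [← this, MulChar.ofUnitHom_coe, hχ, Units.val_one]
  rw [← neg_one_mul, map_mul, h1, one_mul]

theorem ofUnitHom_natAbs (χ : (ZMod m)ˣ →* ℂˣ) (hχ : χ (-1) = 1) (z : ℤ) :
    MulChar.ofUnitHom χ ((z.natAbs : ℕ) : ZMod m) = MulChar.ofUnitHom χ ((z : ℤ) : ZMod m) := by
  rcases Int.natAbs_eq z with h | h
  · conv_rhs => rw [h]
    rw [Int.cast_natCast]
  · conv_rhs => rw [h]
    rw [Int.cast_neg, Int.cast_natCast, ofUnitHom_neg χ hχ]

/-- **Periodicity**: for an even character the value at `(α)` depends only on `α mod m`. -/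
theorem normChar_periodic (χ : (ZMod m)ˣ →* ℂˣ) (hχ : χ (-1) = 1) (α β : 𝓞 K)
    (h : α - β ∈ Ideal.span {(m : 𝓞 K)}) :
    normChar K χ (Ideal.span {α}) = normChar K χ (Ideal.span {β}) := by
  rw [normChar_apply, normChar_apply, Ideal.absNorm_span_singleton, Ideal.absNorm_span_singleton,
    ofUnitHom_natAbs χ hχ, ofUnitHom_natAbs χ hχ, norm_cast_eq_of_sub_mem m α β h]

end NormChar

end Fermat.Agent.DS.Cheb.CycloChar20
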