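/-
Programme DS (S48), brick B3-A (helper20): the analytic core of the density form of Chebotarev's
theorem.

`K` a number field, `𝔪 ≠ ⊥` an ideal of `𝓞 K`, `θ : Ideal (𝓞 K) →*₀ ℂ` a completely multiplicative
function on ideals with `‖θ 𝔞‖ ≤ 1`, of absolute value one on the ideals prime to `𝔪`, which on
principal ideals depends only on the generator modulo `𝔪` (`θ (α) = θ (β)` for `α ≡ β mod 𝔪`).
If `θ` is not identically `1` on the ideals prime to `𝔪`, the `L`-series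
`∑ θ(𝔞) N(𝔞)^(-s)` is bounded on `(1, 2]` (`rayL_bounded`).

Method: helper7/helper24's smoothed unfolding of `CFT/ClassZeta` (weight `W s` on the mixed space,
`shift_bound` for the cosets of a sublattice), twisted by the periodic function
`α ↦ θ (α)`.  No ray class groups are needed: the main term of the partial sum over an ideal class
`C` is `θ(J)⁻¹ Λ N(𝔪)^(-s) ζ(s, 1)` (`J` prime to `𝔪` in `C⁻¹`, `Λ = ∑_{x mod 𝔪} θ (x)`), and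
`Λ · ∑_C θ(J_C)⁻¹ = 0`.
-/
import Mathlib
import Fermat.Agent.CFT.ClassZeta
import Fermat.Agent.CFT.CoprimeRep

set_option autoImplicit false
set_option linter.unusedSectionVars false
set_option linter.unusedVariables false
set_option linter.style.haveILetI false

open NumberField NumberField.mixedEmbedding Module nonZeroDivisors
open Fermat.Agent.CFT.ClassZeta

namespace Fermat.Agent.DS.Cheb.RayLBound

variable {K : Type*} [Field K] [NumberField K]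

/-! ### Twisted unfolding -/

/-- real to complex coercion of a `HasSum` -/
theorem hasSum_ofReal_mul {ι : Type*} {f : ι → ℝ} {a : ℝ} (h : HasSum f a) (c : ℂ) :
    HasSum (fun i => c * ((f i : ℝ) : ℂ)) (c * ((a : ℝ) : ℂ)) :=
  ((Complex.hasSum_ofReal).mpr h).mul_left c

/-- The twisted sum over the nonzero elements of `J`. -/
theorem hasSum_J0_twist (U : WeightData K) {s : ℝ} (hs : 1 < s) (J : Ideal (𝓞 K))
    (θ : Ideal (𝓞 K) → ℂ) (hθ : ∀ 𝔞, ‖θ 𝔞‖ ≤ 1)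
    (hS : Summable fun t : PJ J => (Ideal.absNorm t.1 : ℝ) ^ (-s)) :
    HasSum (fun a : J0 J => θ (Ideal.span {a.1}) * ((U.F s a.1 : ℝ) : ℂ))
      (∑' t : PJ J, θ t.1 * (((Ideal.absNorm t.1 : ℝ) ^ (-s) : ℝ) : ℂ)) := by
  let G : (Σ t : PJ J, {a : J0 J // toPJ J a = t}) → ℂ :=
    fun p => θ (Ideal.span {p.2.1.1}) * ((U.F s p.2.1.1 : ℝ) : ℂ)
  -- the real sum
  have hreal : Summable fun p : (Σ t : PJ J, {a : J0 J // toPJ J a = t}) => U.F s p.2.1.1 := by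
    have := (hasSum_J0 U hs J hS).summable
    exact ((Equiv.sigmaFiberEquiv (toPJ J)).summable_iff).mpr this
  have hG : Summable G := by
    refine Summable.of_norm_bounded hreal (fun p => ?_)
    show ‖θ (Ideal.span {p.2.1.1}) * ((U.F s p.2.1.1 : ℝ) : ℂ)‖ ≤ _
    rw [norm_mul, Complex.norm_real, Real.norm_of_nonneg (U.F_nonneg _ _)]
    calc ‖θ (Ideal.span {p.2.1.1})‖ * U.F s p.2.1.1 ≤ 1 * U.F s p.2.1.1 :=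
          mul_le_mul_of_nonneg_right (hθ _) (U.F_nonneg _ _)
      _ = _ := one_mul _
  have hfib : ∀ t : PJ J, HasSum (fun a : {a : J0 J // toPJ J a = t} => G ⟨t, a⟩)
      (θ t.1 * (((Ideal.absNorm t.1 : ℝ) ^ (-s) : ℝ) : ℂ)) := by
    intro t
    have h1 := hasSum_ofReal_mul (hasSum_fiber U hs t) (θ t.1)
    have hfun : (fun a : {a : J0 J // toPJ J a = t} => G ⟨t, a⟩) =
        fun a => θ t.1 * ((U.F s a.1.1 : ℝ) : ℂ) := by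
      funext a
      have : Ideal.span {(a.1.1 : 𝓞 K)} = t.1 := congrArg Subtype.val a.2
      show θ (Ideal.span {(a.1.1 : 𝓞 K)}) * _ = _
      rw [this]
    rw [hfun]
    exact h1
  have hg : Summable fun t : PJ J => θ t.1 * (((Ideal.absNorm t.1 : ℝ) ^ (-s) : ℝ) : ℂ) := by
    refine Summable.of_norm_bounded hS (fun t => ?_)
    rw [norm_mul, Complex.norm_real, Real.norm_of_nonneg (by positivity)]
    calc ‖θ t.1‖ * (Ideal.absNorm t.1 : ℝ) ^ (-s) ≤ 1 * (Ideal.absNorm t.1 : ℝ) ^ (-s) :=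
          mul_le_mul_of_nonneg_right (hθ _) (by positivity)
      _ = _ := one_mul _
  have h2 : HasSum G (∑' t : PJ J, θ t.1 * (((Ideal.absNorm t.1 : ℝ) ^ (-s) : ℝ) : ℂ)) :=
    HasSum.sigma_of_hasSum hg.hasSum hfib hG
  exact ((Equiv.sigmaFiberEquiv (toPJ J)).hasSum_iff).mp h2

/-- The twisted sum over all elements of `J`. -/
theorem hasSum_J_twist (U : WeightData K) {s : ℝ} (hs : 1 < s) (J : Ideal (𝓞 K))
    (θ : Ideal (𝓞 K) → ℂ) (hθ : ∀ 𝔞, ‖θ 𝔞‖ ≤ 1)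
    (hS : Summable fun t : PJ J => (Ideal.absNorm t.1 : ℝ) ^ (-s)) :
    HasSum (fun a : J => θ (Ideal.span {a.1}) * ((U.F s a.1 : ℝ) : ℂ))
      (∑' t : PJ J, θ t.1 * (((Ideal.absNorm t.1 : ℝ) ^ (-s) : ℝ) : ℂ)) := by
  let g : J0 J → J := fun a => ⟨a.1, a.2.1⟩
  have hg : Function.Injective g := by
    intro a b h
    exact Subtype.ext (congrArg (fun x : J => x.1) h)
  refine (hg.hasSum_iff ?_).mp (hasSum_J0_twist U hs J θ hθ hS)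
  intro x hx
  have : x.1 = 0 := by
    by_contra h0
    exact hx ⟨⟨x.1, x.2, h0⟩, rfl⟩
  rw [this, U.F_zero hs]
  simp

/-! ### Twisted partial zeta functions of ideal classes -/

/-- the `N(a)^(-s)` factor, as a complex number -/
noncomputable def nrm (𝔞 : Ideal (𝓞 K)) (s : ℝ) : ℂ :=
  (((Ideal.absNorm 𝔞 : ℝ) ^ (-s) : ℝ) : ℂ)

theorem norm_nrm (𝔞 : Ideal (𝓞 K)) (s : ℝ) : ‖nrm 𝔞 s‖ = (Ideal.absNorm 𝔞 : ℝ) ^ (-s) := by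
  unfold nrm
  rw [Complex.norm_real, Real.norm_of_nonneg (by positivity)]

theorem nrm_mul (𝔞 𝔟 : Ideal (𝓞 K)) (s : ℝ) : nrm (𝔞 * 𝔟) s = nrm 𝔞 s * nrm 𝔟 s := by
  unfold nrm
  rw [map_mul, Nat.cast_mul, Real.mul_rpow (Nat.cast_nonneg _) (Nat.cast_nonneg _)]
  push_cast
  ring

/-- twisted partial zeta function of an ideal class -/
noncomputable def classZetaTw (θ : Ideal (𝓞 K) → ℂ) (C : ClassGroup (𝓞 K)) (s : ℝ) : ℂ :=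
  ∑' I : {I : (Ideal (𝓞 K))⁰ // ClassGroup.mk0 I = C},
    θ (I.1 : Ideal (𝓞 K)) * nrm (I.1 : Ideal (𝓞 K)) s

theorem tsum_PJ_twist (θ : Ideal (𝓞 K) →*₀ ℂ) (J : (Ideal (𝓞 K))⁰) (C : ClassGroup (𝓞 K))
    (hJ : ClassGroup.mk0 J = C⁻¹) (s : ℝ) :
    ∑' t : PJ (J : Ideal (𝓞 K)), θ t.1 * nrm t.1 s =
      θ (J : Ideal (𝓞 K)) * nrm (J : Ideal (𝓞 K)) s * classZetaTw θ C s := by
  rw [classZetaTw, ← tsum_mul_left,
    ← (Equiv.ofBijective _ (mulJ_bijective J C hJ)).tsum_eq]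
  refine tsum_congr (fun I => ?_)
  show θ ((J : Ideal (𝓞 K)) * (I.1 : Ideal (𝓞 K))) *
    nrm ((J : Ideal (𝓞 K)) * (I.1 : Ideal (𝓞 K))) s = _
  rw [map_mul, nrm_mul]
  ring

/-! ### Twisted coset comparison -/

open scoped Classical in
/-- **Twisted coset comparison**: for nonzero ideals `𝔠 ≤ 𝔟` and a bounded `𝔠`-periodic function
`lam`, the `lam`-twisted sum of the weight over `𝔟` is `(∑_{q ∈ 𝔟/𝔠} lam q)` times the sum over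
`𝔠`, up to a bounded error (uniformly in `s ∈ [1,2]`). -/
theorem coset_compare_twist (U : WeightData K) (𝔟 𝔠 : Ideal (𝓞 K)) (h𝔠 : 𝔠 ≠ ⊥) (hle : 𝔠 ≤ 𝔟)
    (lam : 𝓞 K → ℂ) (hlam : ∀ a, ‖lam a‖ ≤ 1) (hper : ∀ a, ∀ γ ∈ 𝔠, lam (a + γ) = lam a) :
    ∃ B : ℝ, ∀ s ∈ Set.Icc (1:ℝ) 2, Summable (fun γ : 𝔠 => U.F s γ.1) →
      ‖∑' β : 𝔟, lam β.1 * ((U.F s β.1 : ℝ) : ℂ) -
        (∑ᶠ q : {q : 𝓞 K ⧸ 𝔠 // Quotient.out q ∈ 𝔟}, lam (Quotient.out q.1)) *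
          ((∑' γ : 𝔠, U.F s γ.1 : ℝ) : ℂ)‖ ≤ B := by
  classical
  haveI : Finite (𝓞 K ⧸ 𝔠) := Ideal.finiteQuotientOfFreeOfNeBot 𝔠 h𝔠
  haveI : Fintype {q : 𝓞 K ⧸ 𝔠 // Quotient.out q ∈ 𝔟} := Fintype.ofFinite _
  set d : ℝ := ∑ q : {q : 𝓞 K ⧸ 𝔠 // Quotient.out q ∈ 𝔟},
    ‖mixedEmbedding K ((Quotient.out q.1 : 𝓞 K) : K)‖ with hd
  obtain ⟨C, hC⟩ := U.lip d
  refine ⟨(Fintype.card {q : 𝓞 K ⧸ 𝔠 // Quotient.out q ∈ 𝔟} : ℝ) * (C * majT K), ?_⟩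
  intro s hs hsum
  have hq : ∀ q : {q : 𝓞 K ⧸ 𝔠 // Quotient.out q ∈ 𝔟},
      ‖mixedEmbedding K ((Quotient.out q.1 : 𝓞 K) : K)‖ ≤ d := by
    intro q
    rw [hd]
    exact Finset.single_le_sum (f := fun q : {q : 𝓞 K ⧸ 𝔠 // Quotient.out q ∈ 𝔟} =>
      ‖mixedEmbedding K ((Quotient.out q.1 : 𝓞 K) : K)‖) (fun _ _ => norm_nonneg _)
      (Finset.mem_univ q)
  have hsh := fun q : {q : 𝓞 K ⧸ 𝔠 // Quotient.out q ∈ 𝔟} =>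
    shift_bound U 𝔠 hs hC (Quotient.out q.1) (hq q) hsum
  -- the real, untwisted family on the product
  let G₀ : {q : 𝓞 K ⧸ 𝔠 // Quotient.out q ∈ 𝔟} × 𝔠 → ℝ :=
    fun p => U.F s (Quotient.out p.1.1 + p.2.1)
  have hG₀0 : 0 ≤ G₀ := fun p => U.F_nonneg _ _
  have hG₀s : Summable G₀ := by
    refine (summable_prod_of_nonneg hG₀0).mpr ⟨fun q => (hsh q).1, ?_⟩
    exact Summable.of_finite
  -- the twisted family on the product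
  let G : {q : 𝓞 K ⧸ 𝔠 // Quotient.out q ∈ 𝔟} × 𝔠 → ℂ :=
    fun p => lam (Quotient.out p.1.1) * ((U.F s (Quotient.out p.1.1 + p.2.1) : ℝ) : ℂ)
  have hGs : Summable G := by
    refine Summable.of_norm_bounded hG₀s (fun p => ?_)
    show ‖lam (Quotient.out p.1.1) * ((U.F s (Quotient.out p.1.1 + p.2.1) : ℝ) : ℂ)‖ ≤ _
    rw [norm_mul, Complex.norm_real, Real.norm_of_nonneg (U.F_nonneg _ _)]
    calc ‖lam (Quotient.out p.1.1)‖ * U.F s (Quotient.out p.1.1 + p.2.1)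
        ≤ 1 * U.F s (Quotient.out p.1.1 + p.2.1) :=
          mul_le_mul_of_nonneg_right (hlam _) (U.F_nonneg _ _)
      _ = G₀ p := one_mul _
  have hGe : (fun β : 𝔟 => lam β.1 * ((U.F s β.1 : ℝ) : ℂ)) ∘ (cosetEquiv 𝔟 𝔠 hle) = G := by
    funext p
    show lam (Quotient.out p.1.1 + p.2.1) * ((U.F s (Quotient.out p.1.1 + p.2.1) : ℝ) : ℂ) = _
    rw [hper _ _ p.2.2]
  have htsum : ∑' β : 𝔟, lam β.1 * ((U.F s β.1 : ℝ) : ℂ) =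
      ∑ q : {q : 𝓞 K ⧸ 𝔠 // Quotient.out q ∈ 𝔟}, lam (Quotient.out q.1) *
        ((∑' γ : 𝔠, U.F s (Quotient.out q.1 + γ.1) : ℝ) : ℂ) := by
    calc ∑' β : 𝔟, lam β.1 * ((U.F s β.1 : ℝ) : ℂ) = ∑' p, G p := by
          rw [← (cosetEquiv 𝔟 𝔠 hle).tsum_eq (fun β : 𝔟 => lam β.1 * ((U.F s β.1 : ℝ) : ℂ))]
          exact tsum_congr (fun p => congrFun hGe p)
      _ = ∑' q : {q : 𝓞 K ⧸ 𝔠 // Quotient.out q ∈ 𝔟}, ∑' γ : 𝔠, G (q, γ) := hGs.tsum_prod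
      _ = ∑ q : {q : 𝓞 K ⧸ 𝔠 // Quotient.out q ∈ 𝔟}, ∑' γ : 𝔠, G (q, γ) := tsum_fintype _
      _ = _ := by
          refine Finset.sum_congr rfl (fun q _ => ?_)
          show ∑' γ : 𝔠, lam (Quotient.out q.1) * ((U.F s (Quotient.out q.1 + γ.1) : ℝ) : ℂ) = _
          rw [tsum_mul_left, Complex.ofReal_tsum]
  rw [htsum, finsum_eq_sum_of_fintype, Finset.sum_mul, ← Finset.sum_sub_distrib]
  calc ‖∑ q : {q : 𝓞 K ⧸ 𝔠 // Quotient.out q ∈ 𝔟},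
        (lam (Quotient.out q.1) * ((∑' γ : 𝔠, U.F s (Quotient.out q.1 + γ.1) : ℝ) : ℂ) -
          lam (Quotient.out q.1) * ((∑' γ : 𝔠, U.F s γ.1 : ℝ) : ℂ))‖
      ≤ ∑ q : {q : 𝓞 K ⧸ 𝔠 // Quotient.out q ∈ 𝔟},
        ‖lam (Quotient.out q.1) * ((∑' γ : 𝔠, U.F s (Quotient.out q.1 + γ.1) : ℝ) : ℂ) -
          lam (Quotient.out q.1) * ((∑' γ : 𝔠, U.F s γ.1 : ℝ) : ℂ)‖ := norm_sum_le _ _
    _ ≤ ∑ _q : {q : 𝓞 K ⧸ 𝔠 // Quotient.out q ∈ 𝔟}, C * majT K := by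
        refine Finset.sum_le_sum (fun q _ => ?_)
        rw [← mul_sub, norm_mul, ← Complex.ofReal_sub, Complex.norm_real, Real.norm_eq_abs]
        calc ‖lam (Quotient.out q.1)‖ *
              |∑' γ : 𝔠, U.F s (Quotient.out q.1 + γ.1) - ∑' γ : 𝔠, U.F s γ.1|
            ≤ 1 * (C * majT K) :=
              mul_le_mul (hlam _) (hsh q).2 (abs_nonneg _) zero_le_one
          _ = _ := one_mul _
    _ = _ := by rw [Finset.sum_const, nsmul_eq_mul, Finset.card_univ]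

/-! ### The main term of a twisted partial zeta function -/

open Fermat.Agent.CFT.C1ClassDefs Fermat.Agent.CFT.ZetaRBounds

/-- the coefficient of the main term for the ideal `J` (a sum over `J / 𝔪 J`) -/
noncomputable def LamJ (θ : Ideal (𝓞 K) → ℂ) (𝔪 J : Ideal (𝓞 K)) : ℂ :=
  ∑ᶠ q : {q : 𝓞 K ⧸ (𝔪 * J) // Quotient.out q ∈ J}, θ (Ideal.span {Quotient.out q.1})

theorem one_le_absNorm' (J : (Ideal (𝓞 K))⁰) : (1:ℝ) ≤ (Ideal.absNorm (J : Ideal (𝓞 K)) : ℝ) :=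
  absNorm_one_le J

/-- **Main term**: the twisted partial zeta function of the class `C` is
`θ(J)⁻¹ · LamJ · N(𝔪)^(-s) · ζ(s, 1)` up to a bounded error, for `J` in `C⁻¹` with `‖θ J‖ = 1`. -/
theorem classZetaTw_approx (θ : Ideal (𝓞 K) →*₀ ℂ) (hθ : ∀ 𝔞, ‖θ 𝔞‖ ≤ 1) (𝔪 : (Ideal (𝓞 K))⁰)
    (hper : ∀ α β : 𝓞 K, α - β ∈ (𝔪 : Ideal (𝓞 K)) → θ (Ideal.span {α}) = θ (Ideal.span {β}))
    (J : (Ideal (𝓞 K))⁰) (hJθ : ‖θ (J : Ideal (𝓞 K))‖ = 1) (C : ClassGroup (𝓞 K))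
    (hJ : ClassGroup.mk0 J = C⁻¹) :
    ∃ D : ℝ, ∀ s ∈ Set.Ioc (1:ℝ) 2,
      ‖classZetaTw θ C s - (θ (J : Ideal (𝓞 K)))⁻¹ * LamJ θ 𝔪 J * nrm (𝔪 : Ideal (𝓞 K)) s *
        ((classZeta (1 : ClassGroup (𝓞 K)) s : ℝ) : ℂ)‖ ≤ D := by
  classical
  set U := weightData K with hU
  obtain ⟨B₀, hB₀⟩ := exists_classZeta_sub_le' K
  set c : (Ideal (𝓞 K))⁰ := 𝔪 * J with hc
  have hcJ : (c : Ideal (𝓞 K)) ≤ (J : Ideal (𝓞 K)) := by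
    rw [hc]; push_cast
    exact Ideal.mul_le_right (I := (𝔪 : Ideal (𝓞 K))) (J := (J : Ideal (𝓞 K)))
  have hc𝔪 : (c : Ideal (𝓞 K)) ≤ (𝔪 : Ideal (𝓞 K)) := by
    rw [hc]; push_cast; exact Ideal.mul_le_left (I := (𝔪 : Ideal (𝓞 K))) (J := (J : Ideal (𝓞 K)))
  have hc0 : (c : Ideal (𝓞 K)) ≠ ⊥ := nonZeroDivisors.coe_ne_zero c
  set lam : 𝓞 K → ℂ := fun a => θ (Ideal.span {a}) with hlam
  obtain ⟨B, hB⟩ := coset_compare_twist U (J : Ideal (𝓞 K)) (c : Ideal (𝓞 K)) hc0 hcJ lam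
    (fun a => hθ _) (fun a γ hγ => hper _ _ (by simpa using hc𝔪 hγ))
  set NJ : ℝ := (Ideal.absNorm (J : Ideal (𝓞 K)) : ℝ) with hNJ
  have hNJ1 : 1 ≤ NJ := absNorm_one_le J
  set L₀ : ℂ := LamJ θ 𝔪 J with hL₀
  have hLam : (∑ᶠ q : {q : 𝓞 K ⧸ (c : Ideal (𝓞 K)) // Quotient.out q ∈ (J : Ideal (𝓞 K))},
      lam (Quotient.out q.1)) = L₀ := by
    rw [hL₀, LamJ]
    rfl
  have hθJ0 : θ (J : Ideal (𝓞 K)) ≠ 0 := by
    intro h; rw [h, norm_zero] at hJθ; exact zero_ne_one hJθ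
  refine ⟨NJ ^ (2:ℝ) * |B| + ‖L₀‖ * |B₀|, fun s hs => ?_⟩
  have hs1 : 1 < s := hs.1
  have hs2 : s ≤ 2 := hs.2
  have hS := summable_zetaR K hs1
  -- the sum over `c`
  have hcsum := hasSum_ideal U hs1 c (ClassGroup.mk0 c)⁻¹ (by simp) hS
  set C' : ClassGroup (𝓞 K) := (ClassGroup.mk0 c)⁻¹ with hC'
  have h1 := hB s ⟨hs1.le, hs2⟩ hcsum.summable
  rw [hLam, hcsum.tsum_eq] at h1
  -- the sum over `J`
  have hSJ : Summable fun t : PJ (J : Ideal (𝓞 K)) => (Ideal.absNorm t.1 : ℝ) ^ (-s) :=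
    summable_PJ J C hJ s hS
  have h2 := (hasSum_J_twist U hs1 (J : Ideal (𝓞 K)) θ hθ hSJ).tsum_eq
  have h3 := tsum_PJ_twist θ J C hJ s
  have h4 : ∑' β : (J : Ideal (𝓞 K)), lam β.1 * ((U.F s β.1 : ℝ) : ℂ) =
      θ (J : Ideal (𝓞 K)) * nrm (J : Ideal (𝓞 K)) s * classZetaTw θ C s := by
    rw [← h3]; exact h2
  rw [h4] at h1
  -- norms
  have hNJpos : 0 < NJ := by linarith
  have hnJ : ‖nrm (J : Ideal (𝓞 K)) s‖ = NJ ^ (-s) := norm_nrm _ _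
  have hnJ0 : nrm (J : Ideal (𝓞 K)) s ≠ 0 := by
    intro h; rw [h, norm_zero] at hnJ
    have : 0 < NJ ^ (-s) := Real.rpow_pos_of_pos hNJpos _
    linarith
  have hcm : nrm (c : Ideal (𝓞 K)) s = nrm (𝔪 : Ideal (𝓞 K)) s * nrm (J : Ideal (𝓞 K)) s := by
    rw [hc]; push_cast; exact nrm_mul _ _ _
  have hcm' : (((Ideal.absNorm (c : Ideal (𝓞 K)) : ℝ) ^ (-s) * classZeta C' s : ℝ) : ℂ) =
      nrm (𝔪 : Ideal (𝓞 K)) s * nrm (J : Ideal (𝓞 K)) s * ((classZeta C' s : ℝ) : ℂ) := by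
    rw [← hcm]; unfold nrm; push_cast; ring
  rw [hcm'] at h1
  set Z := classZetaTw θ C s with hZ
  set tJ := θ (J : Ideal (𝓞 K)) with htJ
  set nJ := nrm (J : Ideal (𝓞 K)) s with hnJdef
  set n𝔪 := nrm (𝔪 : Ideal (𝓞 K)) s with hn𝔪
  have hn𝔪le : ‖n𝔪‖ ≤ 1 := by
    rw [hn𝔪, norm_nrm]
    exact Real.rpow_le_one_of_one_le_of_nonpos (absNorm_one_le 𝔪) (by linarith)
  -- divide by `tJ * nJ`
  have hdiv : Z - tJ⁻¹ * L₀ * n𝔪 * ((classZeta C' s : ℝ) : ℂ) =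
      (tJ * nJ)⁻¹ * (tJ * nJ * Z - L₀ * (n𝔪 * nJ * ((classZeta C' s : ℝ) : ℂ))) := by
    field_simp
  have hnorminv : ‖(tJ * nJ)⁻¹‖ = NJ ^ s := by
    rw [norm_inv, norm_mul, hJθ, one_mul, hnJ, Real.rpow_neg hNJpos.le, inv_inv]
  have hNs2 : NJ ^ s ≤ NJ ^ (2:ℝ) := Real.rpow_le_rpow_of_exponent_le hNJ1 hs2
  have hstep1 : ‖Z - tJ⁻¹ * L₀ * n𝔪 * ((classZeta C' s : ℝ) : ℂ)‖ ≤ NJ ^ (2:ℝ) * |B| := by
    rw [hdiv, norm_mul, hnorminv]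
    exact mul_le_mul hNs2 (h1.trans (le_abs_self B)) (norm_nonneg _) (by positivity)
  have hstep2 : ‖tJ⁻¹ * L₀ * n𝔪 * ((classZeta C' s : ℝ) : ℂ) -
      tJ⁻¹ * L₀ * n𝔪 * ((classZeta (1 : ClassGroup (𝓞 K)) s : ℝ) : ℂ)‖ ≤ ‖L₀‖ * |B₀| := by
    rw [← mul_sub, ← Complex.ofReal_sub, norm_mul, norm_mul, norm_mul, norm_inv, hJθ, inv_one,
      one_mul, Complex.norm_real, Real.norm_eq_abs]
    calc ‖L₀‖ * ‖n𝔪‖ * |classZeta C' s - classZeta 1 s|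
        ≤ ‖L₀‖ * 1 * |B₀| := by
          have h5 : |classZeta C' s - classZeta 1 s| ≤ |B₀| :=
            (hB₀ s hs C' 1).trans (le_abs_self _)
          exact mul_le_mul (mul_le_mul_of_nonneg_left hn𝔪le (norm_nonneg _)) h5 (abs_nonneg _)
            (by positivity)
      _ = _ := by ring
  calc ‖Z - tJ⁻¹ * L₀ * n𝔪 * ((classZeta (1 : ClassGroup (𝓞 K)) s : ℝ) : ℂ)‖
      = ‖(Z - tJ⁻¹ * L₀ * n𝔪 * ((classZeta C' s : ℝ) : ℂ)) +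
          (tJ⁻¹ * L₀ * n𝔪 * ((classZeta C' s : ℝ) : ℂ) -
            tJ⁻¹ * L₀ * n𝔪 * ((classZeta (1 : ClassGroup (𝓞 K)) s : ℝ) : ℂ))‖ := by
        congr 1; ring
    _ ≤ _ := (norm_add_le _ _).trans (add_le_add hstep1 hstep2)

/-! ### The coefficient `LamJ` does not depend on `J` -/

/-- the coefficient of the main term: a sum over `𝓞 K / 𝔪` -/
noncomputable def Lam (θ : Ideal (𝓞 K) → ℂ) (𝔪 : Ideal (𝓞 K)) : ℂ :=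
  ∑ᶠ x : 𝓞 K ⧸ 𝔪, θ (Ideal.span {Quotient.out x})

theorem out_sub_mem (I : Ideal (𝓞 K)) (y : 𝓞 K) :
    Quotient.out (Ideal.Quotient.mk I y) - y ∈ I := by
  rw [← Ideal.Quotient.eq]; exact Ideal.Quotient.mk_out _

/-- For `J` prime to `𝔪`, reduction modulo `𝔪` is a bijection from `J / 𝔪 J` to `𝓞 K / 𝔪`. -/
theorem redMod_bijective (𝔪 J : Ideal (𝓞 K)) (hJ𝔪 : J ⊔ 𝔪 = ⊤) :
    Function.Bijective (fun q : {q : 𝓞 K ⧸ (𝔪 * J) // Quotient.out q ∈ J} =>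
      Ideal.Quotient.mk 𝔪 (Quotient.out q.1)) := by
  have hcop : IsCoprime 𝔪 J := by
    rw [Ideal.isCoprime_iff_sup_eq, sup_comm]; exact hJ𝔪
  have hinf : 𝔪 ⊓ J ≤ 𝔪 * J := (Ideal.mul_eq_inf_of_isCoprime hcop).ge
  constructor
  · intro q q' h
    have h1 : Quotient.out q.1 - Quotient.out q'.1 ∈ 𝔪 := (Ideal.Quotient.eq).mp h
    have h2 : Quotient.out q.1 - Quotient.out q'.1 ∈ J := J.sub_mem q.2 q'.2
    have h3 : Quotient.out q.1 - Quotient.out q'.1 ∈ 𝔪 * J := hinf ⟨h1, h2⟩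
    apply Subtype.ext
    rw [← Ideal.Quotient.mk_out q.1, ← Ideal.Quotient.mk_out q'.1]
    exact (Ideal.Quotient.eq).mpr h3
  · intro x
    obtain ⟨j, hj, μ, hμ, hjμ⟩ := Submodule.mem_sup.mp
      (show (1 : 𝓞 K) ∈ J ⊔ 𝔪 by rw [hJ𝔪]; exact Submodule.mem_top)
    set y : 𝓞 K := Quotient.out x with hy
    have hyj : y * j ∈ J := J.mul_mem_left _ hj
    have hout : Quotient.out (Ideal.Quotient.mk (𝔪 * J) (y * j)) - y * j ∈ 𝔪 * J :=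
      out_sub_mem _ _
    have hmemJ : Quotient.out (Ideal.Quotient.mk (𝔪 * J) (y * j)) ∈ J := by
      have := J.add_mem (Ideal.mul_le_right (I := 𝔪) (J := J) hout) hyj
      simpa using this
    refine ⟨⟨Ideal.Quotient.mk (𝔪 * J) (y * j), hmemJ⟩, ?_⟩
    show Ideal.Quotient.mk 𝔪 (Quotient.out (Ideal.Quotient.mk (𝔪 * J) (y * j))) = x
    have h1 : Quotient.out (Ideal.Quotient.mk (𝔪 * J) (y * j)) - y ∈ 𝔪 := by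
      have e : Quotient.out (Ideal.Quotient.mk (𝔪 * J) (y * j)) - y =
          (Quotient.out (Ideal.Quotient.mk (𝔪 * J) (y * j)) - y * j) + (- (y * μ)) := by
        have : y = y * j + y * μ := by rw [← mul_add, hjμ, mul_one]
        linear_combination (-1 : 𝓞 K) * this
      rw [e]
      exact 𝔪.add_mem (Ideal.mul_le_left (I := 𝔪) (J := J) hout)
        (𝔪.neg_mem (𝔪.mul_mem_left _ hμ))
    rw [(Ideal.Quotient.eq).mpr h1, hy, Ideal.Quotient.mk_out]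

theorem LamJ_eq_Lam (θ : Ideal (𝓞 K) → ℂ) (𝔪 J : Ideal (𝓞 K)) (hJ𝔪 : J ⊔ 𝔪 = ⊤)
    (hper : ∀ α β : 𝓞 K, α - β ∈ 𝔪 → θ (Ideal.span {α}) = θ (Ideal.span {β})) :
    LamJ θ 𝔪 J = Lam θ 𝔪 := by
  unfold LamJ Lam
  refine finsum_eq_of_bijective _ (redMod_bijective 𝔪 J hJ𝔪) (fun q => ?_)
  exact (hper _ _ (out_sub_mem 𝔪 (Quotient.out q.1))).symm

/-! ### The main terms cancel -/

/-- **Case A**: if `θ (u) ≠ 1` for some `u` prime to `𝔪`, then `Lam = 0`. -/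
theorem Lam_eq_zero (θ : Ideal (𝓞 K) →*₀ ℂ) (𝔪 : Ideal (𝓞 K)) (h𝔪 : 𝔪 ≠ ⊥)
    (hper : ∀ α β : 𝓞 K, α - β ∈ 𝔪 → θ (Ideal.span {α}) = θ (Ideal.span {β}))
    (u : 𝓞 K) (hu : Ideal.span {u} ⊔ 𝔪 = ⊤) (hθu : θ (Ideal.span {u}) ≠ 1) :
    Lam θ 𝔪 = 0 := by
  classical
  haveI : Finite (𝓞 K ⧸ 𝔪) := Ideal.finiteQuotientOfFreeOfNeBot 𝔪 h𝔪
  -- `u` is a unit modulo `𝔪`
  obtain ⟨a, ha, μ, hμ, haμ⟩ := Submodule.mem_sup.mp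
    (show (1 : 𝓞 K) ∈ Ideal.span {u} ⊔ 𝔪 by rw [hu]; exact Submodule.mem_top)
  obtain ⟨v, rfl⟩ := Ideal.mem_span_singleton'.mp ha
  have huv : Ideal.Quotient.mk 𝔪 u * Ideal.Quotient.mk 𝔪 v = 1 := by
    rw [← map_mul, ← map_one (Ideal.Quotient.mk 𝔪), Ideal.Quotient.eq]
    have : u * v - 1 = -μ := by linear_combination haμ
    rw [this]; exact 𝔪.neg_mem hμ
  let ū : (𝓞 K ⧸ 𝔪)ˣ := ⟨Ideal.Quotient.mk 𝔪 u, Ideal.Quotient.mk 𝔪 v, huv, by rw [mul_comm]; exact huv⟩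
  set f : 𝓞 K ⧸ 𝔪 → ℂ := fun x => θ (Ideal.span {Quotient.out x}) with hf
  have hfu : ∀ x, f ((Units.mulLeft ū) x) = θ (Ideal.span {u}) * f x := by
    intro x
    show θ (Ideal.span {Quotient.out (Ideal.Quotient.mk 𝔪 u * x)}) = _
    have h1 : Quotient.out (Ideal.Quotient.mk 𝔪 u * x) - u * Quotient.out x ∈ 𝔪 := by
      rw [← Ideal.Quotient.eq, Ideal.Quotient.mk_out, map_mul, Ideal.Quotient.mk_out]
    rw [hper _ _ h1, ← map_mul, Ideal.span_singleton_mul_span_singleton]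
  have h2 : ∑ᶠ x, f ((Units.mulLeft ū) x) = ∑ᶠ x, f x := finsum_comp_equiv (Units.mulLeft ū)
  have h3 : ∑ᶠ x, f ((Units.mulLeft ū) x) = θ (Ideal.span {u}) * ∑ᶠ x, f x := by
    simp_rw [hfu]
    rw [mul_finsum]
  have h4 : (1 - θ (Ideal.span {u})) * ∑ᶠ x, f x = 0 := by
    rw [sub_mul, one_mul, ← h3, h2, sub_self]
  rcases mul_eq_zero.mp h4 with h | h
  · exact absurd (sub_eq_zero.mp h).symm hθu
  · exact h

/-- In **case B** (`θ` trivial on the principal ideals prime to `𝔪`), `θ` is constant on the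
ideals prime to `𝔪` of a given class. -/
theorem theta_eq_of_class (θ : Ideal (𝓞 K) →*₀ ℂ) (𝔪 : Ideal (𝓞 K))
    (hB : ∀ u : 𝓞 K, Ideal.span {u} ⊔ 𝔪 = ⊤ → θ (Ideal.span {u}) = 1)
    (𝔞 𝔞' : (Ideal (𝓞 K))⁰) (h𝔞 : (𝔞 : Ideal (𝓞 K)) ⊔ 𝔪 = ⊤) (h𝔞' : (𝔞' : Ideal (𝓞 K)) ⊔ 𝔪 = ⊤)
    (hcl : ClassGroup.mk0 𝔞 = ClassGroup.mk0 𝔞') :
    θ (𝔞 : Ideal (𝓞 K)) = θ (𝔞' : Ideal (𝓞 K)) := by
  obtain ⟨x, y, hx, hy, hxy⟩ := (ClassGroup.mk0_eq_mk0_iff).mp hcl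
  obtain ⟨x', y', -, -, -, hx', hy', -, h⟩ :=
    Fermat.Agent.CFT.CoprimeRep.exists_coprime_gens 𝔪 h𝔞 h𝔞' hx hy hxy
  have := congrArg θ h
  rwa [map_mul, map_mul, hB x' hx', hB y' hy', one_mul, one_mul] at this

/-- **Case B**: the sum of `θ(J_C)⁻¹` over the classes vanishes. -/
theorem sum_inv_theta_eq_zero (θ : Ideal (𝓞 K) →*₀ ℂ) (𝔪 : Ideal (𝓞 K))
    (hunit : ∀ 𝔞 : Ideal (𝓞 K), 𝔞 ⊔ 𝔪 = ⊤ → ‖θ 𝔞‖ = 1)
    (hB : ∀ u : 𝓞 K, Ideal.span {u} ⊔ 𝔪 = ⊤ → θ (Ideal.span {u}) = 1)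
    (𝔟 : (Ideal (𝓞 K))⁰) (h𝔟 : (𝔟 : Ideal (𝓞 K)) ⊔ 𝔪 = ⊤) (hθ𝔟 : θ (𝔟 : Ideal (𝓞 K)) ≠ 1)
    (Jc : ClassGroup (𝓞 K) → (Ideal (𝓞 K))⁰)
    (hJc : ∀ C, ((Jc C : (Ideal (𝓞 K))⁰) : Ideal (𝓞 K)) ⊔ 𝔪 = ⊤)
    (hJcl : ∀ C, ClassGroup.mk0 (Jc C) = C⁻¹) :
    ∑ C : ClassGroup (𝓞 K), (θ ((Jc C : (Ideal (𝓞 K))⁰) : Ideal (𝓞 K)))⁻¹ = 0 := by
  classical
  set b : ClassGroup (𝓞 K) := ClassGroup.mk0 𝔟 with hb
  set T : ℂ := ∑ C : ClassGroup (𝓞 K), (θ ((Jc C : (Ideal (𝓞 K))⁰) : Ideal (𝓞 K)))⁻¹ with hT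
  have hθ𝔟0 : θ (𝔟 : Ideal (𝓞 K)) ≠ 0 := by
    intro h
    have := hunit _ h𝔟
    rw [h, norm_zero] at this
    exact zero_ne_one this
  have key : ∀ C : ClassGroup (𝓞 K),
      θ ((Jc (C * b⁻¹) : (Ideal (𝓞 K))⁰) : Ideal (𝓞 K)) =
        θ ((Jc C : (Ideal (𝓞 K))⁰) : Ideal (𝓞 K)) * θ (𝔟 : Ideal (𝓞 K)) := by
    intro C
    rw [← map_mul]
    have h1 : (((Jc C * 𝔟 : (Ideal (𝓞 K))⁰)) : Ideal (𝓞 K)) =
        ((Jc C : (Ideal (𝓞 K))⁰) : Ideal (𝓞 K)) * (𝔟 : Ideal (𝓞 K)) := by push_cast; rfl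
    rw [← h1]
    refine theta_eq_of_class θ 𝔪 hB _ _ (hJc _) ?_ ?_
    · rw [h1]
      exact Fermat.Agent.CFT.CoprimeRep.mul_sup_eq_top (hJc C) h𝔟
    · rw [hJcl, map_mul, hJcl, mul_inv, inv_inv]
  have h2 : T = ∑ C : ClassGroup (𝓞 K),
      (θ ((Jc (C * b⁻¹) : (Ideal (𝓞 K))⁰) : Ideal (𝓞 K)))⁻¹ :=
    (Equiv.sum_comp (Equiv.mulRight b⁻¹)
      (fun C => (θ ((Jc C : (Ideal (𝓞 K))⁰) : Ideal (𝓞 K)))⁻¹)).symm
  have h3 : T = T * (θ (𝔟 : Ideal (𝓞 K)))⁻¹ := by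
    conv_lhs => rw [h2]
    rw [hT, Finset.sum_mul]
    refine Finset.sum_congr rfl (fun C _ => ?_)
    rw [key C, mul_inv]
  have h4 : T * (1 - (θ (𝔟 : Ideal (𝓞 K)))⁻¹) = 0 := by
    rw [mul_sub, mul_one, ← h3, sub_self]
  rcases mul_eq_zero.mp h4 with h | h
  · exact h
  · exfalso
    apply hθ𝔟
    have : (θ (𝔟 : Ideal (𝓞 K)))⁻¹ = 1 := (sub_eq_zero.mp h).symm
    rw [inv_eq_one] at this
    exact this

/-! ### The `L`-series and the main theorem -/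

/-- the `L`-series of `θ` at a real argument, as a sum over the nonzero ideals -/
noncomputable def rayL (θ : Ideal (𝓞 K) → ℂ) (s : ℝ) : ℂ :=
  ∑' a : (Ideal (𝓞 K))⁰, θ (a : Ideal (𝓞 K)) * nrm (a : Ideal (𝓞 K)) s

theorem norm_term_le (θ : Ideal (𝓞 K) → ℂ) (hθ : ∀ 𝔞, ‖θ 𝔞‖ ≤ 1) (s : ℝ) (a : Ideal (𝓞 K)) :
    ‖θ a * nrm a s‖ ≤ (Ideal.absNorm a : ℝ) ^ (-s) := by
  rw [norm_mul, norm_nrm]
  calc ‖θ a‖ * (Ideal.absNorm a : ℝ) ^ (-s) ≤ 1 * (Ideal.absNorm a : ℝ) ^ (-s) :=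
        mul_le_mul_of_nonneg_right (hθ _) (by positivity)
    _ = _ := one_mul _

theorem summable_rayL (θ : Ideal (𝓞 K) → ℂ) (hθ : ∀ 𝔞, ‖θ 𝔞‖ ≤ 1) {s : ℝ} (hs : 1 < s) :
    Summable fun a : (Ideal (𝓞 K))⁰ => θ (a : Ideal (𝓞 K)) * nrm (a : Ideal (𝓞 K)) s :=
  Summable.of_norm_bounded (summable_zetaR K hs) (fun a => norm_term_le θ hθ s _)

/-- decomposition of the `L`-series along ideal classes -/
theorem rayL_eq_sum (θ : Ideal (𝓞 K) → ℂ) (hθ : ∀ 𝔞, ‖θ 𝔞‖ ≤ 1) {s : ℝ} (hs : 1 < s) :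
    rayL θ s = ∑ C : ClassGroup (𝓞 K), classZetaTw θ C s := by
  classical
  have hsum := summable_rayL θ hθ hs
  rw [rayL, ← (Equiv.sigmaFiberEquiv (ClassGroup.mk0 (R := 𝓞 K))).tsum_eq]
  rw [Summable.tsum_sigma' (fun C => ?_) ?_, tsum_fintype]
  · rfl
  · exact hsum.comp_injective (Equiv.sigmaFiberEquiv (ClassGroup.mk0 (R := 𝓞 K))).injective
  · exact hsum.comp_injective
      ((Equiv.sigmaFiberEquiv (ClassGroup.mk0 (R := 𝓞 K))).injective.comp sigma_mk_injective)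

/-- **Boundedness of twisted `L`-series.**  Let `θ` be a completely multiplicative function on the
ideals of `𝓞 K`, bounded by `1`, of absolute value `1` on the ideals prime to `𝔪 ≠ ⊥`, whose value
on a principal ideal depends only on the generator modulo `𝔪`.  If `θ 𝔟 ≠ 1` for some nonzero
`𝔟` prime to `𝔪`, then `∑ θ(𝔞) N(𝔞)^(-s)` is bounded on `(1, 2]`. -/
theorem rayL_bounded (θ : Ideal (𝓞 K) →*₀ ℂ) (hθ : ∀ 𝔞, ‖θ 𝔞‖ ≤ 1) (𝔪 : Ideal (𝓞 K)) (h𝔪 : 𝔪 ≠ ⊥)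
    (hunit : ∀ 𝔞 : Ideal (𝓞 K), 𝔞 ⊔ 𝔪 = ⊤ → ‖θ 𝔞‖ = 1)
    (hper : ∀ α β : 𝓞 K, α - β ∈ 𝔪 → θ (Ideal.span {α}) = θ (Ideal.span {β}))
    (hnt : ∃ 𝔟 : Ideal (𝓞 K), 𝔟 ≠ ⊥ ∧ 𝔟 ⊔ 𝔪 = ⊤ ∧ θ 𝔟 ≠ 1) :
    ∃ B : ℝ, ∀ s ∈ Set.Ioc (1:ℝ) 2, ‖rayL θ s‖ ≤ B := by
  classical
  choose Jc hJc hJcl using fun C : ClassGroup (𝓞 K) =>
    Fermat.Agent.CFT.CoprimeRep.exists_coprime_rep_classGroup 𝔪 h𝔪 C⁻¹
  set 𝔪' : (Ideal (𝓞 K))⁰ := ⟨𝔪, mem_nonZeroDivisors_of_ne_zero h𝔪⟩ with h𝔪'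
  choose D hD using fun C : ClassGroup (𝓞 K) =>
    classZetaTw_approx θ hθ 𝔪' hper (Jc C) (hunit _ (hJc C)) C (hJcl C)
  have hLamJ : ∀ C, LamJ θ (𝔪' : Ideal (𝓞 K)) ((Jc C : (Ideal (𝓞 K))⁰) : Ideal (𝓞 K)) =
      Lam θ 𝔪 := fun C => LamJ_eq_Lam θ 𝔪 _ (hJc C) hper
  have hLT : Lam θ 𝔪 *
      ∑ C : ClassGroup (𝓞 K), (θ ((Jc C : (Ideal (𝓞 K))⁰) : Ideal (𝓞 K)))⁻¹ = 0 := by
    by_cases hA : ∃ u : 𝓞 K, Ideal.span {u} ⊔ 𝔪 = ⊤ ∧ θ (Ideal.span {u}) ≠ 1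
    · obtain ⟨u, hu, hθu⟩ := hA
      rw [Lam_eq_zero θ 𝔪 h𝔪 hper u hu hθu, zero_mul]
    · simp only [not_exists, not_and, not_not] at hA
      obtain ⟨𝔟, h𝔟0, h𝔟, hθ𝔟⟩ := hnt
      rw [sum_inv_theta_eq_zero θ 𝔪 hunit hA ⟨𝔟, mem_nonZeroDivisors_of_ne_zero h𝔟0⟩ h𝔟 hθ𝔟
        Jc hJc hJcl, mul_zero]
  refine ⟨∑ C : ClassGroup (𝓞 K), D C, fun s hs => ?_⟩
  rw [rayL_eq_sum θ hθ hs.1]
  set ζ₁ : ℂ := ((classZeta (1 : ClassGroup (𝓞 K)) s : ℝ) : ℂ) with hζ₁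
  have hmain : ∑ C : ClassGroup (𝓞 K),
      (θ ((Jc C : (Ideal (𝓞 K))⁰) : Ideal (𝓞 K)))⁻¹ *
        LamJ θ (𝔪' : Ideal (𝓞 K)) ((Jc C : (Ideal (𝓞 K))⁰) : Ideal (𝓞 K)) *
        nrm (𝔪' : Ideal (𝓞 K)) s * ζ₁ = 0 := by
    simp_rw [hLamJ]
    have : ∀ C : ClassGroup (𝓞 K),
        (θ ((Jc C : (Ideal (𝓞 K))⁰) : Ideal (𝓞 K)))⁻¹ * Lam θ 𝔪 * nrm (𝔪' : Ideal (𝓞 K)) s * ζ₁ =
        (θ ((Jc C : (Ideal (𝓞 K))⁰) : Ideal (𝓞 K)))⁻¹ * (Lam θ 𝔪 * nrm (𝔪' : Ideal (𝓞 K)) s * ζ₁) :=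
      fun C => by ring
    simp_rw [this]
    rw [← Finset.sum_mul]
    calc (∑ C : ClassGroup (𝓞 K), (θ ((Jc C : (Ideal (𝓞 K))⁰) : Ideal (𝓞 K)))⁻¹) *
          (Lam θ 𝔪 * nrm (𝔪' : Ideal (𝓞 K)) s * ζ₁)
        = (Lam θ 𝔪 * ∑ C : ClassGroup (𝓞 K), (θ ((Jc C : (Ideal (𝓞 K))⁰) : Ideal (𝓞 K)))⁻¹) *
          (nrm (𝔪' : Ideal (𝓞 K)) s * ζ₁) := by ring
      _ = 0 := by rw [hLT, zero_mul]
  calc ‖∑ C : ClassGroup (𝓞 K), classZetaTw θ C s‖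
      = ‖∑ C : ClassGroup (𝓞 K), (classZetaTw θ C s -
          (θ ((Jc C : (Ideal (𝓞 K))⁰) : Ideal (𝓞 K)))⁻¹ *
          LamJ θ (𝔪' : Ideal (𝓞 K)) ((Jc C : (Ideal (𝓞 K))⁰) : Ideal (𝓞 K)) *
          nrm (𝔪' : Ideal (𝓞 K)) s * ζ₁)‖ := by
        rw [Finset.sum_sub_distrib, hmain, sub_zero]
    _ ≤ ∑ C : ClassGroup (𝓞 K), ‖classZetaTw θ C s -
          (θ ((Jc C : (Ideal (𝓞 K))⁰) : Ideal (𝓞 K)))⁻¹ *
          LamJ θ (𝔪' : Ideal (𝓞 K)) ((Jc C : (Ideal (𝓞 K))⁰) : Ideal (𝓞 K)) *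
          nrm (𝔪' : Ideal (𝓞 K)) s * ζ₁‖ := norm_sum_le _ _
    _ ≤ ∑ C : ClassGroup (𝓞 K), D C := Finset.sum_le_sum (fun C _ => hD C s hs)

end Fermat.Agent.DS.Cheb.RayLBound
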