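/-
Programme DS (S48), brick B3-B (helper20), part 2: the logarithm of an Euler product.

For a completely multiplicative `θ` on the ideals of `𝓞 K` with `‖θ 𝔞‖ ≤ 1` and `s > 1`:
`|Re ∑_P θ(P) N(P)^(-s) - log ‖L(s, θ)‖| ≤ primeSqConst K` (`abs_re_tsum_prime_sub_log_le`), where
`L(s, θ) = RayLBound.rayL θ s`.
-/
import Mathlib
import Fermat.Agent.DS.Cheb.RayLBound
import Fermat.Agent.CFT.PrimeZetaLog

set_option autoImplicit false
set_option linter.unusedSectionVars false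
set_option linter.unusedVariables false
set_option linter.style.haveILetI false

open NumberField IsDedekindDomain nonZeroDivisors
open Fermat.Agent.DS.Cheb.RayLBound Fermat.Agent.CFT.PrimeZetaLog Fermat.Agent.CFT.IdealEuler
  Fermat.Agent.CFT.ClassLEuler Fermat.Agent.CFT.IdealZetaSum

namespace Fermat.Agent.DS.Cheb.EulerLog20

variable {K : Type*} [Field K] [NumberField K]

/-- `𝔞 ↦ θ(𝔞) N(𝔞)^(-s)` as a completely multiplicative function -/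
noncomputable def tw (θ : Ideal (𝓞 K) →*₀ ℂ) (s : ℝ) : Ideal (𝓞 K) →*₀ ℂ where
  toFun a := θ a * nrm a s
  map_zero' := by rw [map_zero, zero_mul]
  map_one' := by
    rw [map_one, one_mul]
    unfold nrm
    simp
  map_mul' a b := by
    rw [map_mul, nrm_mul]
    ring

theorem tw_apply (θ : Ideal (𝓞 K) →*₀ ℂ) (s : ℝ) (a : Ideal (𝓞 K)) :
    tw θ s a = θ a * nrm a s := rfl

theorem norm_tw_le (θ : Ideal (𝓞 K) →*₀ ℂ) (hθ : ∀ 𝔞, ‖θ 𝔞‖ ≤ 1) (s : ℝ) (a : Ideal (𝓞 K)) :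
    ‖tw θ s a‖ ≤ (Ideal.absNorm a : ℝ) ^ (-s) :=
  norm_term_le θ hθ s a

theorem summable_norm_tw (θ : Ideal (𝓞 K) →*₀ ℂ) (hθ : ∀ 𝔞, ‖θ 𝔞‖ ≤ 1) {s : ℝ} (hs : 1 < s) :
    Summable (fun a : Ideal (𝓞 K) => ‖tw θ s a‖) :=
  Summable.of_nonneg_of_le (fun _ => norm_nonneg _) (norm_tw_le θ hθ s)
    (summable_absNorm_rpow K hs)

theorem rayL_eq_tsum_tw (θ : Ideal (𝓞 K) →*₀ ℂ) (s : ℝ) :
    rayL θ s = ∑' a : Ideal (𝓞 K), tw θ s a := by
  have hsupp : Function.support (fun a : Ideal (𝓞 K) => tw θ s a) ⊆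
      ((Ideal (𝓞 K))⁰ : Set (Ideal (𝓞 K))) := by
    intro a ha
    by_contra h
    apply ha
    have h0 : a = 0 := by
      by_contra hne
      exact h (mem_nonZeroDivisors_of_ne_zero hne)
    show tw θ s a = 0
    rw [h0, map_zero]
  rw [← tsum_subtype_eq_of_support_subset hsupp, rayL]
  rfl

/-- the Euler product of `rayL` -/
theorem hasProd_rayL (θ : Ideal (𝓞 K) →*₀ ℂ) (hθ : ∀ 𝔞, ‖θ 𝔞‖ ≤ 1) {s : ℝ} (hs : 1 < s) :
    HasProd (fun P : HeightOneSpectrum (𝓞 K) => (1 - tw θ s P.asIdeal)⁻¹) (rayL θ s) := by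
  rw [rayL_eq_tsum_tw]
  exact hasProd_inv_one_sub (tw θ s) (summable_norm_tw θ hθ hs)

theorem norm_tw_prime_le (θ : Ideal (𝓞 K) →*₀ ℂ) (hθ : ∀ 𝔞, ‖θ 𝔞‖ ≤ 1) {s : ℝ} (hs : 1 ≤ s)
    (P : HeightOneSpectrum (𝓞 K)) : ‖tw θ s P.asIdeal‖ ≤ 1 / 2 :=
  (norm_tw_le θ hθ s _).trans (prime_rpow_le_half P hs)

/-- the second order remainder of the logarithm of a local factor -/
theorem norm_log_sub_le (θ : Ideal (𝓞 K) →*₀ ℂ) (hθ : ∀ 𝔞, ‖θ 𝔞‖ ≤ 1) {s : ℝ} (hs : 1 ≤ s)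
    (P : HeightOneSpectrum (𝓞 K)) :
    ‖Complex.log (1 - tw θ s P.asIdeal)⁻¹ - tw θ s P.asIdeal‖ ≤
      (Ideal.absNorm P.asIdeal : ℝ) ^ (-(2 : ℝ)) := by
  set z := tw θ s P.asIdeal with hz
  have hz2 : ‖z‖ ≤ 1 / 2 := norm_tw_prime_le θ hθ hs P
  have hz1 : ‖z‖ < 1 := by linarith
  have h1 := Complex.norm_log_one_sub_inv_sub_self_le hz1
  have h2 : (1 - ‖z‖)⁻¹ ≤ 2 := by
    rw [inv_le_comm₀ (by linarith) (by norm_num)]
    linarith
  have h3 : ‖z‖ ^ 2 * (1 - ‖z‖)⁻¹ / 2 ≤ ‖z‖ ^ 2 := by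
    have := mul_le_mul_of_nonneg_left h2 (sq_nonneg ‖z‖)
    linarith
  have h4 : ‖z‖ ≤ (Ideal.absNorm P.asIdeal : ℝ) ^ (-s) := norm_tw_le θ hθ s _
  have h5 : ‖z‖ ^ 2 ≤ ((Ideal.absNorm P.asIdeal : ℝ) ^ (-s)) ^ 2 :=
    pow_le_pow_left₀ (norm_nonneg _) h4 2
  have h2' := absNorm_prime_two_le P
  have hsq : ((Ideal.absNorm P.asIdeal : ℝ) ^ (-s)) ^ 2 ≤
      (Ideal.absNorm P.asIdeal : ℝ) ^ (-(2 : ℝ)) := by
    rw [← Real.rpow_natCast, ← Real.rpow_mul (by linarith)]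
    exact Real.rpow_le_rpow_of_exponent_le (by linarith) (by push_cast; linarith)
  linarith

theorem summable_tw_prime (θ : Ideal (𝓞 K) →*₀ ℂ) (hθ : ∀ 𝔞, ‖θ 𝔞‖ ≤ 1) {s : ℝ} (hs : 1 < s) :
    Summable (fun P : HeightOneSpectrum (𝓞 K) => tw θ s P.asIdeal) :=
  Summable.of_norm_bounded (summable_prime_rpow hs) (fun P => norm_tw_le θ hθ s _)

theorem summable_log_sub (θ : Ideal (𝓞 K) →*₀ ℂ) (hθ : ∀ 𝔞, ‖θ 𝔞‖ ≤ 1) {s : ℝ} (hs : 1 < s) :
    Summable (fun P : HeightOneSpectrum (𝓞 K) =>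
      Complex.log (1 - tw θ s P.asIdeal)⁻¹ - tw θ s P.asIdeal) :=
  Summable.of_norm_bounded (summable_prime_rpow (K := K) (by norm_num : (1 : ℝ) < 2))
    (fun P => norm_log_sub_le θ hθ hs.le P)

/-- **Logarithm of the Euler product**: `Re ∑_P θ(P) N(P)^(-s) = log ‖L(s, θ)‖ + O(1)`, with an
absolute constant. -/
theorem abs_re_tsum_prime_sub_log_le (θ : Ideal (𝓞 K) →*₀ ℂ) (hθ : ∀ 𝔞, ‖θ 𝔞‖ ≤ 1) {s : ℝ}
    (hs : 1 < s) :
    |(∑' P : HeightOneSpectrum (𝓞 K), tw θ s P.asIdeal).re - Real.log ‖rayL θ s‖| ≤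
      primeSqConst K := by
  set z : HeightOneSpectrum (𝓞 K) → ℂ := fun P => tw θ s P.asIdeal with hz
  set r : HeightOneSpectrum (𝓞 K) → ℂ := fun P => Complex.log (1 - z P)⁻¹ - z P with hr
  have hzs : Summable z := summable_tw_prime θ hθ hs
  have hrs : Summable r := summable_log_sub θ hθ hs
  have hlog : HasSum (fun P => Complex.log (1 - z P)⁻¹) (∑' P, z P + ∑' P, r P) := by
    have := hzs.hasSum.add hrs.hasSum
    refine this.congr_fun (fun P => ?_)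
    simp only [hr]
    ring
  have hprod := hlog.cexp
  have hfac : (Complex.exp ∘ fun P => Complex.log (1 - z P)⁻¹) = fun P => (1 - z P)⁻¹ := by
    funext P
    have hne : (1 - z P)⁻¹ ≠ 0 := by
      apply inv_ne_zero
      intro h0
      have h1 : z P = 1 := (sub_eq_zero.mp h0).symm
      have h2 := norm_tw_prime_le θ hθ hs.le P
      change ‖z P‖ ≤ 1 / 2 at h2
      rw [h1, norm_one] at h2
      norm_num at h2
    exact Complex.exp_log hne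
  rw [hfac] at hprod
  have hL : rayL θ s = Complex.exp (∑' P, z P + ∑' P, r P) :=
    (hasProd_rayL θ hθ hs).unique hprod
  have hnorm : Real.log ‖rayL θ s‖ = (∑' P, z P).re + (∑' P, r P).re := by
    rw [hL, Complex.norm_exp, Real.log_exp, Complex.add_re]
  have hrb : |(∑' P, r P).re| ≤ primeSqConst K := by
    calc |(∑' P, r P).re| ≤ ‖∑' P, r P‖ := Complex.abs_re_le_norm _
      _ ≤ ∑' P, ‖r P‖ := norm_tsum_le_tsum_norm hrs.norm
      _ ≤ ∑' P : HeightOneSpectrum (𝓞 K), (Ideal.absNorm P.asIdeal : ℝ) ^ (-(2 : ℝ)) :=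
          hrs.norm.tsum_le_tsum (fun P => norm_log_sub_le θ hθ hs.le P)
            (summable_prime_rpow (K := K) (by norm_num : (1 : ℝ) < 2))
      _ ≤ primeSqConst K := by
          unfold primeSqConst
          have h0 : 0 ≤ ∑' P : HeightOneSpectrum (𝓞 K),
              (Ideal.absNorm P.asIdeal : ℝ) ^ (-(2 : ℝ)) :=
            tsum_nonneg fun _ => Real.rpow_nonneg (Nat.cast_nonneg _) _
          linarith
  rw [hnorm]
  have : (∑' P, z P).re - ((∑' P, z P).re + (∑' P, r P).re) = -(∑' P, r P).re := by ring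
  rw [this, abs_neg]
  exact hrb

end Fermat.Agent.DS.Cheb.EulerLog20
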