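/-
Programme DS (S48), brick B3-B (helper20), part 4: the symmetric density theorem in
`Ω = E(ζ_m)` (`m` prime), i.e. `Cross51Defs.C2SymStatement`.

For a character `ψ` of `Gal(Ω/E)` trivial on `pmSubgroup E ζ` we build the even Dirichlet
character `χ` with `χ ∘ autToPow = ψ` and the function `θ = normChar E χ` on ideals;
`θ 𝔭 = ψ (frobOf 𝔭)` at the good primes (`normChar_eq_frobOf`), `θ` satisfies the hypotheses of
`RayLBound.rayL_bounded`, so `Re ∑_{𝔭 good} ψ(Frob 𝔭) N𝔭^(-s)` is bounded above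
(`exists_re_bound`).  The abstract argument `CharSum20.coset_lower_subgroup` and
`ChebDensity23.key_bound` give `c2Sym`.
-/
import Mathlib
import Fermat.Agent.DS.Cheb.CycloChar20
import Fermat.Agent.DS.Cheb.EulerLog20
import Fermat.Agent.DS.Cheb.CharSum20
import Fermat.Agent.DS.Cheb.Cross51Defs
import Fermat.Agent.CFT.CycloArtin

set_option autoImplicit false
set_option linter.unusedSectionVars false
set_option linter.unusedVariables false
set_option linter.style.haveILetI false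

open IsDedekindDomain Ideal NumberField
open Fermat.Agent.CFT.SplitPrimes Fermat.Agent.CFT.NotAllSplit Fermat.Agent.CFT.ArtinSymbol
  Fermat.Agent.ES.GAL.ChebAbstract23 Fermat.Agent.ES.GAL.ChebDensity23
  Fermat.Agent.PT.GLOB.FrobGenerate19
  Fermat.Agent.DS.Cheb.Cross51Defs Fermat.Agent.DS.Cheb.CycloChar20
  Fermat.Agent.DS.Cheb.EulerLog20 Fermat.Agent.DS.Cheb.CharSum20 Fermat.Agent.DS.Cheb.RayLBound

namespace Fermat.Agent.DS.Cheb.CycloSym20

section Coprime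

variable {K : Type*} [Field K] [NumberField K]

/-- A prime ideal of prime norm different from `m` is prime to `m`. -/
theorem isCoprime_span_of_absNorm_prime {m : ℕ} (hm : m.Prime) (q : Ideal (𝓞 K))
    (hq : (absNorm q).Prime) (hne : absNorm q ≠ m) :
    IsCoprime q (Ideal.span {(m : 𝓞 K)}) := by
  have hcop : IsCoprime ((absNorm q : ℕ) : ℤ) ((m : ℕ) : ℤ) :=
    Nat.isCoprime_iff_coprime.mpr ((Nat.coprime_primes hq hm).mpr hne)
  obtain ⟨a, b, hab⟩ := hcop
  rw [Ideal.isCoprime_iff_exists]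
  refine ⟨(a : 𝓞 K) * ((absNorm q : ℕ) : 𝓞 K), Ideal.mul_mem_left _ _ (Ideal.absNorm_mem q),
    (b : 𝓞 K) * (m : 𝓞 K), Ideal.mem_span_singleton'.mpr ⟨_, rfl⟩, ?_⟩
  have := congrArg (Int.cast : ℤ → 𝓞 K) hab
  push_cast at this
  exact this

end Coprime

section Main

variable {E Ω : Type} [Field E] [Field Ω] [NumberField E] [NumberField Ω] [Algebra E Ω]
  [IsGalois E Ω] [IsMulCommutative (Ω ≃ₐ[E] Ω)] {m : ℕ} [Fact m.Prime] {ζ : Ω}

/-- membership in the `±` subgroup in terms of the cyclotomic character -/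
theorem mem_pmSubgroup_of_autToPow (hζ : IsPrimitiveRoot ζ m) (h : Ω ≃ₐ[E] Ω)
    (hh : hζ.autToPow E h = 1 ∨ hζ.autToPow E h = -1) : h ∈ pmSubgroup E ζ := by
  have hm : m.Prime := Fact.out
  have hspec := hζ.autToPow_spec E h
  rcases hh with hh | hh
  · left
    rw [hh, Units.val_one, ZMod.val_one, pow_one] at hspec
    exact hspec.symm
  · right
    rw [hh] at hspec
    have h0 : ζ ^ (((-1 : (ZMod m)ˣ) : ZMod m).val + 1) = 1 := by
      have hdvd : m ∣ ((-1 : (ZMod m)ˣ) : ZMod m).val + 1 := by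
        rw [← ZMod.natCast_eq_zero_iff]
        push_cast
        rw [ZMod.natCast_zmod_val]
        simp
      obtain ⟨k, hk⟩ := hdvd
      rw [hk, pow_mul, hζ.pow_eq_one, one_pow]
    rw [pow_succ] at h0
    rw [← hspec]
    exact eq_inv_of_mul_eq_one_left h0

/-- **Link**: at a prime of prime norm `≠ m`, the even character of the norm is `ψ (Frob)`. -/
theorem normChar_eq_frobOf (hζ : IsPrimitiveRoot ζ m) (χ : (ZMod m)ˣ →* ℂˣ)
    (ψ : (Ω ≃ₐ[E] Ω) →* ℂˣ) (hχψ : ∀ h, χ (hζ.autToPow E h) = ψ h) (q : Ideal (𝓞 E))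
    (hq : q.IsPrime) (hqn : (absNorm q).Prime) (hne : absNorm q ≠ m) :
    normChar E χ q = ((ψ (frobOf E Ω q) : ℂˣ) : ℂ) := by
  have hm : m.Prime := Fact.out
  have hq0 : q ≠ ⊥ := by
    rintro rfl
    rw [Ideal.absNorm_bot] at hqn
    exact Nat.not_prime_zero hqn
  obtain ⟨P, hP, hPq⟩ := exists_prime_over E Ω q
  haveI := hq
  haveI := hP
  haveI : P.LiesOver q := ⟨hPq.symm⟩
  have hc := isCoprime_span_of_absNorm_prime hm q hqn hne
  have H := isArithFrobAt_frobOf hq hq0 P hPq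
  have h := Fermat.Agent.CFT.CycloArtin.autToPow_of_isArithFrobAt' hζ hc H
  rw [normChar_apply, ← h, MulChar.ofUnitHom_coe, hχψ]

/-- a nontrivial `ψ` gives a nontrivial `θ` -/
theorem exists_normChar_ne_one (hζ : IsPrimitiveRoot ζ m) (χ : (ZMod m)ˣ →* ℂˣ)
    (ψ : (Ω ≃ₐ[E] Ω) →* ℂˣ) (hχψ : ∀ h, χ (hζ.autToPow E h) = ψ h) (hψ : ψ ≠ 1) :
    ∃ 𝔟 : Ideal (𝓞 E), 𝔟 ≠ ⊥ ∧ 𝔟 ⊔ Ideal.span {(m : 𝓞 E)} = ⊤ ∧ normChar E χ 𝔟 ≠ 1 := by
  have hm : m.Prime := Fact.out
  have hcl := closure_frobSet_eq_top E Ω (fun σ τ => mul_comm' σ τ) m hm.ne_zero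
  have hex : ∃ σ ∈ frobSet E Ω m, ψ σ ≠ 1 := by
    by_contra hcon
    have hall : ∀ σ ∈ frobSet E Ω m, ψ σ = 1 := fun σ hσ => by
      by_contra h
      exact hcon ⟨σ, hσ, h⟩
    apply hψ
    have hle : Subgroup.closure (frobSet E Ω m) ≤ ψ.ker :=
      (Subgroup.closure_le _).mpr (fun σ hσ => MonoidHom.mem_ker.mpr (hall σ hσ))
    rw [hcl] at hle
    refine MonoidHom.ext fun σ => ?_
    have := hle (Subgroup.mem_top σ)
    rw [MonoidHom.mem_ker] at this
    rw [this, MonoidHom.one_apply]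
  obtain ⟨σ, ⟨q, P, hq, hqn, hqm, hP, hPq, hin, hσ⟩, hψσ⟩ := hex
  have hq0 : q ≠ ⊥ := by
    rintro rfl
    rw [Ideal.absNorm_bot] at hqn
    exact Nat.not_prime_zero hqn
  have hne : absNorm q ≠ m := fun h => hqm (h ▸ dvd_refl _)
  haveI := hP
  have hσq : σ = frobOf E Ω q := eq_frobOf_of_isArithFrobAt hq hq0 hPq hin hσ
  refine ⟨q, hq0, ?_, ?_⟩
  · exact Ideal.isCoprime_iff_sup_eq.mp (isCoprime_span_of_absNorm_prime hm q hqn hne)
  · rw [normChar_eq_frobOf hζ χ ψ hχψ q hq hqn hne, ← hσq]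
    intro h
    apply hψσ
    exact Units.ext h

omit [IsGalois E Ω] [IsMulCommutative (Ω ≃ₐ[E] Ω)] [Fact m.Prime] in
/-- the primes which are not good carry a bounded part of the prime zeta function -/
theorem wsum_compl_good_le (M : ℕ) (hM : M ≠ 0) {s : ℝ} (hs : 1 < s) :
    wsum (xP E s) (good E Ω M)ᶜ ≤
      Module.finrank ℚ E * primeZeta ℚ 2 + (smallPrimes E (M * (discr Ω).natAbs)).ncard := by
  have hdL : (discr Ω).natAbs ≠ 0 := Int.natAbs_ne_zero.mpr (discr_ne_zero Ω)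
  have hm' : M * (discr Ω).natAbs ≠ 0 := Nat.mul_ne_zero hM hdL
  have := primeZeta_le_goodPrimes E hm' hs
  rw [primeIdealZetaSum_eq_wsum, primeZeta_eq_wsum_add E (good E Ω M) hs] at this
  linarith

/-- **Upper bound** for the real part of the prime sum twisted by a nontrivial character which is
trivial on the `±` subgroup. -/
theorem exists_re_bound (hζ : IsPrimitiveRoot ζ m) (M : ℕ) (hM : M ≠ 0) (hmM : m ∣ M)
    (ψ : (Ω ≃ₐ[E] Ω) →* ℂˣ) (hψ : ψ ≠ 1) (hJ : pmSubgroup E ζ ≤ ψ.ker) :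
    ∃ b : ℝ, ∀ s ∈ Set.Ioc (1 : ℝ) 2,
      ∑' p : HeightOneSpectrum (𝓞 E), (good E Ω M).indicator
        (fun p => ((ψ (frobOf E Ω p.asIdeal) : ℂˣ) : ℂ).re * xP E s p) p ≤ b := by
  classical
  have hm : m.Prime := Fact.out
  obtain ⟨χ, hχ1, hχψ⟩ := exists_even_extension (hζ.autToPow E) (-1) (by simp) ψ
    (fun h hh => MonoidHom.mem_ker.mp (hJ (mem_pmSubgroup_of_autToPow hζ h hh)))
  set θ : Ideal (𝓞 E) →*₀ ℂ := normChar E χ with hθdef
  have hθ : ∀ 𝔞, ‖θ 𝔞‖ ≤ 1 := norm_normChar_le χ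
  have hm0 : Ideal.span {(m : 𝓞 E)} ≠ ⊥ := by
    rw [Ne, Ideal.span_singleton_eq_bot]
    exact_mod_cast hm.ne_zero
  obtain ⟨BL, hBL⟩ := rayL_bounded θ hθ (Ideal.span {(m : 𝓞 E)}) hm0
    (norm_normChar_eq_one χ) (normChar_periodic χ hχ1)
    (exists_normChar_ne_one hζ χ ψ hχψ hψ)
  set C : ℝ := Module.finrank ℚ E * primeZeta ℚ 2 +
    (smallPrimes E (M * (discr Ω).natAbs)).ncard with hC
  refine ⟨BL + Fermat.Agent.CFT.PrimeZetaLog.primeSqConst E + C, fun s hs => ?_⟩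
  set S : Set (HeightOneSpectrum (𝓞 E)) := good E Ω M with hS
  set f : HeightOneSpectrum (𝓞 E) → ℝ := fun p => (tw θ s p.asIdeal).re with hf
  have hterm : ∀ p ∈ S, ((ψ (frobOf E Ω p.asIdeal) : ℂˣ) : ℂ).re * xP E s p = f p := by
    intro p hp
    have hne : absNorm p.asIdeal ≠ m := fun h => hp.2 (h ▸ (hmM.mul_right _))
    simp only [hf]
    rw [tw_apply, hθdef, normChar_eq_frobOf hζ χ ψ hχψ p.asIdeal p.isPrime hp.1 hne, nrm,
      Complex.re_mul_ofReal]
    rfl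
  have hcongr : (∑' p : HeightOneSpectrum (𝓞 E), S.indicator
      (fun p => ((ψ (frobOf E Ω p.asIdeal) : ℂˣ) : ℂ).re * xP E s p) p) =
      ∑' p, S.indicator f p := by
    refine tsum_congr (fun p => ?_)
    by_cases hp : p ∈ S
    · rw [Set.indicator_of_mem hp, Set.indicator_of_mem hp, hterm p hp]
    · rw [Set.indicator_of_notMem hp, Set.indicator_of_notMem hp]
  rw [hcongr]
  have htw : Summable (fun p : HeightOneSpectrum (𝓞 E) => tw θ s p.asIdeal) :=
    summable_tw_prime θ hθ hs.1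
  have hfs : Summable f := (Complex.hasSum_re htw.hasSum).summable
  have hfabs : ∀ p, |f p| ≤ xP E s p := by
    intro p
    calc |f p| ≤ ‖tw θ s p.asIdeal‖ := Complex.abs_re_le_norm _
      _ ≤ (absNorm p.asIdeal : ℝ) ^ (-s) := norm_tw_le θ hθ s _
  have hsplit : ∑' p, f p = ∑' p, S.indicator f p + ∑' p, Sᶜ.indicator f p := by
    rw [← (hfs.indicator S).tsum_add (hfs.indicator Sᶜ)]
    refine tsum_congr (fun p => ?_)
    exact (congrFun (Set.indicator_self_add_compl S f) p).symm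
  have hcompl : -(∑' p, Sᶜ.indicator f p) ≤ C := by
    have h1 : -(∑' p, Sᶜ.indicator f p) ≤ wsum (xP E s) Sᶜ := by
      unfold wsum
      rw [← tsum_neg]
      refine Summable.tsum_le_tsum (fun p => ?_) (hfs.indicator Sᶜ).neg
        ((summable_xP E hs.1).indicator Sᶜ)
      by_cases hp : p ∈ Sᶜ
      · rw [Set.indicator_of_mem hp, Set.indicator_of_mem hp]
        have := (abs_le.mp (hfabs p)).1
        linarith
      · rw [Set.indicator_of_notMem hp, Set.indicator_of_notMem hp, neg_zero]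
    exact h1.trans (wsum_compl_good_le M hM hs.1)
  have hre : ∑' p, f p = (∑' p : HeightOneSpectrum (𝓞 E), tw θ s p.asIdeal).re :=
    (Complex.re_tsum htw).symm
  have hlog := (abs_le.mp (abs_re_tsum_prime_sub_log_le θ hθ hs.1)).2
  have hlogle : Real.log ‖rayL θ s‖ ≤ BL :=
    (Real.log_le_self (norm_nonneg _)).trans (hBL s hs)
  linarith

end Main

open scoped IsMulCommutative in
/-- **Brick B3-B**: the symmetric density statement in `E(ζ_m)/E`. -/
theorem c2Sym : C2SymStatement := by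
  intro E Ω _ _ _ _ _ _ _ m hm ζ hζ hfaith M hM g
  haveI : Fact m.Prime := ⟨hm⟩
  have hM' : M * m ≠ 0 := Nat.mul_ne_zero hM hm.ne_zero
  letI : CommGroup (Ω ≃ₐ[E] Ω) := inferInstance
  have h2 : ∃ c, ∀ s ∈ Set.Ioc (1 : ℝ) 2,
      |wsum (xP E s) (good E Ω (M * m)) - Real.log (1 / (s - 1))| ≤ c := by
    obtain ⟨c, hc⟩ := key_bound E Ω (M * m) hM' ⊤
    refine ⟨c, fun s hs => ?_⟩
    have := hc s hs
    have hset : frobIn E Ω (M * m) ⊤ = good E Ω (M * m) := by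
      ext p
      simp [frobIn]
    rw [Subgroup.index_top, Nat.cast_one, one_mul, hset] at this
    exact this
  obtain ⟨B, hB⟩ := coset_lower_subgroup (pmSubgroup E ζ) (fun s => xP E s) (Set.Ioc (1 : ℝ) 2)
    (fun s => Real.log (1 / (s - 1))) (fun s _ p => (xP_pos E s p).le)
    (fun s hs => summable_xP E hs.1)
    (fun p : HeightOneSpectrum (𝓞 E) => frobOf E Ω p.asIdeal) (good E Ω (M * m))
    (key_bound E Ω (M * m) hM' (pmSubgroup E ζ)) h2
    (fun ψ hψ hJ => exists_re_bound hζ (M * m) hM' (dvd_mul_left m M) ψ hψ hJ) g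
  refine ⟨B, fun s hs => (hB s hs).trans ?_⟩
  have hx0 : ∀ p, 0 ≤ xP E s p := fun p => (xP_pos E s p).le
  have hsum : Summable (xP E s) := summable_xP E hs.1
  have hsub : good E Ω (M * m) ⊆ good E Ω M := by
    intro p hp
    refine ⟨hp.1, fun hd => hp.2 (hd.trans ⟨m, by ring⟩)⟩
  refine mul_le_mul_of_nonneg_left (add_le_add (wsum_mono hx0 hsum ?_) (wsum_mono hx0 hsum ?_))
    (Nat.cast_nonneg _)
  · intro p hp
    exact ⟨hsub hp.1, hp.2⟩
  · intro p hp
    exact ⟨hsub hp.1, hp.2⟩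


end Fermat.Agent.DS.Cheb.CycloSym20
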