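/-
Programme DS (S48), brick B3-E (helper7): primes of `𝓞 ℚ` versus prime numbers.

* `absNorm_injective` : `v ↦ absNorm v` is injective on `HeightOneSpectrum (𝓞 ℚ)`;
* `normSet T` : the set of absolute norms of the primes in `T`;
* `wsum_eq_primeSum` : `wsum (xP ℚ s) T = Iface.primeSum (normSet T) s`.
-/
import Mathlib
import Fermat.Agent.CFT.NotAllSplit
import Fermat.Agent.ES.GAL.ChebAbstract23
import Fermat.Agent.DS.Iface

set_option autoImplicit false
set_option linter.unusedSectionVars false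
set_option linter.style.longLine false

open IsDedekindDomain Ideal NumberField
open Fermat.Agent.CFT.SplitPrimes Fermat.Agent.CFT.NotAllSplit
  Fermat.Agent.ES.GAL.ChebAbstract23

namespace Fermat.Agent.DS.Cheb.Reduce7Rat

/-- The absolute norm of a prime of `𝓞 ℚ` is its natural generator. -/
theorem absNorm_eq_natGenerator (v : HeightOneSpectrum (𝓞 ℚ)) :
    absNorm v.asIdeal = Rat.HeightOneSpectrum.natGenerator v := by
  have hp : (absNorm v.asIdeal).Prime := absNorm_prime_of_rat v
  have hmem : ((absNorm v.asIdeal : ℕ) : 𝓞 ℚ) ∈ v.asIdeal := Ideal.absNorm_mem _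
  have hdvd : Rat.HeightOneSpectrum.natGenerator v ∣ absNorm v.asIdeal := by
    rw [Rat.HeightOneSpectrum.natGenerator_dvd_iff]
    have := Ideal.mem_map_of_mem (Rat.IsIntegralClosure.intEquiv (𝓞 ℚ)) hmem
    rwa [map_natCast] at this
  exact ((Nat.prime_dvd_prime_iff_eq (Rat.HeightOneSpectrum.prime_natGenerator v) hp).mp
    hdvd).symm

/-- A prime of `𝓞 ℚ` is determined by its absolute norm. -/
theorem absNorm_injective :
    Function.Injective (fun v : HeightOneSpectrum (𝓞 ℚ) => absNorm v.asIdeal) := by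
  intro v w h
  apply Rat.HeightOneSpectrum.primesEquiv.injective
  apply Subtype.ext
  change Rat.HeightOneSpectrum.natGenerator v = Rat.HeightOneSpectrum.natGenerator w
  rw [← absNorm_eq_natGenerator, ← absNorm_eq_natGenerator]
  exact h

/-- Every prime number is the absolute norm of a prime of `𝓞 ℚ`. -/
theorem exists_absNorm_eq {p : ℕ} (hp : p.Prime) :
    ∃ v : HeightOneSpectrum (𝓞 ℚ), absNorm v.asIdeal = p := by
  refine ⟨Rat.HeightOneSpectrum.primesEquiv.symm ⟨p, hp⟩, ?_⟩
  rw [absNorm_eq_natGenerator]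
  have := (Rat.HeightOneSpectrum.primesEquiv (R := 𝓞 ℚ)).apply_symm_apply ⟨p, hp⟩
  exact congrArg Subtype.val this

/-- The set of absolute norms of a set of primes of `𝓞 ℚ`. -/
def normSet (T : Set (HeightOneSpectrum (𝓞 ℚ))) : Set ℕ :=
  (fun v : HeightOneSpectrum (𝓞 ℚ) => absNorm v.asIdeal) '' T

theorem absNorm_mem_normSet_iff {T : Set (HeightOneSpectrum (𝓞 ℚ))}
    (v : HeightOneSpectrum (𝓞 ℚ)) : absNorm v.asIdeal ∈ normSet T ↔ v ∈ T :=
  absNorm_injective.mem_set_image

/-- The prime zeta sum over a set of primes of `𝓞 ℚ` is the prime sum of its set of norms. -/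
theorem wsum_eq_primeSum (T : Set (HeightOneSpectrum (𝓞 ℚ))) (s : ℝ) :
    wsum (xP ℚ s) T = Fermat.Agent.DS.Iface.primeSum (normSet T) s := by
  classical
  unfold wsum Fermat.Agent.DS.Iface.primeSum
  rw [← absNorm_injective.tsum_eq]
  · refine tsum_congr fun v => ?_
    by_cases hv : v ∈ T
    · rw [Set.indicator_of_mem hv, Set.indicator_of_mem]
      · rfl
      · exact ⟨absNorm_prime_of_rat v, (absNorm_mem_normSet_iff v).mpr hv⟩
    · rw [Set.indicator_of_notMem hv, Set.indicator_of_notMem]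
      exact fun h => hv ((absNorm_mem_normSet_iff v).mp h.2)
  · intro n hn
    have hmem : n ∈ {p : ℕ | p.Prime ∧ p ∈ normSet T} := by
      by_contra h
      exact hn (Set.indicator_of_notMem h _)
    obtain ⟨v, -, hv⟩ := hmem.2
    exact ⟨v, hv⟩

/-- Monotonicity of `primeSum` in the set (for `s > 1`). -/
theorem primeSum_mono {X Y : Set ℕ} (h : X ⊆ Y) {s : ℝ} (hs : 1 < s) :
    Fermat.Agent.DS.Iface.primeSum X s ≤ Fermat.Agent.DS.Iface.primeSum Y s := by
  unfold Fermat.Agent.DS.Iface.primeSum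
  have hsum : Summable (fun n : ℕ => (n : ℝ) ^ (-s)) := by
    have := Real.summable_nat_rpow_inv.mpr hs
    refine this.congr fun n => ?_
    rw [Real.rpow_neg (Nat.cast_nonneg n)]
  have hnn : ∀ n : ℕ, 0 ≤ (n : ℝ) ^ (-s) := fun n => Real.rpow_nonneg (Nat.cast_nonneg n) _
  refine Summable.tsum_le_tsum (fun n => ?_) (hsum.indicator _) (hsum.indicator _)
  have hsub : {p : ℕ | p.Prime ∧ p ∈ X} ⊆ {p : ℕ | p.Prime ∧ p ∈ Y} := fun p hp => ⟨hp.1, h hp.2⟩
  exact Set.indicator_le_indicator_of_subset hsub hnn n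

end Fermat.Agent.DS.Cheb.Reduce7Rat
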