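/-
Programme DS (S48), brick B3-E (helper7): bridge from the number field form of the symmetric
Chebotarev density theorem to the `ℚ̄` / `ValuationSubring` / `IsFrobeniusAt` vocabulary.

* `levelHom ρ N hρ : Gal(N/ℚ) →* G` : the factorisation of `ρ : G_ℚ →* G` through a finite Galois
  level `N ⊂ ℚ̄` on whose fixing subgroup `ρ` is trivial;
* `normSet_subset` : the set-level inclusion
  `{N q | q good for N, all Frobenius elements over q in the conjugation closure of ρ̄⁻¹ S}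
     ⊆ {p | ∃ A σ, A.LiesOverPrime p ∧ A.IsFrobeniusAt σ p ∧ ρ σ ∈ S}`;
* `lowerDensityGE_of_abelianSym` : `AbelianSymStatement` implies the consumer statement
  (`Iface.ChebotarevLower` for subsets stable under inversion).
-/
import Mathlib
import Fermat.Agent.DS.Cheb.Reduce7Transfer
import Fermat.Agent.DS.Cheb.Reduce7Rat
import Fermat.Agent.ES.GAL.ChebQbar23

set_option autoImplicit false
set_option linter.unusedSectionVars false
set_option linter.style.longLine false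
set_option linter.style.haveILetI false

open IsDedekindDomain Ideal NumberField Filter Topology
open scoped Pointwise
open Fermat.Agent.Lib.FrobeniusExists
open Fermat.Agent.CFT.SplitPrimes Fermat.Agent.CFT.NotAllSplit Fermat.Agent.CFT.ArtinSymbol
  Fermat.Agent.ES.GAL.ChebAbstract23 Fermat.Agent.ES.GAL.ChebQbar23
  Fermat.Agent.DS.Cheb.Reduce7Decomp Fermat.Agent.DS.Cheb.Reduce7Fixed
  Fermat.Agent.DS.Cheb.Reduce7Count Fermat.Agent.DS.Cheb.Reduce7Transfer
  Fermat.Agent.DS.Cheb.Reduce7Rat Fermat.Agent.DS.Iface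

namespace Fermat.Agent.DS.Cheb.Reduce7Qbar

attribute [local instance] isGalois_Qbar isIntegral_Qbar

/-! ### Density bookkeeping -/

/-- From an `ε`-form lower bound on `(1, 2]` to `LowerDensityGE`. -/
theorem lowerDensityGE_of_forall_eps {X : Set ℕ} {η c κ : ℝ} (hc : 0 < c) (W : ℝ → ℝ)
    (hW : ∀ s ∈ Set.Ioc (1 : ℝ) 2, W s ≤ primeSum X s) (hκ : η ≤ κ / c)
    (h : ∀ ε : ℝ, 0 < ε → ∃ B : ℝ, ∀ s ∈ Set.Ioc (1 : ℝ) 2,
      κ * Real.log (1 / (s - 1)) - (ε * Real.log (1 / (s - 1)) + B) ≤ c * W s) :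
    LowerDensityGE X η := by
  intro δ hδ
  obtain ⟨B, hB⟩ := h (δ * c / 2) (by positivity)
  -- eventually `log (1/(s-1)) ≥ M` with `M := 2 |B| / (δ c)`
  set M : ℝ := 2 * |B| / (δ * c) with hM
  have hlt : (1 : ℝ) < min 2 (1 + Real.exp (-M)) :=
    lt_min one_lt_two (by linarith [Real.exp_pos (-M)])
  filter_upwards [Ioo_mem_nhdsGT hlt] with s hs
  have hs1 : 1 < s := hs.1
  have hs2 : s ≤ 2 := (hs.2.trans_le (min_le_left _ _)).le
  have hs3 : s - 1 < Real.exp (-M) := by linarith [hs.2.trans_le (min_le_right _ _)]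
  have hpos : 0 < s - 1 := by linarith
  set ℓ : ℝ := Real.log (1 / (s - 1)) with hℓ
  have hℓM : M ≤ ℓ := by
    rw [hℓ, one_div, Real.log_inv]
    have := Real.log_lt_log hpos hs3
    rw [Real.log_exp] at this
    linarith
  have hM0 : 0 ≤ M := by positivity
  have hℓ0 : 0 ≤ ℓ := hM0.trans hℓM
  have h1 := hB s ⟨hs1, hs2⟩
  have h2 := hW s ⟨hs1, hs2⟩
  -- `|B| ≤ (δ c / 2) ℓ`
  have hBℓ : |B| ≤ δ * c / 2 * ℓ := by
    have : |B| = δ * c / 2 * M := by
      rw [hM]; field_simp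
    rw [this]
    exact mul_le_mul_of_nonneg_left hℓM (by positivity)
  have h3 : κ * ℓ - δ * c * ℓ ≤ c * W s := by
    have := le_abs_self B
    nlinarith
  have h4 : (κ / c - δ) * ℓ ≤ W s := by
    have : (κ / c - δ) * ℓ = (κ * ℓ - δ * c * ℓ) / c := by field_simp
    rw [this, div_le_iff₀ hc]
    linarith
  calc (η - δ) * ℓ ≤ (κ / c - δ) * ℓ := mul_le_mul_of_nonneg_right (by linarith) hℓ0
    _ ≤ W s := h4
    _ ≤ primeSum X s := h2

/-! ### Factoring through a finite Galois level -/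

section Level

variable {G : Type} [Group G] (ρ : GQ →* G) (N : IntermediateField ℚ Qbar) [IsGalois ℚ N]

theorem ker_restrictNormalHom_le (hρ : ∀ σ : GQ, (∀ x ∈ N, σ x = x) → ρ σ = 1) :
    (AlgEquiv.restrictNormalHom (F := ℚ) (K₁ := Qbar) N).ker ≤ ρ.ker := by
  intro σ hσ
  rw [MonoidHom.mem_ker] at hσ ⊢
  apply hρ
  intro x hx
  have h1 : algebraMap N Qbar ((AlgEquiv.restrictNormalHom N σ) ⟨x, hx⟩) =
      σ (algebraMap N Qbar ⟨x, hx⟩) := AlgEquiv.restrictNormal_commutes σ N ⟨x, hx⟩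
  rw [hσ] at h1
  exact h1.symm

/-- The factorisation of `ρ` through `Gal(N/ℚ)`. -/
noncomputable def levelHom (hρ : ∀ σ : GQ, (∀ x ∈ N, σ x = x) → ρ σ = 1) : (N ≃ₐ[ℚ] N) →* G :=
  (AlgEquiv.restrictNormalHom (F := ℚ) (K₁ := Qbar) N).liftOfSurjective
    (AlgEquiv.restrictNormalHom_surjective Qbar) ⟨ρ, ker_restrictNormalHom_le ρ N hρ⟩

theorem levelHom_restrict (hρ : ∀ σ : GQ, (∀ x ∈ N, σ x = x) → ρ σ = 1) (σ : GQ) :
    levelHom ρ N hρ (AlgEquiv.restrictNormalHom N σ) = ρ σ :=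
  MonoidHom.liftOfRightInverse_comp_apply _ _ _ _ σ

theorem levelHom_surjective (hρ : ∀ σ : GQ, (∀ x ∈ N, σ x = x) → ρ σ = 1)
    (hsurj : Function.Surjective ρ) : Function.Surjective (levelHom ρ N hρ) := by
  intro g
  obtain ⟨σ, rfl⟩ := hsurj g
  exact ⟨_, levelHom_restrict ρ N hρ σ⟩

end Level

/-! ### Cardinality of preimages under a surjective homomorphism -/

theorem card_preimage_mul_card {A B : Type*} [Group A] [Group B] [Finite A] (f : A →* B)
    (hf : Function.Surjective f) (S : Set B) :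
    Nat.card (f ⁻¹' S) * Nat.card B = Nat.card S * Nat.card A := by
  set e := QuotientGroup.quotientKerEquivOfSurjective f hf with he
  have h1 : f ⁻¹' S = (QuotientGroup.mk : A → A ⧸ f.ker) ⁻¹' (e ⁻¹' S) := by
    ext a
    simp only [Set.mem_preimage]
    rfl
  have h2 : Nat.card (e ⁻¹' S) = Nat.card S :=
    Nat.card_preimage_of_injective e.injective (fun b _ => e.surjective b)
  have h3 : Nat.card A = Nat.card (A ⧸ f.ker) * Nat.card f.ker :=
    Subgroup.card_eq_card_quotient_mul_card_subgroup f.ker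
  have h4 : Nat.card (A ⧸ f.ker) = Nat.card B := Nat.card_congr e.toEquiv
  rw [h1, QuotientGroup.card_preimage_mk, h2, h3, h4]
  ring

/-! ### The set-level bridge -/

section Bridge

variable {G : Type} [Group G] (ρ : GQ →* G) (N : IntermediateField ℚ Qbar)
  [FiniteDimensional ℚ N] [IsGalois ℚ N]

/-- The elements of `Gal(N/ℚ)` having a conjugate whose image under `ρ̄` lies in `S`. -/
def liftSet (hρ : ∀ σ : GQ, (∀ x ∈ N, σ x = x) → ρ σ = 1) (S : Set G) : Set (N ≃ₐ[ℚ] N) :=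
  {τ | ∃ g : N ≃ₐ[ℚ] N, levelHom ρ N hρ (g * τ * g⁻¹) ∈ S}

variable (hρ : ∀ σ : GQ, (∀ x ∈ N, σ x = x) → ρ σ = 1) (S : Set G)

theorem liftSet_conj (g τ : N ≃ₐ[ℚ] N) (hτ : τ ∈ liftSet ρ N hρ S) :
    g * τ * g⁻¹ ∈ liftSet ρ N hρ S := by
  obtain ⟨h, hh⟩ := hτ
  refine ⟨h * g⁻¹, ?_⟩
  have : h * g⁻¹ * (g * τ * g⁻¹) * (h * g⁻¹)⁻¹ = h * τ * h⁻¹ := by group
  rw [this]
  exact hh

theorem liftSet_inv (hinv : ∀ s ∈ S, s⁻¹ ∈ S) (τ : N ≃ₐ[ℚ] N) (hτ : τ ∈ liftSet ρ N hρ S) :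
    τ⁻¹ ∈ liftSet ρ N hρ S := by
  obtain ⟨h, hh⟩ := hτ
  refine ⟨h, ?_⟩
  have : h * τ⁻¹ * h⁻¹ = (h * τ * h⁻¹)⁻¹ := by group
  rw [this, map_inv]
  exact hinv _ hh

theorem preimage_subset_liftSet : levelHom ρ N hρ ⁻¹' S ⊆ liftSet ρ N hρ S := by
  intro τ hτ
  refine ⟨1, ?_⟩
  rw [one_mul, inv_one, mul_one]
  exact hτ

theorem card_mul_le [Finite G] (hsurj : Function.Surjective ρ) :
    Nat.card S * Nat.card (N ≃ₐ[ℚ] N) ≤ Nat.card (liftSet ρ N hρ S) * Nat.card G := by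
  rw [← card_preimage_mul_card (levelHom ρ N hρ) (levelHom_surjective ρ N hρ hsurj) S]
  exact Nat.mul_le_mul_right _ (Nat.card_mono (Set.toFinite _) (preimage_subset_liftSet ρ N hρ S))

/-- **Set-level bridge.**  If all Frobenius elements over the good prime `q` of `ℚ` lie in
`liftSet S`, then the rational prime `N q` has a Frobenius element `σ ∈ G_ℚ` (at some valuation
subring of `ℚ̄`) with `ρ σ ∈ S`. -/
theorem normSet_subset (m : ℕ) :
    haveI : NumberField N := ⟨⟩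
    normSet (frobAllIn ℚ N m (liftSet ρ N hρ S)) ⊆
      {p : ℕ | ∃ (A : ValuationSubring Qbar) (σ : GQ),
        A.LiesOverPrime p ∧ A.IsFrobeniusAt σ p ∧ ρ σ ∈ S} := by
  haveI : NumberField N := ⟨⟩
  rintro p ⟨q, ⟨hqg, hall⟩, rfl⟩
  have hqn : (absNorm q.asIdeal).Prime := hqg.1
  -- a prime of `N` over `q` and its Frobenius
  obtain ⟨P₀, hP₀, hP₀q⟩ := exists_prime_over ℚ N q.asIdeal
  haveI := hP₀
  have hP₀0 : P₀ ≠ ⊥ := ne_bot_of_good (K := ℚ) (by rw [hP₀q]; exact hqn)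
  obtain ⟨τ₀, hτ₀⟩ := exists_isArithFrobAt (K := ℚ) P₀ hP₀0
  -- move to a conjugate prime where the image lies in `S`
  obtain ⟨g, hg⟩ := hall P₀ τ₀ hP₀ hP₀q hτ₀
  set P : Ideal (𝓞 N) := g • P₀ with hP
  have hPprime : P.IsPrime := by rw [hP]; infer_instance
  have hPq : P.under (𝓞 ℚ) = q.asIdeal := by rw [hP, under_smul, hP₀q]
  have hτ : IsArithFrobAt (𝓞 ℚ) (g * τ₀ * g⁻¹) P := hτ₀.conj g
  have hP0 : P ≠ ⊥ := ne_bot_of_good (K := ℚ) (by rw [hPq]; exact hqn)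
  have hPmax : P.IsMaximal := Ring.DimensionLEOne.maximalOfPrime hP0 hPprime
  obtain ⟨hqn', hd⟩ := good_not_dvd_discr hqg hPq
  have hunr := inertia_eq_bot_of_good hqn' hd
  -- a valuation subring over `P` and a Frobenius element there
  obtain ⟨A, hA⟩ := exists_valuationSubring_over N P
  have hpP : ((absNorm q.asIdeal : ℕ) : 𝓞 N) ∈ P := by
    have := Fermat.Agent.ES.GAL.ChebDensity23.natCast_absNorm_under_mem (K := ℚ) P
    rwa [hPq] at this
  have hAp : A.LiesOverPrime (absNorm q.asIdeal) := by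
    have h1 := (hA ((absNorm q.asIdeal : ℕ) : 𝓞 N)).mpr hpP
    have h2 : incl N ((absNorm q.asIdeal : ℕ) : 𝓞 N) = ((absNorm q.asIdeal : ℕ) : Qbar) :=
      map_natCast _ _
    rw [h2] at h1
    exact h1
  obtain ⟨φ, hφ⟩ := Fermat.Agent.ES.FROB.FrobFacts12.exists_isFrobeniusAt_of _ hqn A hAp
  have hφ' : IsArithFrobAt (𝓞 ℚ) (AlgEquiv.restrictNormalHom N φ) P :=
    isArithFrobAt_restrict N hA (by rw [hPq]) hφ
  have heq : g * τ₀ * g⁻¹ = AlgEquiv.restrictNormalHom N φ := isArithFrobAt_unique hunr hτ hφ'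
  refine ⟨A, φ, hAp, hφ, ?_⟩
  rw [← levelHom_restrict ρ N hρ φ, ← heq]
  exact hg

end Bridge

/-! ### The consumer statement -/

section Final

variable {G : Type} [Group G] [Finite G]

/-- Symmetric Chebotarev density theorem over `ℚ̄`, at a given finite Galois level. -/
theorem lowerDensityGE_of_level (hcyc : AbelianSymStatement) (ρ : GQ →* G)
    (N : IntermediateField ℚ Qbar) [FiniteDimensional ℚ N] [IsGalois ℚ N]
    (hρ : ∀ σ : GQ, (∀ x ∈ N, σ x = x) → ρ σ = 1) (hsurj : Function.Surjective ρ)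
    (S : Set G) (hinv : ∀ s ∈ S, s⁻¹ ∈ S) :
    LowerDensityGE
      {p : ℕ | ∃ (A : ValuationSubring Qbar) (σ : GQ),
        A.LiesOverPrime p ∧ A.IsFrobeniusAt σ p ∧ ρ σ ∈ S}
      ((Nat.card S : ℝ) / Nat.card G) := by
  classical
  haveI : NumberField N := ⟨⟩
  set C : Finset (N ≃ₐ[ℚ] N) := (Set.toFinite (liftSet ρ N hρ S)).toFinset with hC
  have hCcoe : (C : Set (N ≃ₐ[ℚ] N)) = liftSet ρ N hρ S := Set.Finite.coe_toFinset _
  have hCmem : ∀ τ, τ ∈ C ↔ τ ∈ liftSet ρ N hρ S := fun τ => Set.Finite.mem_toFinset _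
  have hCcard : C.card = Nat.card (liftSet ρ N hρ S) := by
    rw [← Set.ncard_coe_finset C, hCcoe, Nat.card_coe_set_eq]
  have hGal0 : (0 : ℝ) < Nat.card (N ≃ₐ[ℚ] N) := by exact_mod_cast Nat.card_pos
  have hG0 : (0 : ℝ) < Nat.card G := by exact_mod_cast Nat.card_pos
  refine lowerDensityGE_of_forall_eps (c := (Nat.card (N ≃ₐ[ℚ] N) : ℝ)) (κ := (C.card : ℝ)) hGal0
    (fun s => wsum (xP ℚ s) (frobAllIn ℚ N 1 (liftSet ρ N hρ S))) ?_ ?_ ?_
  · intro s hs
    rw [wsum_eq_primeSum]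
    exact primeSum_mono (normSet_subset ρ N hρ S 1) hs.1
  · rw [div_le_div_iff₀ hG0 hGal0, hCcard]
    exact_mod_cast card_mul_le ρ N hρ S hsurj
  · intro ε hε
    obtain ⟨B, hB⟩ := abs_card_mul_wsum_frobAllIn_sub_le (K := ℚ) (L := N) hcyc 1 one_ne_zero C
      (fun g σ hσ => (hCmem _).mpr (liftSet_conj ρ N hρ S g σ ((hCmem σ).mp hσ)))
      (fun σ hσ => (hCmem _).mpr (liftSet_inv ρ N hρ S hinv σ ((hCmem σ).mp hσ))) ε hε
    refine ⟨B, fun s hs => ?_⟩
    have h := (abs_le.mp (hB s hs)).1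
    rw [hCcoe] at h
    linarith

/-- **Symmetric Chebotarev density theorem, consumer form** (`Iface.ChebotarevLower` for subsets
stable under inversion), from the abelian symmetric statement. -/
theorem chebotarevLower_of_abelianSym (hcyc : AbelianSymStatement) (ρ : GQ →* G)
    (hfl : GaloisFactorsThroughFiniteLevel ρ) (hsurj : Function.Surjective ρ)
    (S : Set G) (hinv : ∀ s ∈ S, s⁻¹ ∈ S) :
    LowerDensityGE
      {p : ℕ | ∃ (A : ValuationSubring (AlgebraicClosure ℚ))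
          (σ : AlgebraicClosure ℚ ≃ₐ[ℚ] AlgebraicClosure ℚ),
        A.LiesOverPrime p ∧ A.IsFrobeniusAt σ p ∧ ρ σ ∈ S}
      ((Nat.card S : ℝ) / Nat.card G) := by
  obtain ⟨L, hLfin, hL⟩ := hfl
  obtain ⟨N, hfin, hnorm, hLN⟩ : ∃ N : IntermediateField ℚ Qbar,
      FiniteDimensional ℚ N ∧ Normal ℚ N ∧ L ≤ N :=
    ⟨IntermediateField.normalClosure ℚ L Qbar, normalClosure.is_finiteDimensional ℚ L Qbar,
      normalClosure.normal ℚ L Qbar, IntermediateField.le_normalClosure L⟩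
  have hgal : IsGalois ℚ N := ⟨⟩
  exact lowerDensityGE_of_level hcyc ρ N (fun σ hσ => hL σ (fun x hx => hσ x (hLN hx))) hsurj S hinv

end Final

end Fermat.Agent.DS.Cheb.Reduce7Qbar
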