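/-
Programme DS (S48), Chebotarev squad, final glue of pieces C (helper51), D and E (helper7).

`chebotarevLowerSym_of_c2Sym` : the symmetric cyclotomic statement `Cross51Defs.C2SymStatement`
(piece B) implies the consumer form of the Chebotarev density theorem
(`Iface.ChebotarevLower` for subsets stable under inversion).
-/
import Mathlib
import Fermat.Agent.DS.Cheb.Cross51Main
import Fermat.Agent.DS.Cheb.Reduce7Qbar
import Fermat.Agent.DS.IfaceSym

set_option autoImplicit false

open Fermat.Agent.DS.Iface

namespace Fermat.Agent.DS.Cheb.Reduce7Main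

local notation "Γℚ" => (AlgebraicClosure ℚ ≃ₐ[ℚ] AlgebraicClosure ℚ)

/-- `Iface.ChebotarevLower` restricted to subsets stable under inversion (this is what the
symmetric route proves, and all that Deligne--Serre section 8 needs). -/
def ChebotarevLowerSym : Prop :=
  ∀ (G : Type) [Group G] [Finite G] (ρ : Γℚ →* G),
    GaloisFactorsThroughFiniteLevel ρ → Function.Surjective ρ → ∀ S : Set G,
      (∀ s ∈ S, s⁻¹ ∈ S) →
      LowerDensityGE
        {p : ℕ | ∃ (A : ValuationSubring (AlgebraicClosure ℚ)) (σ : Γℚ),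
          A.LiesOverPrime p ∧ A.IsFrobeniusAt σ p ∧ ρ σ ∈ S}
        ((Nat.card S : ℝ) / Nat.card G)

/-- The crossing step delivers the abelian symmetric statement in the shape consumed by the
Deuring reduction. -/
theorem abelianSym_of_c2Sym (h2 : Fermat.Agent.DS.Cheb.Cross51Defs.C2SymStatement) :
    Fermat.Agent.DS.Cheb.Reduce7Transfer.AbelianSymStatement := by
  intro F L _ _ _ _ _ _ _ M hM σ ε hε
  exact Fermat.Agent.DS.Cheb.Cross51Main.cheb_abelian_sym (F := F) (L := L) h2 M hM σ ε hε

/-- Deuring reduction + `ℚ̄` bridge. -/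
theorem chebotarevLowerSym_of_abelianSym
    (h : Fermat.Agent.DS.Cheb.Reduce7Transfer.AbelianSymStatement) : ChebotarevLowerSym := by
  intro G _ _ ρ hfl hsurj S hinv
  exact Fermat.Agent.DS.Cheb.Reduce7Qbar.chebotarevLower_of_abelianSym h ρ hfl hsurj S hinv

/-- Pieces C + D + E: from the symmetric cyclotomic statement to the consumer form. -/
theorem chebotarevLowerSym_of_c2Sym (h2 : Fermat.Agent.DS.Cheb.Cross51Defs.C2SymStatement) :
    ChebotarevLowerSym :=
  chebotarevLowerSym_of_abelianSym (abelianSym_of_c2Sym h2)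

/-- The same, in the binding shape `IfaceSym.ChebotarevLowerSym` of the contract file. -/
theorem ifaceChebotarevLowerSym_of_c2Sym
    (h2 : Fermat.Agent.DS.Cheb.Cross51Defs.C2SymStatement) :
    Fermat.Agent.DS.IfaceSym.ChebotarevLowerSym :=
  fun G _ _ ρ hfl hsurj S hinv => chebotarevLowerSym_of_c2Sym h2 G ρ hfl hsurj S hinv

end Fermat.Agent.DS.Cheb.Reduce7Main
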