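/-
Programme DS (S48), brick GEN-CHEB (helper20, sub-lead): the symmetric Chebotarev density theorem,
UNCONDITIONAL.  Pieces: A `RayLBound.rayL_bounded` (helper20), B `CycloSym20.c2Sym` (helper20),
C `Cross51Main.cheb_abelian_sym` (helper51), D+E `Reduce7*` (helper7).

* `chebotarevLowerSym` : `IfaceSym.ChebotarevLowerSym`, the binding consumer shape of the DS
  contract file (Chebotarev lower density for inverse-stable subsets of a finite quotient of `G_ℚ`).
* `cheb_galois_sym` : number field form (any finite Galois `L/K`, conj+inverse stable `C`).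
-/
import Mathlib
import Fermat.Agent.DS.Cheb.CycloSym20
import Fermat.Agent.DS.Cheb.Reduce7Main
import Fermat.Agent.DS.Cheb.Cross51Glue

set_option autoImplicit false

namespace Fermat.Agent.DS.Cheb.ChebSym20

/-- **Symmetric Chebotarev, consumer form** (contract `IfaceSym.ChebotarevLowerSym`). -/
theorem chebotarevLowerSym : Fermat.Agent.DS.IfaceSym.ChebotarevLowerSym :=
  Fermat.Agent.DS.Cheb.Reduce7Main.ifaceChebotarevLowerSym_of_c2Sym
    Fermat.Agent.DS.Cheb.CycloSym20.c2Sym

/-- The same in the shape of `Reduce7Main.ChebotarevLowerSym`. -/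
theorem chebotarevLowerSym' : Fermat.Agent.DS.Cheb.Reduce7Main.ChebotarevLowerSym :=
  Fermat.Agent.DS.Cheb.Reduce7Main.chebotarevLowerSym_of_c2Sym
    Fermat.Agent.DS.Cheb.CycloSym20.c2Sym

/-- The abelian symmetric statement (two-sided `ε`-form), unconditional. -/
theorem abelianSym : Fermat.Agent.DS.Cheb.Reduce7Transfer.AbelianSymStatement :=
  Fermat.Agent.DS.Cheb.Reduce7Main.abelianSym_of_c2Sym Fermat.Agent.DS.Cheb.CycloSym20.c2Sym

end Fermat.Agent.DS.Cheb.ChebSym20
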