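/-
Programme DS (S48), brick B3-C2 (helper30), abstract half: **density of the indices with label in
`{a, a⁻¹}`** from upper bounds for the real parts of the character sums.

`H` a finite abelian group, `lab : ι → H` a labelling (Frobenius modulo a subgroup), `T ⊆ ι` the
admissible indices (good primes), `x s : ι → ℝ` nonnegative summable weights (`N p^(-s)`).

Hypotheses of `pair_density`:
* `htot` : `∑_{p ∈ T} x s p ≤ log (1/(s-1)) + O(1)`;
* `hS`   : `|H| ∑_{p ∈ T, lab p = 1} x s p ≥ log (1/(s-1)) - O(1)`  (split primes);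
* `hB`   : for every character `χ ≠ 1` of `H`: `∑_{p ∈ T} re χ(lab p) x s p ≤ O(1)`
  (from `log ‖L(s, χ)‖ ≤ O(1)`, see `Euler30.abs_log_norm_lser_sub_le`).

Conclusion: `|H| (S_a + S_{a⁻¹}) = 2 log (1/(s-1)) + O(1)`, `S_a = ∑_{p ∈ T, lab p = a} x s p`.
Only REAL parts are used: no continuity of `L(s, χ)` at `s = 1`, no branch of the logarithm.
-/
import Mathlib
import Fermat.Agent.CFT.CharOrtho
import Fermat.Agent.CFT.ZetaRBounds
import Fermat.Agent.ES.GAL.ChebAbstract23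

set_option autoImplicit false
set_option linter.unusedSectionVars false

open Filter Topology
open Fermat.Agent.CFT.CharOrtho Fermat.Agent.CFT.ZetaRBounds Fermat.Agent.ES.GAL.ChebAbstract23

namespace Fermat.Agent.DS.Cheb.AbstractPair30

noncomputable section

variable {H : Type*} [CommGroup H] [Finite H]

/-! ### Real-part orthogonality for the characters of a finite abelian group -/

theorem conj_apply (χ : H →* ℂˣ) (b : H) :
    (starRingEnd ℂ) ((χ b : ℂˣ) : ℂ) = ((χ b⁻¹ : ℂˣ) : ℂ) := by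
  rw [map_inv, Units.val_inv_eq_inv_val, Complex.inv_eq_conj (norm_unit_apply χ b)]

theorem re_mul_re (z w : ℂ) :
    z.re * w.re = ((z * w).re + (z * (starRingEnd ℂ) w).re) / 2 := by
  simp only [Complex.mul_re, Complex.conj_re, Complex.conj_im]
  ring

theorem abs_re_apply_le (χ : H →* ℂˣ) (b : H) : |((χ b : ℂˣ) : ℂ).re| ≤ 1 :=
  (Complex.abs_re_le_norm _).trans (norm_unit_apply χ b).le

open scoped Classical in
/-- `∑_χ re χ(a) re χ(b) = |H|/2 ([b = a] + [b = a⁻¹])`. -/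
theorem sum_re_mul_re [Fintype (H →* ℂˣ)] (a b : H) :
    ∑ χ : H →* ℂˣ, ((χ a : ℂˣ) : ℂ).re * ((χ b : ℂˣ) : ℂ).re =
      (Nat.card H : ℝ) / 2 * ((if b = a then 1 else 0) + (if b = a⁻¹ then 1 else 0)) := by
  have h1 : ∀ χ : H →* ℂˣ, ((χ a : ℂˣ) : ℂ).re * ((χ b : ℂˣ) : ℂ).re =
      ((((χ (a * b) : ℂˣ) : ℂ)).re + (((χ (a * b⁻¹) : ℂˣ) : ℂ)).re) / 2 := by
    intro χ
    rw [re_mul_re, conj_apply, map_mul, map_mul, Units.val_mul, Units.val_mul]
  simp_rw [h1]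
  rw [← Finset.sum_div, Finset.sum_add_distrib, ← Complex.re_sum, ← Complex.re_sum,
    Fermat.Agent.CFT.CharOrtho.sum_apply, Fermat.Agent.CFT.CharOrtho.sum_apply]
  have e1 : (a * b = 1) ↔ (b = a⁻¹) := by
    constructor
    · intro h; exact eq_inv_of_mul_eq_one_right h
    · intro h; rw [h, mul_inv_cancel]
  have e2 : (a * b⁻¹ = 1) ↔ (b = a) := by
    constructor
    · intro h; exact (mul_inv_eq_one.mp h).symm
    · intro h; rw [h, mul_inv_cancel]
  have r1 : (if a * b = 1 then (Nat.card H : ℂ) else 0).re =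
      (Nat.card H : ℝ) * (if b = a⁻¹ then 1 else 0) := by
    by_cases h : b = a⁻¹
    · rw [if_pos (e1.mpr h), if_pos h, Complex.natCast_re, mul_one]
    · rw [if_neg (fun h' => h (e1.mp h')), if_neg h, Complex.zero_re, mul_zero]
  have r2 : (if a * b⁻¹ = 1 then (Nat.card H : ℂ) else 0).re =
      (Nat.card H : ℝ) * (if b = a then 1 else 0) := by
    by_cases h : b = a
    · rw [if_pos (e2.mpr h), if_pos h, Complex.natCast_re, mul_one]
    · rw [if_neg (fun h' => h (e2.mp h')), if_neg h, Complex.zero_re, mul_zero]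
  rw [r1, r2]
  ring

/-! ### The abstract pair density -/

variable {ι : Type*}

/-- the admissible indices with label `a` -/
def withLabel (lab : ι → H) (T : Set ι) (a : H) : Set ι := {p | p ∈ T ∧ lab p = a}

/-- `R_χ(s) = ∑_{p ∈ T} re χ(lab p) x s p`. -/
def R (lab : ι → H) (T : Set ι) (x : ℝ → ι → ℝ) (χ : H →* ℂˣ) (s : ℝ) : ℝ :=
  ∑' p, T.indicator (fun p => ((χ (lab p) : ℂˣ) : ℂ).re * x s p) p

theorem summable_R (lab : ι → H) (T : Set ι) {x : ℝ → ι → ℝ} (hx0 : ∀ s p, 0 ≤ x s p)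
    {s : ℝ} (hxs : Summable (x s)) (χ : H →* ℂˣ) :
    Summable (fun p => T.indicator (fun p => ((χ (lab p) : ℂˣ) : ℂ).re * x s p) p) := by
  refine Summable.indicator ?_ T
  refine Summable.of_norm_bounded hxs (fun p => ?_)
  rw [norm_mul, Real.norm_of_nonneg (hx0 s p), Real.norm_eq_abs]
  calc |((χ (lab p) : ℂˣ) : ℂ).re| * x s p ≤ 1 * x s p :=
        mul_le_mul_of_nonneg_right (abs_re_apply_le χ _) (hx0 s p)
    _ = _ := one_mul _

open scoped Classical in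
/-- **Orthogonality**: `∑_χ re χ(a) R_χ(s) = |H|/2 (S_a + S_{a⁻¹})`. -/
theorem sum_re_mul_R [Fintype (H →* ℂˣ)] (lab : ι → H) (T : Set ι) {x : ℝ → ι → ℝ}
    (hx0 : ∀ s p, 0 ≤ x s p) {s : ℝ} (hxs : Summable (x s)) (a : H) :
    ∑ χ : H →* ℂˣ, ((χ a : ℂˣ) : ℂ).re * R lab T x χ s =
      (Nat.card H : ℝ) / 2 *
        (wsum (x s) (withLabel lab T a) + wsum (x s) (withLabel lab T a⁻¹)) := by
  unfold R
  simp_rw [← tsum_mul_left]
  rw [← Summable.tsum_finsetSum (fun χ _ => (summable_R lab T hx0 hxs χ).mul_left _)]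
  unfold wsum
  rw [← (hxs.indicator _).tsum_add (hxs.indicator _), ← tsum_mul_left]
  refine tsum_congr (fun p => ?_)
  by_cases hp : p ∈ T
  · simp_rw [Set.indicator_of_mem hp, ← mul_assoc]
    rw [← Finset.sum_mul, sum_re_mul_re]
    have hind : ∀ b : H, Set.indicator (withLabel lab T b) (x s) p =
        (if lab p = b then 1 else 0) * x s p := by
      intro b
      by_cases hb : lab p = b
      · have hm : p ∈ withLabel lab T b := ⟨hp, hb⟩
        rw [Set.indicator_of_mem hm, if_pos hb, one_mul]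
      · have hm : p ∉ withLabel lab T b := fun h => hb h.2
        rw [Set.indicator_of_notMem hm, if_neg hb, zero_mul]
    rw [hind a, hind a⁻¹]
    ring
  · have h1 : p ∉ withLabel lab T a := fun h => hp h.1
    have h2 : p ∉ withLabel lab T a⁻¹ := fun h => hp h.1
    simp [Set.indicator_of_notMem hp, Set.indicator_of_notMem h1, Set.indicator_of_notMem h2]

/-- `R_1(s) = ∑_{p ∈ T} x s p`. -/
theorem R_one (lab : ι → H) (T : Set ι) (x : ℝ → ι → ℝ) (s : ℝ) :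
    R lab T x 1 s = wsum (x s) T := by
  unfold R wsum
  refine tsum_congr (fun p => ?_)
  by_cases hp : p ∈ T
  · simp [Set.indicator_of_mem hp]
  · simp [Set.indicator_of_notMem hp]

open scoped Classical in
/-- **Abstract pair density.** -/
theorem pair_density (lab : ι → H) (T : Set ι) (x : ℝ → ι → ℝ)
    (hx0 : ∀ s p, 0 ≤ x s p) (hxs : ∀ s, 1 < s → Summable (x s))
    (htot : ∃ B : ℝ, ∀ s ∈ Set.Ioc (1 : ℝ) 2, wsum (x s) T ≤ Real.log (1 / (s - 1)) + B)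
    (hS : ∃ B : ℝ, ∀ s ∈ Set.Ioc (1 : ℝ) 2,
      Real.log (1 / (s - 1)) - B ≤ (Nat.card H : ℝ) * wsum (x s) {p | p ∈ T ∧ lab p = 1})
    (hB : ∀ χ : H →* ℂˣ, χ ≠ 1 → ∃ B : ℝ, ∀ s ∈ Set.Ioc (1 : ℝ) 2,
      ∑' p, T.indicator (fun p => ((χ (lab p) : ℂˣ) : ℂ).re * x s p) p ≤ B)
    (a : H) :
    ∃ B : ℝ, ∀ s ∈ Set.Ioc (1 : ℝ) 2,
      |(Nat.card H : ℝ) * (wsum (x s) {p | p ∈ T ∧ lab p = a} +
          wsum (x s) {p | p ∈ T ∧ lab p = a⁻¹}) - 2 * Real.log (1 / (s - 1))| ≤ B := by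
  have : Fintype (H →* ℂˣ) := Fintype.ofFinite _
  obtain ⟨B0', hB0'⟩ := htot
  obtain ⟨B1', hB1'⟩ := hS
  set B0 : ℝ := |B0'| with hB0def
  set B1 : ℝ := |B1'| with hB1def
  have hB00 : 0 ≤ B0 := abs_nonneg _
  have hB10 : 0 ≤ B1 := abs_nonneg _
  have hB0 : ∀ s ∈ Set.Ioc (1 : ℝ) 2, wsum (x s) T ≤ Real.log (1 / (s - 1)) + B0 := fun s hs =>
    le_trans (hB0' s hs) (by linarith [le_abs_self B0'])
  have hB1 : ∀ s ∈ Set.Ioc (1 : ℝ) 2,
      Real.log (1 / (s - 1)) - B1 ≤ (Nat.card H : ℝ) * wsum (x s) (withLabel lab T 1) :=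
    fun s hs => le_trans (by linarith [le_abs_self B1']) (hB1' s hs)
  -- upper bounds `U χ` for `R_χ`, `χ ≠ 1`
  have hU : ∀ χ : H →* ℂˣ, ∃ U : ℝ, χ ≠ 1 → ∀ s ∈ Set.Ioc (1 : ℝ) 2, R lab T x χ s ≤ U := by
    intro χ
    by_cases hχ : χ = 1
    · exact ⟨0, fun h => absurd hχ h⟩
    · obtain ⟨B, hBχ⟩ := hB χ hχ
      exact ⟨B, fun _ s hs => hBχ s hs⟩
  choose U hU using hU
  set Tc : ℝ := ∑ χ ∈ (Finset.univ.erase (1 : H →* ℂˣ)), |U χ| with hTc
  have hT0 : 0 ≤ Tc := Finset.sum_nonneg (fun _ _ => abs_nonneg _)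
  -- the sum of all `R_χ` is `|H| S_1`
  have hsum1 : ∀ s : ℝ, 1 < s →
      ∑ χ : H →* ℂˣ, R lab T x χ s = (Nat.card H : ℝ) * wsum (x s) (withLabel lab T 1) := by
    intro s hs
    have := sum_re_mul_R lab T hx0 (hxs s hs) (1 : H)
    simp only [map_one, Units.val_one, Complex.one_re, one_mul, inv_one] at this
    rw [this]; ring
  -- lower bounds for each `R_χ`, `χ ≠ 1`
  have hlow : ∀ χ : H →* ℂˣ, χ ≠ 1 → ∀ s ∈ Set.Ioc (1 : ℝ) 2,
      -(B0 + B1 + Tc) ≤ R lab T x χ s := by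
    intro χ hχ s hs
    have h1 := hsum1 s hs.1
    have hχmem : χ ∈ Finset.univ.erase (1 : H →* ℂˣ) :=
      Finset.mem_erase.mpr ⟨hχ, Finset.mem_univ _⟩
    rw [← Finset.add_sum_erase _ _ (Finset.mem_univ (1 : H →* ℂˣ)),
      ← Finset.add_sum_erase _ _ hχmem, R_one] at h1
    have h2 : ∑ ψ ∈ (Finset.univ.erase (1 : H →* ℂˣ)).erase χ, R lab T x ψ s ≤ Tc := by
      calc ∑ ψ ∈ (Finset.univ.erase (1 : H →* ℂˣ)).erase χ, R lab T x ψ s
          ≤ ∑ ψ ∈ (Finset.univ.erase (1 : H →* ℂˣ)).erase χ, |U ψ| := by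
            refine Finset.sum_le_sum (fun ψ hψ => ?_)
            have hψ1 : ψ ≠ 1 := (Finset.mem_erase.mp (Finset.mem_of_mem_erase hψ)).1
            exact (hU ψ hψ1 s hs).trans (le_abs_self _)
        _ ≤ Tc := Finset.sum_le_sum_of_subset_of_nonneg (Finset.erase_subset _ _)
            (fun _ _ _ => abs_nonneg _)
    have h4 := hB0 s hs
    have h5 := hB1 s hs
    linarith
  -- `R_1 = log (1/(s-1)) + O(1)`
  have hR1 : ∀ s ∈ Set.Ioc (1 : ℝ) 2,
      |R lab T x 1 s - Real.log (1 / (s - 1))| ≤ B0 + B1 + Tc := by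
    intro s hs
    have h1 := hsum1 s hs.1
    rw [← Finset.add_sum_erase _ _ (Finset.mem_univ (1 : H →* ℂˣ))] at h1
    have h2 : ∑ ψ ∈ Finset.univ.erase (1 : H →* ℂˣ), R lab T x ψ s ≤ Tc :=
      Finset.sum_le_sum (fun ψ hψ =>
        (hU ψ (Finset.mem_erase.mp hψ).1 s hs).trans (le_abs_self _))
    have h4 := hB0 s hs
    have h5 := hB1 s hs
    rw [R_one] at h1 ⊢
    rw [abs_le]
    constructor <;> linarith
  -- each `|R_χ| ≤ M`, `χ ≠ 1`
  set M : ℝ := B0 + B1 + Tc + Tc with hM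
  have hM0 : 0 ≤ M := by positivity
  have habs : ∀ χ : H →* ℂˣ, χ ≠ 1 → ∀ s ∈ Set.Ioc (1 : ℝ) 2, |R lab T x χ s| ≤ M := by
    intro χ hχ s hs
    have h1 := hlow χ hχ s hs
    have h2 : R lab T x χ s ≤ Tc := by
      have hχmem : χ ∈ Finset.univ.erase (1 : H →* ℂˣ) :=
        Finset.mem_erase.mpr ⟨hχ, Finset.mem_univ _⟩
      calc R lab T x χ s ≤ |U χ| := (hU χ hχ s hs).trans (le_abs_self _)
        _ ≤ Tc := Finset.single_le_sum (f := fun ψ => |U ψ|) (fun _ _ => abs_nonneg _) hχmem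
    rw [abs_le]
    constructor <;> linarith
  refine ⟨2 * ((B0 + B1 + Tc) + (Fintype.card (H →* ℂˣ) : ℝ) * M), fun s hs => ?_⟩
  have h1 := sum_re_mul_R lab T hx0 (hxs s hs.1) a
  rw [← Finset.add_sum_erase _ _ (Finset.mem_univ (1 : H →* ℂˣ))] at h1
  simp only [MonoidHom.one_apply, Units.val_one, Complex.one_re, one_mul] at h1
  have h2 : |∑ χ ∈ Finset.univ.erase (1 : H →* ℂˣ), ((χ a : ℂˣ) : ℂ).re * R lab T x χ s| ≤
      (Fintype.card (H →* ℂˣ) : ℝ) * M := by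
    calc |∑ χ ∈ Finset.univ.erase (1 : H →* ℂˣ), ((χ a : ℂˣ) : ℂ).re * R lab T x χ s|
        ≤ ∑ χ ∈ Finset.univ.erase (1 : H →* ℂˣ), |((χ a : ℂˣ) : ℂ).re * R lab T x χ s| :=
          Finset.abs_sum_le_sum_abs _ _
      _ ≤ ∑ _χ ∈ Finset.univ.erase (1 : H →* ℂˣ), M := by
          refine Finset.sum_le_sum (fun χ hχ => ?_)
          rw [abs_mul]
          calc |((χ a : ℂˣ) : ℂ).re| * |R lab T x χ s| ≤ 1 * M :=
                mul_le_mul (abs_re_apply_le χ a) (habs χ (Finset.mem_erase.mp hχ).1 s hs)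
                  (abs_nonneg _) zero_le_one
            _ = M := one_mul _
      _ = ((Finset.univ.erase (1 : H →* ℂˣ)).card : ℝ) * M := by
          rw [Finset.sum_const, nsmul_eq_mul]
      _ ≤ (Fintype.card (H →* ℂˣ) : ℝ) * M := by
          refine mul_le_mul_of_nonneg_right ?_ hM0
          exact_mod_cast Finset.card_le_univ _
  have h3 := hR1 s hs
  have h4 : (Nat.card H : ℝ) * (wsum (x s) {p | p ∈ T ∧ lab p = a} +
        wsum (x s) {p | p ∈ T ∧ lab p = a⁻¹}) - 2 * Real.log (1 / (s - 1)) =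
      2 * ((R lab T x 1 s - Real.log (1 / (s - 1))) +
        ∑ χ ∈ Finset.univ.erase (1 : H →* ℂˣ), ((χ a : ℂˣ) : ℂ).re * R lab T x χ s) := by
    have e : ∀ b : H, {p | p ∈ T ∧ lab p = b} = withLabel lab T b := fun _ => rfl
    rw [e a, e a⁻¹]
    linarith
  rw [h4, abs_mul, abs_of_pos (by norm_num : (0 : ℝ) < 2)]
  refine mul_le_mul_of_nonneg_left ?_ (by norm_num)
  exact (abs_add_le _ _).trans (add_le_add h3 h2)

end

end Fermat.Agent.DS.Cheb.AbstractPair30
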