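/-
DS programme (S48), brick B3 = symmetric Chebotarev density theorem: UNCONDITIONAL final statements
(helper51).  Assembles
* piece A/B (helper20, helper30): `CycloSym20.c2Sym : Cross51Defs.C2SymStatement`,
* piece C (helper51): `Cross51Main.cheb_abelian_sym`, `Cross51Glue.cheb_galois_sym`,
* pieces D/E (helper7): `Reduce7Main.chebotarevLowerSym_of_c2Sym`.
-/
import Mathlib
import Fermat.Agent.DS.Cheb.CycloSym20
import Fermat.Agent.DS.Cheb.Cross51Glue
import Fermat.Agent.DS.Cheb.Reduce7Main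

set_option autoImplicit false

open IsDedekindDomain Ideal NumberField
open Fermat.Agent.CFT.SplitPrimes Fermat.Agent.ES.GAL.ChebAbstract23

namespace Fermat.Agent.DS.Cheb.ChebFinal51

/-- **Brick B3 of the DS programme** in the binding contract shape `IfaceSym.ChebotarevLowerSym`:
for a finite-level surjection `ρ : G_ℚ → G` and an inverse-stable `S ⊆ G`, the primes with a
Frobenius in `S` have lower Dirichlet density at least `|S| / |G|`. -/
theorem chebotarevLowerSym : Fermat.Agent.DS.IfaceSym.ChebotarevLowerSym :=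
  Fermat.Agent.DS.Cheb.Reduce7Main.ifaceChebotarevLowerSym_of_c2Sym
    Fermat.Agent.DS.Cheb.CycloSym20.c2Sym

/-- **Symmetric Chebotarev density theorem** for a finite abelian extension `L/F` of number fields
(two-sided `ε`-form). -/
theorem cheb_abelian_sym (F L : Type) [Field F] [Field L] [NumberField F] [NumberField L]
    [Algebra F L] [IsGalois F L] [IsMulCommutative (L ≃ₐ[F] L)] (M : ℕ) (hM : M ≠ 0)
    (σ : L ≃ₐ[F] L) (ε : ℝ) (hε : 0 < ε) :
    ∃ B : ℝ, ∀ s ∈ Set.Ioc (1 : ℝ) 2,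
      |(Module.finrank F L : ℝ) *
          (wsum (xP F s) (Fermat.Agent.DS.Cheb.Cross51Main.frobEq F L M σ) +
            wsum (xP F s) (Fermat.Agent.DS.Cheb.Cross51Main.frobEq F L M σ⁻¹)) -
        2 * Real.log (1 / (s - 1))| ≤ ε * Real.log (1 / (s - 1)) + B :=
  Fermat.Agent.DS.Cheb.Cross51Main.cheb_abelian_sym F L
    Fermat.Agent.DS.Cheb.CycloSym20.c2Sym M hM σ ε hε

/-- **Symmetric Chebotarev density theorem** for a finite Galois extension `L/K` of number fields:
for `C ⊆ Gal(L/K)` stable under conjugation and inversion, the good primes of `K` all of whose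
Frobenius elements lie in `C` carry `(|C| / |G|) log (1 / (s - 1)) (1 + o(1))`. -/
theorem cheb_galois_sym {K L : Type} [Field K] [Field L] [NumberField K]
    [NumberField L] [Algebra K L] [IsGalois K L] (m : ℕ) (hm : m ≠ 0)
    (C : Finset (L ≃ₐ[K] L)) (hconj : ∀ g σ : L ≃ₐ[K] L, σ ∈ C → g * σ * g⁻¹ ∈ C)
    (hinv : ∀ σ ∈ C, σ⁻¹ ∈ C) (ε : ℝ) (hε : 0 < ε) :
    ∃ B : ℝ, ∀ s ∈ Set.Ioc (1 : ℝ) 2,
      |(Nat.card (L ≃ₐ[K] L) : ℝ) * wsum (xP K s)
          (Fermat.Agent.DS.Cheb.Reduce7Count.frobAllIn K L m (C : Set (L ≃ₐ[K] L))) -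
        (C.card : ℝ) * Real.log (1 / (s - 1))| ≤ ε * Real.log (1 / (s - 1)) + B :=
  Fermat.Agent.DS.Cheb.Cross51Glue.cheb_galois_sym
    Fermat.Agent.DS.Cheb.CycloSym20.c2Sym m hm C hconj hinv ε hε

end Fermat.Agent.DS.Cheb.ChebFinal51
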