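/-
DS programme, brick B3-C3 (Chebotarev crossing), helper51.  Part 1: counting.  Mathlib only.

For a prime `m` with `2 * n ^ k ∣ m - 1`, all but a proportion `≤ n / 2 ^ k` of the units `u` of
`ZMod m` are `n`-good: every power of `u` that lands in `{1, -1}` has exponent divisible by `n`
(equivalently: the order of the class of `u` in `(ℤ/m)ˣ/±1` is divisible by `n`).
-/
import Mathlib

set_option autoImplicit false

namespace Fermat.Agent.DS.Cheb.Cross51Count

/-- `u` is `n`-good: every power of `u` landing in `{1, -1}` has exponent divisible by `n`. -/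
def GoodUnit {m : ℕ} (n : ℕ) (u : (ZMod m)ˣ) : Prop :=
  ∀ j : ℕ, (u ^ j = 1 ∨ u ^ j = -1) → n ∣ j

theorem goodUnit_neg {m : ℕ} {n : ℕ} {u : (ZMod m)ˣ} (hu : GoodUnit n u) : GoodUnit n (-u) := by
  intro j hj
  apply hu j
  rcases Nat.even_or_odd j with he | ho
  · rwa [he.neg_pow] at hj
  · rw [ho.neg_pow] at hj
    rcases hj with h | h
    · right; rw [← h, neg_neg]
    · left; exact neg_injective h

/-- Divisibility by a quotient, via `p`-adic valuations. -/
theorem dvd_div_pow_of_factorization {o N p k : ℕ} (hp : p.Prime) (hN : N ≠ 0) (ho : o ∣ N)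
    (hv : o.factorization p + k ≤ N.factorization p) : o ∣ N / p ^ k := by
  have hpk : p ^ k ∣ N := by
    rw [hp.pow_dvd_iff_le_factorization hN]
    omega
  have ho0 : o ≠ 0 := fun h => hN (by rw [h, zero_dvd_iff] at ho; exact ho)
  have hq0 : N / p ^ k ≠ 0 := by
    intro h
    rw [Nat.div_eq_zero_iff] at h
    rcases h with h | h
    · exact (pow_ne_zero k hp.ne_zero) h
    · exact absurd (Nat.le_of_dvd (Nat.pos_of_ne_zero hN) hpk) (not_le.mpr h)
  rw [← Nat.factorization_le_iff_dvd ho0 hq0, Nat.factorization_div hpk,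
    hp.factorization_pow]
  intro q
  have h1 : o.factorization q ≤ N.factorization q :=
    (Nat.factorization_le_iff_dvd ho0 hN).mpr ho q
  by_cases hq : q = p
  · subst hq
    simp only [Finsupp.coe_tsub, Pi.sub_apply, Finsupp.single_eq_same]
    omega
  · simp only [Finsupp.coe_tsub, Pi.sub_apply]
    rw [Finsupp.single_eq_of_ne hq]
    simpa using h1

/-- A bad unit is killed by `(m - 1) / p ^ k` for some prime `p ∣ n`. -/
theorem exists_prime_of_not_goodUnit {m : ℕ} [Fact m.Prime] {n k : ℕ} (hn : n ≠ 0)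
    (hmk : 2 * n ^ k ∣ m - 1) {u : (ZMod m)ˣ} (hu : ¬ GoodUnit n u) :
    ∃ p ∈ n.primeFactors, u ^ ((m - 1) / p ^ k) = 1 := by
  have hm : m.Prime := Fact.out
  have hN0 : m - 1 ≠ 0 := by have := hm.two_le; omega
  unfold GoodUnit at hu
  push Not at hu
  obtain ⟨j, hj, hnj⟩ := hu
  have hj0 : j ≠ 0 := fun h => hnj (by rw [h]; exact dvd_zero n)
  -- `u ^ (2 j) = 1`
  have h2j : u ^ (2 * j) = 1 := by
    rw [mul_comm, pow_mul]
    rcases hj with h | h
    · rw [h, one_pow]
    · rw [h]; simp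
  have ho2j : orderOf u ∣ 2 * j := orderOf_dvd_of_pow_eq_one h2j
  have hoN : orderOf u ∣ m - 1 := by
    have h1 : Fintype.card (ZMod m)ˣ = m - 1 := ZMod.card_units m
    rw [← h1]
    exact orderOf_dvd_card
  -- a prime where `j` has smaller valuation than `n`
  have hex : ∃ p, p.Prime ∧ j.factorization p < n.factorization p := by
    by_contra hcon
    push Not at hcon
    exact hnj ((Nat.factorization_prime_le_iff_dvd hn hj0).mp hcon)
  obtain ⟨p, hp, hlt⟩ := hex
  have hpn : p ∈ n.primeFactors := by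
    rw [← Nat.support_factorization, Finsupp.mem_support_iff]
    omega
  refine ⟨p, hpn, ?_⟩
  have ho0 : orderOf u ≠ 0 := (orderOf_pos u).ne'
  -- valuations
  have hv1 : (orderOf u).factorization p ≤ (2 * j).factorization p :=
    (Nat.factorization_le_iff_dvd ho0 (Nat.mul_ne_zero two_ne_zero hj0)).mpr ho2j p
  have hv2 : (2 * j).factorization p = (2 : ℕ).factorization p + j.factorization p := by
    rw [Nat.factorization_mul two_ne_zero hj0]; rfl
  have hnk0 : 2 * n ^ k ≠ 0 := Nat.mul_ne_zero two_ne_zero (pow_ne_zero k hn)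
  have hv3 : (2 * n ^ k).factorization p ≤ (m - 1).factorization p :=
    (Nat.factorization_le_iff_dvd hnk0 hN0).mpr hmk p
  have hv4 : (2 * n ^ k).factorization p = (2 : ℕ).factorization p + k * n.factorization p := by
    rw [Nat.factorization_mul two_ne_zero (pow_ne_zero k hn), Nat.factorization_pow]; rfl
  have hv : (orderOf u).factorization p + k ≤ (m - 1).factorization p := by
    rcases Nat.eq_zero_or_pos k with hk | hk
    · subst hk
      have := (Nat.factorization_le_iff_dvd ho0 hN0).mpr hoN p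
      omega
    · have ha : 1 ≤ n.factorization p := by omega
      have hka : n.factorization p - 1 + k ≤ k * n.factorization p := by
        obtain ⟨a, ha'⟩ : ∃ a, n.factorization p = a + 1 := ⟨n.factorization p - 1, by omega⟩
        obtain ⟨k', hk'⟩ : ∃ k', k = k' + 1 := ⟨k - 1, by omega⟩
        rw [ha', hk']
        have : (k' + 1) * (a + 1) = k' * a + k' + a + 1 := by ring
        rw [this]
        omega
      omega
  have hdvd := dvd_div_pow_of_factorization hp hN0 hoN hv
  exact orderOf_dvd_iff_pow_eq_one.mp hdvd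

/-- **Counting.**  For `m` prime with `2 * n ^ k ∣ m - 1`, the number of `n`-bad units of
`ZMod m` is at most `n * (m - 1) / 2 ^ k`. -/
theorem card_bad_mul_le {m : ℕ} [Fact m.Prime] {n k : ℕ} (hn : n ≠ 0)
    (hmk : 2 * n ^ k ∣ m - 1) [DecidablePred (fun u : (ZMod m)ˣ => GoodUnit n u)] :
    (Finset.univ.filter (fun u : (ZMod m)ˣ => ¬ GoodUnit n u)).card * 2 ^ k ≤ n * (m - 1) := by
  classical
  have hm : m.Prime := Fact.out
  have hN0 : 0 < m - 1 := by have := hm.two_le; omega
  -- the bad set is covered by the kernels of the power maps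
  have hsub : (Finset.univ.filter (fun u : (ZMod m)ˣ => ¬ GoodUnit n u)) ⊆
      n.primeFactors.biUnion
        (fun p => Finset.univ.filter (fun u : (ZMod m)ˣ => u ^ ((m - 1) / p ^ k) = 1)) := by
    intro u hu
    rw [Finset.mem_filter] at hu
    obtain ⟨p, hp, hpu⟩ := exists_prime_of_not_goodUnit hn hmk hu.2
    rw [Finset.mem_biUnion]
    exact ⟨p, hp, Finset.mem_filter.mpr ⟨Finset.mem_univ _, hpu⟩⟩
  have h1 := (Finset.card_le_card hsub).trans Finset.card_biUnion_le
  have h2 : ∀ p ∈ n.primeFactors,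
      (Finset.univ.filter (fun u : (ZMod m)ˣ => u ^ ((m - 1) / p ^ k) = 1)).card * 2 ^ k ≤
        m - 1 := by
    intro p hp
    have hpp : p.Prime := Nat.prime_of_mem_primeFactors hp
    have hpk : p ^ k ∣ m - 1 := by
      have h3 : p ^ k ∣ n ^ k := pow_dvd_pow_of_dvd (Nat.dvd_of_mem_primeFactors hp) k
      exact (h3.trans (Dvd.intro_left 2 rfl)).trans hmk
    have hpos : 0 < (m - 1) / p ^ k :=
      Nat.div_pos (Nat.le_of_dvd hN0 hpk) (pow_pos hpp.pos k)
    have h4 := IsCyclic.card_pow_eq_one_le (α := (ZMod m)ˣ) hpos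
    have h5 : (m - 1) / p ^ k ≤ (m - 1) / 2 ^ k :=
      Nat.div_le_div_left (Nat.pow_le_pow_left hpp.two_le k) (pow_pos two_pos k)
    calc _ ≤ (m - 1) / p ^ k * 2 ^ k := Nat.mul_le_mul_right _ h4
      _ ≤ (m - 1) / 2 ^ k * 2 ^ k := Nat.mul_le_mul_right _ h5
      _ ≤ m - 1 := Nat.div_mul_le_self _ _
  have h3 : n.primeFactors.card ≤ n := by
    have hsub' : n.primeFactors ⊆ Finset.Icc 1 n := by
      intro p hp
      rw [Finset.mem_Icc]
      exact ⟨(Nat.prime_of_mem_primeFactors hp).one_le, Nat.le_of_mem_primeFactors hp⟩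
    have := Finset.card_le_card hsub'
    simpa using this
  calc _ ≤ (∑ p ∈ n.primeFactors,
        (Finset.univ.filter (fun u : (ZMod m)ˣ => u ^ ((m - 1) / p ^ k) = 1)).card) * 2 ^ k :=
        Nat.mul_le_mul_right _ h1
    _ = ∑ p ∈ n.primeFactors,
        (Finset.univ.filter (fun u : (ZMod m)ˣ => u ^ ((m - 1) / p ^ k) = 1)).card * 2 ^ k :=
        Finset.sum_mul _ _ _
    _ ≤ ∑ _p ∈ n.primeFactors, (m - 1) := Finset.sum_le_sum h2
    _ = n.primeFactors.card * (m - 1) := by rw [Finset.sum_const, smul_eq_mul]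
    _ ≤ n * (m - 1) := Nat.mul_le_mul_right _ h3

/-- Good units are at least a proportion `1 - n / 2 ^ k` of all units. -/
theorem card_good_ge {m : ℕ} [Fact m.Prime] {n k : ℕ} (hn : n ≠ 0)
    (hmk : 2 * n ^ k ∣ m - 1) [DecidablePred (fun u : (ZMod m)ˣ => GoodUnit n u)] :
    ((m - 1 : ℕ) : ℝ) * (1 - (n : ℝ) / 2 ^ k) ≤
      ((Finset.univ.filter (fun u : (ZMod m)ˣ => GoodUnit n u)).card : ℝ) := by
  classical
  have h1 := card_bad_mul_le (m := m) hn hmk
  have h2 : (Finset.univ.filter (fun u : (ZMod m)ˣ => GoodUnit n u)).card +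
      (Finset.univ.filter (fun u : (ZMod m)ˣ => ¬ GoodUnit n u)).card = m - 1 := by
    rw [Finset.card_filter_add_card_filter_not, Finset.card_univ, ZMod.card_units]
  have h3 : ((Finset.univ.filter (fun u : (ZMod m)ˣ => ¬ GoodUnit n u)).card : ℝ) * 2 ^ k ≤
      (n : ℝ) * ((m - 1 : ℕ) : ℝ) := by exact_mod_cast h1
  have h4 : ((Finset.univ.filter (fun u : (ZMod m)ˣ => GoodUnit n u)).card : ℝ) +
      ((Finset.univ.filter (fun u : (ZMod m)ˣ => ¬ GoodUnit n u)).card : ℝ) =
        ((m - 1 : ℕ) : ℝ) := by exact_mod_cast h2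
  have hpos : (0 : ℝ) < 2 ^ k := by positivity
  have h5 : ((Finset.univ.filter (fun u : (ZMod m)ˣ => ¬ GoodUnit n u)).card : ℝ) ≤
      (n : ℝ) * ((m - 1 : ℕ) : ℝ) / 2 ^ k := by
    rw [le_div_iff₀ hpos]; exact h3
  have h6 : ((m - 1 : ℕ) : ℝ) * (1 - (n : ℝ) / 2 ^ k) =
      ((m - 1 : ℕ) : ℝ) - (n : ℝ) * ((m - 1 : ℕ) : ℝ) / 2 ^ k := by ring
  rw [h6]
  linarith

end Fermat.Agent.DS.Cheb.Cross51Count
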