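/-
DS programme, brick B3-C3 (Chebotarev crossing), helper51.  Part 3: compatibility of Frobenius
elements at good primes (prime norm, prime to the discriminant).

* `frob_restrictScalars` : for `F ⊆ E ⊆ Ω`, `Ω/F` abelian, a good prime `𝔓` of `E` lies over a good
  prime `𝔭` of `F` of the same norm and `Frob_𝔓(Ω/E) = Frob_𝔭(Ω/F)`.
* `frob_restrictNormal` : for a tower `F ⊆ L ⊆ Ω` (types), a prime of `F` good for `Ω` is good for `L`
  and `Frob_𝔭(L/F) = Frob_𝔭(Ω/F)|_L`.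
-/
import Mathlib
import Fermat.Agent.DS.Cheb.Cross51Defs

set_option autoImplicit false
set_option linter.unusedSectionVars false

open IsDedekindDomain Ideal NumberField
open Fermat.Agent.CFT.SplitPrimes Fermat.Agent.CFT.NotAllSplit Fermat.Agent.CFT.ArtinSymbol
  Fermat.Agent.ES.GAL.ChebAbstract23 Fermat.Agent.ES.GAL.ChebDensity23
  Fermat.Agent.PT.GLOB.FrobGenerate19

namespace Fermat.Agent.DS.Cheb.Cross51Desc

/-! ### Intermediate field of an abelian extension -/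

section Inter

variable {F Ω : Type} [Field F] [Field Ω] [NumberField F] [NumberField Ω] [Algebra F Ω]
  [IsGalois F Ω] [IsMulCommutative (Ω ≃ₐ[F] Ω)]

/-- `Gal(Ω/E)` is abelian when `Gal(Ω/F)` is. -/
theorem isMulCommutative_top (E : IntermediateField F Ω) : IsMulCommutative (Ω ≃ₐ[E] Ω) :=
  ⟨⟨fun σ τ => by
    ext x
    exact DFunLike.congr_fun (mul_comm' (σ.restrictScalars F) (τ.restrictScalars F)) x⟩⟩

/-- A good prime of `E` lies over a good prime of `F` of the same norm, with the same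
Frobenius. -/
theorem frob_restrictScalars (E : IntermediateField F Ω) [IsMulCommutative (Ω ≃ₐ[E] Ω)] (M : ℕ)
    (𝔓 : HeightOneSpectrum (𝓞 E)) (h𝔓 : 𝔓 ∈ good E Ω M) :
    below (R := 𝓞 F) 𝔓 ∈ good F Ω M ∧
      absNorm 𝔓.asIdeal = absNorm (below (R := 𝓞 F) 𝔓).asIdeal ∧
      (frobOf E Ω 𝔓.asIdeal).restrictScalars F = frobOf F Ω (below (R := 𝓞 F) 𝔓).asIdeal := by
  classical
  obtain ⟨hℓ, hℓM⟩ := h𝔓
  -- the norm of the prime below
  have hpow := absNorm_below_pow F E 𝔓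
  have hnorm : absNorm (below (R := 𝓞 F) 𝔓).asIdeal = absNorm 𝔓.asIdeal :=
    eq_of_pow_prime hℓ hpow
  have hgood : below (R := 𝓞 F) 𝔓 ∈ good F Ω M := ⟨by rw [hnorm]; exact hℓ, by rw [hnorm]; exact hℓM⟩
  refine ⟨hgood, hnorm.symm, ?_⟩
  -- a prime of `Ω` above
  obtain ⟨P, hP, hP𝔓⟩ := exists_prime_over E Ω 𝔓.asIdeal
  have hτP : IsArithFrobAt (𝓞 E) (frobOf E Ω 𝔓.asIdeal) P :=
    isArithFrobAt_frobOf 𝔓.isPrime 𝔓.ne_bot P hP𝔓
  have hPF : P.under (𝓞 F) = (below (R := 𝓞 F) 𝔓).asIdeal := by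
    rw [below_asIdeal, ← hP𝔓]
    exact (Ideal.under_under (A := 𝓞 F) (B := 𝓞 E) P).symm
  have hcard : Nat.card (𝓞 F ⧸ P.under (𝓞 F)) = Nat.card (𝓞 E ⧸ P.under (𝓞 E)) := by
    rw [hPF, hP𝔓, ← Fermat.Agent.CFT.NotAllSplit10.absNorm_eq_card,
      ← Fermat.Agent.CFT.NotAllSplit10.absNorm_eq_card, hnorm]
  have hfrob : IsArithFrobAt (𝓞 F) ((frobOf E Ω 𝔓.asIdeal).restrictScalars F) P := by
    intro x
    have h := hτP x
    change ((frobOf E Ω 𝔓.asIdeal).restrictScalars F) • x -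
      x ^ Nat.card (𝓞 F ⧸ P.under (𝓞 F)) ∈ P
    rw [hcard]
    exact h
  -- unramifiedness over `F`
  have hqn : (absNorm (P.under (𝓞 F))).Prime := by rw [hPF]; exact hgood.1
  have hd : ¬ ((absNorm (P.under (𝓞 F)) : ℕ) : ℤ) ∣ discr Ω := by
    rw [hPF]; exact not_dvd_discr_of_not_dvd_mul hgood.2
  have hin : P.inertia (Ω ≃ₐ[F] Ω) = ⊥ :=
    inertia_eq_bot_of_not_dvd_discr P hqn (natCast_absNorm_under_mem P) hd
  exact eq_frobOf_of_isArithFrobAt (below (R := 𝓞 F) 𝔓).isPrime (below (R := 𝓞 F) 𝔓).ne_bot hPF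
    hin hfrob

end Inter

/-! ### A tower of types -/

section Tower

variable {F L Ω : Type} [Field F] [Field L] [Field Ω] [NumberField F] [NumberField L]
  [NumberField Ω] [Algebra F L] [Algebra L Ω] [Algebra F Ω] [IsScalarTower F L Ω]
  [IsGalois F L] [IsGalois F Ω] [IsMulCommutative (L ≃ₐ[F] L)] [IsMulCommutative (Ω ≃ₐ[F] Ω)]

theorem good_top_subset (M : ℕ) : good F Ω M ⊆ good F L M := by
  rintro p ⟨h1, h2⟩
  refine ⟨h1, fun h => h2 (h.trans (Nat.mul_dvd_mul_left M ?_))⟩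
  exact Int.natAbs_dvd_natAbs.mpr (discr_dvd_discr L Ω)

/-- The Frobenius of `L/F` at a prime good for `Ω` is the restriction of the Frobenius of
`Ω/F`. -/
theorem frob_restrictNormal (M : ℕ) (p : HeightOneSpectrum (𝓞 F)) (hp : p ∈ good F Ω M) :
    frobOf F L p.asIdeal = AlgEquiv.restrictNormalHom L (frobOf F Ω p.asIdeal) := by
  classical
  obtain ⟨P, hP, hPp⟩ := exists_prime_over F Ω p.asIdeal
  have hτ : IsArithFrobAt (𝓞 F) (frobOf F Ω p.asIdeal) P :=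
    isArithFrobAt_frobOf p.isPrime p.ne_bot P hPp
  have hres := Fermat.Agent.CFT.FrobFunct.isArithFrobAt_restrictNormal (K := F) (L := L) (M := Ω) hτ
  have hKK : (P.under (𝓞 L)).under (𝓞 F) = p.asIdeal := by
    rw [Ideal.under_under]; exact hPp
  have hqn : (absNorm ((P.under (𝓞 L)).under (𝓞 F))).Prime := by rw [hKK]; exact hp.1
  have hd : ¬ ((absNorm ((P.under (𝓞 L)).under (𝓞 F)) : ℕ) : ℤ) ∣ discr L := by
    rw [hKK]
    exact not_dvd_discr_of_not_dvd_mul (good_top_subset (L := L) M hp).2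
  have hin : (P.under (𝓞 L)).inertia (L ≃ₐ[F] L) = ⊥ :=
    inertia_eq_bot_of_not_dvd_discr (P.under (𝓞 L)) hqn
      (natCast_absNorm_under_mem (P.under (𝓞 L))) hd
  exact (eq_frobOf_of_isArithFrobAt p.isPrime p.ne_bot hKK hin hres).symm

end Tower

end Fermat.Agent.DS.Cheb.Cross51Desc
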