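/-
DS programme, brick B3-C3 (Chebotarev crossing), helper51.  Part 4: the crossing step for one
pair `(σ, u)`.

`F ⊆ L ⊆ Ω = L(ζ_m)`, `L/F` abelian of degree `n`, `m` an odd prime not dividing `disc L`, so
`Gal(Ω/F) = Gal(L/F) × (ℤ/m)ˣ` via `(ρ, χ)`.  For `σ ∈ Gal(L/F)` and an `n`-good unit `u`, let
`g = (σ, u)`, `c = (1, -1)`, `C = ⟨g, c⟩`, `E = Ω^C`.  Then `Ω = E(ζ_m)`, the `±`-subgroup of
`Gal(Ω/E)` has order `2`, and a good prime of `E` whose Frobenius lies in `g · {±}` lies over a good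
prime `p` of `F` of the same norm with `ρ(Frob_p) = σ`, `χ(Frob_p) = ± u`.  Feeding this into
`C2Statement` over `E` gives `pair_lower`.
-/
import Mathlib
import Fermat.Agent.CFT.CycloDisjoint
import Fermat.Agent.DS.Cheb.Cross51Count
import Fermat.Agent.DS.Cheb.Cross51Desc

set_option autoImplicit false
set_option linter.unusedSectionVars false

open IsDedekindDomain Ideal NumberField
open Fermat.Agent.CFT.SplitPrimes Fermat.Agent.CFT.NotAllSplit Fermat.Agent.CFT.ArtinSymbol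
  Fermat.Agent.ES.GAL.ChebAbstract23 Fermat.Agent.ES.GAL.ChebDensity23
  Fermat.Agent.CFT.CycloDisjoint
  Fermat.Agent.DS.Cheb.Cross51Count Fermat.Agent.DS.Cheb.Cross51Defs
  Fermat.Agent.DS.Cheb.Cross51Desc

namespace Fermat.Agent.DS.Cheb.Cross51Pair

/-! ### Roots of unity -/

section Roots

variable {Ω : Type*} [Field Ω] {m : ℕ} [NeZero m] {ζ : Ω}

theorem pow_val_neg_one (hζ : IsPrimitiveRoot ζ m) :
    ζ ^ ((-1 : (ZMod m)ˣ) : ZMod m).val = ζ⁻¹ := by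
  obtain ⟨k, rfl⟩ : ∃ k, m = k + 1 := ⟨m - 1, by have := NeZero.pos m; omega⟩
  rw [Units.val_neg, Units.val_one, ZMod.val_neg_one]
  apply eq_inv_of_mul_eq_one_left
  rw [← pow_succ]
  exact hζ.pow_eq_one

theorem inv_ne_self (hζ : IsPrimitiveRoot ζ m) (h3 : 3 ≤ m) : ζ⁻¹ ≠ ζ := by
  intro h
  have hζ0 : ζ ≠ 0 := hζ.ne_zero (NeZero.ne m)
  have h2 : ζ ^ 2 = 1 := by
    rw [pow_two]
    nth_rewrite 1 [← h]
    exact inv_mul_cancel₀ hζ0
  have := hζ.dvd_of_pow_eq_one 2 h2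
  have := Nat.le_of_dvd two_pos this
  omega

end Roots

/-! ### Restriction of scalars as a homomorphism -/

section Up

variable {F Ω : Type*} [Field F] [Field Ω] [Algebra F Ω]

/-- `Gal(Ω/E) → Gal(Ω/F)`. -/
def upHom (E : IntermediateField F Ω) : (Ω ≃ₐ[E] Ω) →* (Ω ≃ₐ[F] Ω) where
  toFun h := h.restrictScalars F
  map_one' := rfl
  map_mul' _ _ := rfl

theorem upHom_apply (E : IntermediateField F Ω) (h : Ω ≃ₐ[E] Ω) (x : Ω) : upHom E h x = h x := rfl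

theorem upHom_injective (E : IntermediateField F Ω) : Function.Injective (upHom E) := by
  intro a b hab
  ext x
  exact DFunLike.congr_fun hab x

theorem upHom_mem_fixingSubgroup (E : IntermediateField F Ω) (h : Ω ≃ₐ[E] Ω) :
    upHom E h ∈ E.fixingSubgroup := by
  rw [IntermediateField.mem_fixingSubgroup_iff]
  intro x hx
  exact h.commutes ⟨x, hx⟩

theorem exists_upHom_eq (E : IntermediateField F Ω) {g : Ω ≃ₐ[F] Ω} (hg : g ∈ E.fixingSubgroup) :
    ∃ g' : Ω ≃ₐ[E] Ω, upHom E g' = g :=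
  ⟨E.fixingSubgroupEquiv ⟨g, hg⟩, by ext x; rfl⟩

end Up

/-! ### The crossing step -/

section Pair

variable {F L Ω : Type} [Field F] [Field L] [Field Ω] [NumberField F] [NumberField L]
  [NumberField Ω] [Algebra F L] [Algebra L Ω] [Algebra F Ω] [IsScalarTower F L Ω]
  [IsGalois F L] [IsMulCommutative (L ≃ₐ[F] L)] [IsGalois F Ω] [IsMulCommutative (Ω ≃ₐ[F] Ω)]
  {m : ℕ} [NeZero m] [IsCyclotomicExtension {m} L Ω] {ζ : Ω}

/-- The primes of `F`, good for `Ω`, whose Frobenius in `Ω/F` restricts to `σ` on `L` and has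
cyclotomic character `± u`. -/
def TF (hζ : IsPrimitiveRoot ζ m) (M : ℕ) (σ : L ≃ₐ[F] L) (u : (ZMod m)ˣ) :
    Set (HeightOneSpectrum (𝓞 F)) :=
  {p | p ∈ good F Ω M ∧ AlgEquiv.restrictNormalHom L (frobOf F Ω p.asIdeal) = σ ∧
    (hζ.autToPow F (frobOf F Ω p.asIdeal) = u ∨ hζ.autToPow F (frobOf F Ω p.asIdeal) = -u)}

/-- Structure of the elements of `⟨g, c⟩`. -/
theorem exists_zpow_of_mem_closure (hζ : IsPrimitiveRoot ζ m) {σ : L ≃ₐ[F] L} {u : (ZMod m)ˣ}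
    {g c : Ω ≃ₐ[F] Ω} (hg1 : AlgEquiv.restrictNormalHom L g = σ) (hg2 : hζ.autToPow F g = u)
    (hc1 : AlgEquiv.restrictNormalHom L c = 1) (hc2 : hζ.autToPow F c = -1)
    {h : Ω ≃ₐ[F] Ω} (hh : h ∈ Subgroup.closure ({g, c} : Set (Ω ≃ₐ[F] Ω))) :
    ∃ a : ℤ, AlgEquiv.restrictNormalHom L h = σ ^ a ∧ (hζ.autToPow F h) ^ 2 = (u ^ 2) ^ a := by
  induction hh using Subgroup.closure_induction with
  | mem x hx =>
    rcases hx with rfl | hx
    · exact ⟨1, by rw [hg1, zpow_one], by rw [hg2, zpow_one]⟩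
    · rw [Set.mem_singleton_iff] at hx
      subst hx
      exact ⟨0, by rw [hc1, zpow_zero], by rw [hc2, zpow_zero]; simp⟩
  | one => exact ⟨0, by rw [map_one, zpow_zero], by rw [map_one, zpow_zero, one_pow]⟩
  | mul x y _ _ hx hy =>
    obtain ⟨a, ha1, ha2⟩ := hx
    obtain ⟨b, hb1, hb2⟩ := hy
    exact ⟨a + b, by rw [map_mul, ha1, hb1, zpow_add], by rw [map_mul, mul_pow, ha2, hb2, zpow_add]⟩
  | inv x _ hx =>
    obtain ⟨a, ha1, ha2⟩ := hx
    exact ⟨-a, by rw [map_inv, ha1, zpow_neg], by rw [map_inv, inv_pow, ha2, zpow_neg]⟩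

/-- In `⟨g, c⟩`, an element with cyclotomic character `± 1` is trivial on `L`. -/
theorem restrict_eq_one_of_mem_closure [Fact m.Prime] (hζ : IsPrimitiveRoot ζ m)
    {σ : L ≃ₐ[F] L} {u : (ZMod m)ˣ}
    (hu : GoodUnit (Module.finrank F L) u)
    {g c : Ω ≃ₐ[F] Ω} (hg1 : AlgEquiv.restrictNormalHom L g = σ) (hg2 : hζ.autToPow F g = u)
    (hc1 : AlgEquiv.restrictNormalHom L c = 1) (hc2 : hζ.autToPow F c = -1)
    {h : Ω ≃ₐ[F] Ω} (hh : h ∈ Subgroup.closure ({g, c} : Set (Ω ≃ₐ[F] Ω)))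
    (hχ : hζ.autToPow F h = 1 ∨ hζ.autToPow F h = -1) :
    AlgEquiv.restrictNormalHom L h = 1 := by
  obtain ⟨a, ha1, ha2⟩ := exists_zpow_of_mem_closure hζ hg1 hg2 hc1 hc2 hh
  have h1 : (hζ.autToPow F h) ^ 2 = 1 := by
    rcases hχ with h | h <;> rw [h] <;> simp
  rw [h1] at ha2
  -- `(u ^ 2) ^ |a| = 1`
  have h2 : (u ^ 2) ^ a.natAbs = 1 := by
    have hd : (orderOf (u ^ 2) : ℤ) ∣ a := orderOf_dvd_iff_zpow_eq_one.mpr ha2.symm
    exact orderOf_dvd_iff_pow_eq_one.mp (Int.natCast_dvd.mp hd)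
  have h3 : (u ^ a.natAbs) ^ 2 = 1 := by rw [← pow_mul, mul_comm, pow_mul]; exact h2
  have h4 : u ^ a.natAbs = 1 ∨ u ^ a.natAbs = -1 := by
    have h5 : ((u ^ a.natAbs : (ZMod m)ˣ) : ZMod m) * ((u ^ a.natAbs : (ZMod m)ˣ) : ZMod m) = 1 := by
      rw [← Units.val_mul, ← pow_two, h3, Units.val_one]
    rcases mul_self_eq_one_iff.mp h5 with h | h
    · left; exact Units.ext h
    · right; exact Units.ext (by rw [h, Units.val_neg, Units.val_one])
  have h6 : Module.finrank F L ∣ a.natAbs := hu _ h4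
  have h7 : ((Module.finrank F L : ℕ) : ℤ) ∣ a := Int.natCast_dvd.mpr h6
  obtain ⟨k, rfl⟩ := h7
  rw [ha1, zpow_mul, zpow_natCast, ← IsGalois.card_aut_eq_finrank F L, pow_card_eq_one', one_zpow]

/-- **The crossing field.**  For `g = (σ, u)` with `u` an `n`-good unit there are an intermediate
field `E` of `Ω/F` and `gE ∈ Gal(Ω/E)` such that `Ω = E(ζ)`, `2 [E : F] [Gal(Ω/E) : ±] ≤ [Ω : F]`, and
the good primes of `E` with Frobenius in `gE · {±}` (resp. `gE⁻¹ · {±}`) lie over primes in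
`TF σ u` (resp. `TF σ⁻¹ u⁻¹`) of the same norm. -/
theorem cross_core (hζ : IsPrimitiveRoot ζ m)
    (hm : Nat.Coprime m (discr L).natAbs) (hmp : m.Prime) (h3 : 3 ≤ m) (M : ℕ)
    (σ : L ≃ₐ[F] L) (u : (ZMod m)ˣ) (hu : GoodUnit (Module.finrank F L) u) :
    ∃ (E : IntermediateField F Ω) (gE : Ω ≃ₐ[E] Ω),
      (∀ h' : Ω ≃ₐ[E] Ω, h' ζ = ζ → h' = 1) ∧
      2 * (Module.finrank F E * (pmSubgroup E ζ).index) ≤ Module.finrank F Ω ∧
      (∀ P ∈ {p : HeightOneSpectrum (𝓞 E) | p ∈ good E Ω M ∧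
          (frobOf E Ω p.asIdeal)⁻¹ * gE ∈ pmSubgroup E ζ},
        below (R := 𝓞 F) P ∈ TF (F := F) (L := L) hζ M σ u ∧
          absNorm P.asIdeal = absNorm (below (R := 𝓞 F) P).asIdeal) ∧
      (∀ P ∈ {p : HeightOneSpectrum (𝓞 E) | p ∈ good E Ω M ∧
          (frobOf E Ω p.asIdeal)⁻¹ * gE⁻¹ ∈ pmSubgroup E ζ},
        below (R := 𝓞 F) P ∈ TF (F := F) (L := L) hζ M σ⁻¹ u⁻¹ ∧
          absNorm P.asIdeal = absNorm (below (R := 𝓞 F) P).asIdeal) := by
  classical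
  have : Fact m.Prime := ⟨hmp⟩
  obtain ⟨g, hg1, hg2⟩ := exists_restrict_autToPow (K := F) hζ hm σ u
  obtain ⟨c, hc1, hc2⟩ := exists_restrict_autToPow (K := F) hζ hm (1 : L ≃ₐ[F] L) (-1)
  set C : Subgroup (Ω ≃ₐ[F] Ω) := Subgroup.closure ({g, c} : Set (Ω ≃ₐ[F] Ω)) with hC
  have hgC : g ∈ C := Subgroup.subset_closure (Set.mem_insert _ _)
  have hcC : c ∈ C := Subgroup.subset_closure (Set.mem_insert_of_mem _ rfl)
  have hkey : ∀ h ∈ C, (hζ.autToPow F h = 1 ∨ hζ.autToPow F h = -1) →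
      AlgEquiv.restrictNormalHom L h = 1 :=
    fun h hh hχ => restrict_eq_one_of_mem_closure hζ hu hg1 hg2 hc1 hc2 hh hχ
  -- the fixed field
  set E : IntermediateField F Ω := IntermediateField.fixedField C with hE
  have hfix : E.fixingSubgroup = C := IntermediateField.fixingSubgroup_fixedField C
  have : IsMulCommutative (Ω ≃ₐ[E] Ω) := isMulCommutative_top E
  have hupC : ∀ h' : Ω ≃ₐ[E] Ω, upHom E h' ∈ C := fun h' => hfix ▸ upHom_mem_fixingSubgroup E h'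
  -- translation of the `±` condition
  have hpm : ∀ h' : Ω ≃ₐ[E] Ω, h' ∈ pmSubgroup E ζ →
      (hζ.autToPow F (upHom E h') = 1 ∨ hζ.autToPow F (upHom E h') = -1) := by
    intro h' hh'
    rcases hh' with hh' | hh'
    · left
      rw [autToPow_eq_iff, pow_val_one hζ]
      exact hh'
    · right
      rw [autToPow_eq_iff, pow_val_neg_one hζ]
      exact hh'
  -- `Ω = E(ζ)`
  have htop : ∀ h' : Ω ≃ₐ[E] Ω, h' ζ = ζ → h' = 1 := by
    intro h' hh'
    have hχ : hζ.autToPow F (upHom E h') = 1 := by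
      rw [autToPow_eq_iff, pow_val_one hζ]
      exact hh'
    have hρ := hkey _ (hupC h') (Or.inl hχ)
    have h1 : upHom E h' = 1 := eq_one_of_restrict_of_autToPow (L := L) hζ _ hρ hχ
    exact upHom_injective E (by rw [h1, map_one])
  -- the elements `g`, `c` over `E`
  obtain ⟨gE, hgE⟩ := exists_upHom_eq E (hfix ▸ hgC : g ∈ E.fixingSubgroup)
  obtain ⟨cE, hcE⟩ := exists_upHom_eq E (hfix ▸ hcC : c ∈ E.fixingSubgroup)
  have hcζ : cE ζ = ζ⁻¹ := by
    have h1 : c ζ = ζ ^ ((-1 : (ZMod m)ˣ) : ZMod m).val := (autToPow_eq_iff hζ c (-1)).mp hc2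
    rw [pow_val_neg_one hζ, ← hcE] at h1
    exact h1
  have hcJ : cE ∈ pmSubgroup E ζ := Or.inr hcζ
  have hc1' : cE ≠ 1 := by
    intro h
    rw [h] at hcζ
    exact inv_ne_self hζ h3 hcζ.symm
  -- descent of primes, generic in the element
  have hmapG : ∀ (gE' : Ω ≃ₐ[E] Ω) (σ' : L ≃ₐ[F] L) (u' : (ZMod m)ˣ),
      AlgEquiv.restrictNormalHom L (upHom E gE') = σ' → hζ.autToPow F (upHom E gE') = u' →
      ∀ P ∈ {p : HeightOneSpectrum (𝓞 E) | p ∈ good E Ω M ∧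
          (frobOf E Ω p.asIdeal)⁻¹ * gE' ∈ pmSubgroup E ζ},
        below (R := 𝓞 F) P ∈ TF (F := F) (L := L) hζ M σ' u' ∧
          absNorm P.asIdeal = absNorm (below (R := 𝓞 F) P).asIdeal := by
    rintro gE' σ' u' hσ' hu' P ⟨hPgood, hPJ⟩
    obtain ⟨hgood, hnorm, hfrob⟩ := frob_restrictScalars E M P hPgood
    refine ⟨⟨hgood, ?_⟩, hnorm⟩
    set φ := frobOf F Ω (below (R := 𝓞 F) P).asIdeal with hφ
    have hup : upHom E ((frobOf E Ω P.asIdeal)⁻¹ * gE') = φ⁻¹ * upHom E gE' := by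
      rw [map_mul, map_inv]
      congr 2
    have hh := hpm _ hPJ
    have hρ := hkey _ (hupC _) hh
    rw [hup] at hh hρ
    rw [map_mul, map_inv, hσ'] at hρ
    rw [map_mul, map_inv, hu'] at hh
    constructor
    · exact (inv_mul_eq_one.mp hρ)
    · rcases hh with hh | hh
      · left
        exact (inv_mul_eq_one.mp hh)
      · right
        have : hζ.autToPow F φ = u' * (-1)⁻¹ := by
          rw [← hh]; group
        rw [this]; simp
  -- index arithmetic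
  have hidx : 2 * (Module.finrank F E * (pmSubgroup E ζ).index) ≤ Module.finrank F Ω := by
    have h1 : Module.finrank F E * Module.finrank E Ω = Module.finrank F Ω :=
      Module.finrank_mul_finrank F E Ω
    have h2' : Nat.card (Ω ≃ₐ[E] Ω) = Module.finrank E Ω := IsGalois.card_aut_eq_finrank E Ω
    have h3' := Subgroup.index_mul_card (pmSubgroup E ζ)
    have h4 : 2 ≤ Nat.card (pmSubgroup E ζ) := by
      have hne : pmSubgroup E ζ ≠ ⊥ := by
        intro hbot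
        rw [hbot, Subgroup.mem_bot] at hcJ
        exact hc1' hcJ
      exact (Subgroup.one_lt_card_iff_ne_bot _).mpr hne
    rw [← h1, ← h2', ← h3']
    calc 2 * (Module.finrank F E * (pmSubgroup E ζ).index)
        = Module.finrank F E * ((pmSubgroup E ζ).index * 2) := by ring
      _ ≤ Module.finrank F E * ((pmSubgroup E ζ).index * Nat.card (pmSubgroup E ζ)) :=
          Nat.mul_le_mul_left _ (Nat.mul_le_mul_left _ h4)
  refine ⟨E, gE, htop, hidx, hmapG gE σ u (by rw [hgE, hg1]) (by rw [hgE, hg2]),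
    hmapG gE⁻¹ σ⁻¹ u⁻¹ (by rw [map_inv, map_inv, hgE, hg1]) (by rw [map_inv, map_inv, hgE, hg2])⟩

/-- **The crossing step for one pair**, element-wise form. -/
theorem pair_lower (h2 : C2Statement) (hζ : IsPrimitiveRoot ζ m)
    (hm : Nat.Coprime m (discr L).natAbs) (hmp : m.Prime) (h3 : 3 ≤ m) (M : ℕ) (hM : M ≠ 0)
    (σ : L ≃ₐ[F] L) (u : (ZMod m)ˣ) (hu : GoodUnit (Module.finrank F L) u) :
    ∃ B : ℝ, ∀ s ∈ Set.Ioc (1 : ℝ) 2,
      2 * (Real.log (1 / (s - 1)) - B) ≤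
        (Module.finrank F Ω : ℝ) * wsum (xP F s) (TF (F := F) (L := L) hζ M σ u) := by
  classical
  obtain ⟨E, gE, htop, hidx, hmap, -⟩ := cross_core (F := F) (L := L) hζ hm hmp h3 M σ u hu
  have : IsMulCommutative (Ω ≃ₐ[E] Ω) := isMulCommutative_top E
  obtain ⟨B, hB⟩ := h2 E Ω m hmp ζ hζ htop M hM gE
  refine ⟨B, fun s hs => ?_⟩
  have hx0 : ∀ p, 0 ≤ xP F s p := fun p => (xP_pos F s p).le
  have hw0 : 0 ≤ wsum (xP F s) (TF (F := F) (L := L) hζ M σ u) := wsum_nonneg hx0 _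
  have h5 := hB s hs
  have h6 := wsum_fiber_le F E _ (TF (F := F) (L := L) hζ M σ u) hmap hs.1
  have h7 : (2 : ℝ) * ((Module.finrank F E : ℝ) * ((pmSubgroup E ζ).index : ℝ)) ≤
      (Module.finrank F Ω : ℝ) := by exact_mod_cast hidx
  have hJ0 : (0 : ℝ) ≤ ((pmSubgroup E ζ).index : ℝ) := Nat.cast_nonneg _
  have h8 := mul_le_mul_of_nonneg_left h6 hJ0
  have h9 := mul_le_mul_of_nonneg_right h7 hw0
  nlinarith [h5, h8, h9]

/-- **The crossing step for one pair**, symmetric form. -/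
theorem pair_lower_sym (h2 : C2SymStatement) (hζ : IsPrimitiveRoot ζ m)
    (hm : Nat.Coprime m (discr L).natAbs) (hmp : m.Prime) (h3 : 3 ≤ m) (M : ℕ) (hM : M ≠ 0)
    (σ : L ≃ₐ[F] L) (u : (ZMod m)ˣ) (hu : GoodUnit (Module.finrank F L) u) :
    ∃ B : ℝ, ∀ s ∈ Set.Ioc (1 : ℝ) 2,
      2 * (2 * (Real.log (1 / (s - 1)) - B)) ≤
        (Module.finrank F Ω : ℝ) * (wsum (xP F s) (TF (F := F) (L := L) hζ M σ u) +
          wsum (xP F s) (TF (F := F) (L := L) hζ M σ⁻¹ u⁻¹)) := by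
  classical
  obtain ⟨E, gE, htop, hidx, hmap, hmap'⟩ := cross_core (F := F) (L := L) hζ hm hmp h3 M σ u hu
  have : IsMulCommutative (Ω ≃ₐ[E] Ω) := isMulCommutative_top E
  obtain ⟨B, hB⟩ := h2 E Ω m hmp ζ hζ htop M hM gE
  refine ⟨B, fun s hs => ?_⟩
  have hx0 : ∀ p, 0 ≤ xP F s p := fun p => (xP_pos F s p).le
  have hw0 : 0 ≤ wsum (xP F s) (TF (F := F) (L := L) hζ M σ u) := wsum_nonneg hx0 _
  have hw0' : 0 ≤ wsum (xP F s) (TF (F := F) (L := L) hζ M σ⁻¹ u⁻¹) := wsum_nonneg hx0 _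
  have h5 := hB s hs
  have h6 := wsum_fiber_le F E _ (TF (F := F) (L := L) hζ M σ u) hmap hs.1
  have h6' := wsum_fiber_le F E _ (TF (F := F) (L := L) hζ M σ⁻¹ u⁻¹) hmap' hs.1
  have h7 : (2 : ℝ) * ((Module.finrank F E : ℝ) * ((pmSubgroup E ζ).index : ℝ)) ≤
      (Module.finrank F Ω : ℝ) := by exact_mod_cast hidx
  have hJ0 : (0 : ℝ) ≤ ((pmSubgroup E ζ).index : ℝ) := Nat.cast_nonneg _
  have h8 := mul_le_mul_of_nonneg_left (add_le_add h6 h6') hJ0
  have h9 := mul_le_mul_of_nonneg_right h7 (add_nonneg hw0 hw0')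
  nlinarith [h5, h8, h9]

end Pair

end Fermat.Agent.DS.Cheb.Cross51Pair
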