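/-
DS programme, Chebotarev piece B (cyclotomic symmetric density), Galois bridge (helper51), written
against helper20's `CycloChar20.normChar`.

`E` a number field, `Ω ∋ ζ` a primitive `m`-th root of unity (`m` prime), `Ω/E` Galois.
* `normChar_eq_of_isArithFrobAt` : at a prime `q ∌ m` of `E`, `normChar E χ q = χ (κ σ)` for every
  Frobenius `σ` at a prime of `Ω` over `q` (`κ` = cyclotomic character `autToPow`).
* `normChar_eq_frobOf` : the same with `σ = frobOf E Ω q` (abelian case); `natCast_notMem_of_prime`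
  provides `m ∉ q` for primes of prime norm `≠ m`.
* `exists_normChar_ne_one` : if `ψ = χ ∘ κ` is a nontrivial character of `Gal(Ω/E)` (abelian) then
  `normChar E χ 𝔟 ≠ 1` for some nonzero `𝔟` prime to `m` (hypothesis `hnt` of `rayL_bounded`).
-/
import Mathlib
import Fermat.Agent.CFT.CycloArtin
import Fermat.Agent.CFT.ArtinSymbol
import Fermat.Agent.PT.GLOB.FrobGenerate19
import Fermat.Agent.DS.Cheb.CycloChar20

set_option autoImplicit false
set_option linter.unusedSectionVars false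

open IsDedekindDomain Ideal NumberField
open Fermat.Agent.CFT.ArtinSymbol Fermat.Agent.CFT.CycloRecip Fermat.Agent.CFT.CycloArtin
  Fermat.Agent.PT.GLOB.FrobGenerate19 Fermat.Agent.DS.Cheb.CycloChar20

namespace Fermat.Agent.DS.Cheb.CycloBridge51

variable {E Ω : Type} [Field E] [Field Ω] [NumberField E] [NumberField Ω] [Algebra E Ω]
  [IsGalois E Ω] {m : ℕ} [Fact m.Prime] {ζ : Ω}

/-- A nonzero prime not containing `m` is comaximal with `(m)`. -/
theorem sup_span_eq_top_of_notMem (q : Ideal (𝓞 E)) [q.IsPrime] (hq0 : q ≠ ⊥)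
    (hm : (m : 𝓞 E) ∉ q) : q ⊔ Ideal.span {(m : 𝓞 E)} = ⊤ := by
  have hmax : q.IsMaximal := Ring.DimensionLEOne.maximalOfPrime hq0 inferInstance
  by_contra hne
  have h1 : q ⊔ Ideal.span {(m : 𝓞 E)} = q := (hmax.eq_of_le hne le_sup_left).symm
  apply hm
  rw [← h1]
  exact Ideal.mem_sup_right (Ideal.mem_span_singleton_self _)

/-- A prime of prime norm `ℓ ≠ m` does not contain `m`. -/
theorem natCast_notMem_of_prime (q : Ideal (𝓞 E)) [q.IsPrime] (hq : (absNorm q).Prime)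
    (hne : absNorm q ≠ m) : (m : 𝓞 E) ∉ q := by
  intro hmem
  have hℓ : ((absNorm q : ℕ) : 𝓞 E) ∈ q := Ideal.absNorm_mem q
  have hmp : m.Prime := Fact.out
  have hcop : Nat.Coprime (absNorm q) m := (Nat.coprime_primes hq hmp).mpr hne
  have h1 : ((Nat.gcd (absNorm q) m : ℕ) : ℤ) =
      (absNorm q : ℤ) * Nat.gcdA (absNorm q) m + (m : ℤ) * Nat.gcdB (absNorm q) m :=
    Nat.gcd_eq_gcd_ab _ _
  rw [hcop, Nat.cast_one] at h1
  have h2 : (1 : 𝓞 E) = ((absNorm q : ℕ) : 𝓞 E) * ((Nat.gcdA (absNorm q) m : ℤ) : 𝓞 E) +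
      (m : 𝓞 E) * ((Nat.gcdB (absNorm q) m : ℤ) : 𝓞 E) := by
    have := congrArg (fun z : ℤ => (z : 𝓞 E)) h1
    push_cast at this
    exact this
  have h3 : (1 : 𝓞 E) ∈ q := by
    rw [h2]
    exact q.add_mem (q.mul_mem_right _ hℓ) (q.mul_mem_right _ hmem)
  exact (Ideal.IsPrime.ne_top ‹q.IsPrime›) ((Ideal.eq_top_iff_one q).mpr h3)

/-- **Link**: at a prime `q ∌ m`, the norm character is the character of the Frobenius. -/
theorem normChar_eq_of_isArithFrobAt (hζ : IsPrimitiveRoot ζ m) (χ : (ZMod m)ˣ →* ℂˣ)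
    (q : Ideal (𝓞 E)) [q.IsPrime] (hq0 : q ≠ ⊥) (hm : (m : 𝓞 E) ∉ q)
    (Q : Ideal (𝓞 Ω)) (hQq : Q.under (𝓞 E) = q) {σ : Ω ≃ₐ[E] Ω}
    (hσ : IsArithFrobAt (𝓞 E) σ Q) :
    normChar E χ q = ((χ (hζ.autToPow E σ) : ℂˣ) : ℂ) := by
  have hc : IsCoprime q (modulus (F := E) m) := by
    rw [Ideal.isCoprime_iff_sup_eq]
    exact sup_span_eq_top_of_notMem q hq0 hm
  have : Q.LiesOver q := ⟨hQq.symm⟩
  have h := autToPow_of_isArithFrobAt' hζ hc hσ
  rw [normChar_apply, ← h, MulChar.ofUnitHom_coe]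

/-- **Link**, abelian case, with `frobOf`. -/
theorem normChar_eq_frobOf [IsMulCommutative (Ω ≃ₐ[E] Ω)] (hζ : IsPrimitiveRoot ζ m)
    (χ : (ZMod m)ˣ →* ℂˣ) (p : HeightOneSpectrum (𝓞 E)) (hm : (m : 𝓞 E) ∉ p.asIdeal) :
    normChar E χ p.asIdeal = ((χ (hζ.autToPow E (frobOf E Ω p.asIdeal)) : ℂˣ) : ℂ) := by
  obtain ⟨P, hP, hPp⟩ := exists_prime_over E Ω p.asIdeal
  have := p.isPrime
  exact normChar_eq_of_isArithFrobAt hζ χ p.asIdeal p.ne_bot hm P hPp
    (isArithFrobAt_frobOf p.isPrime p.ne_bot P hPp)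

/-- **Nontriviality**: a nontrivial character `ψ = χ ∘ κ` of the abelian group `Gal(Ω/E)` gives a
norm character which is not identically `1` on the ideals prime to `m`. -/
theorem exists_normChar_ne_one [IsMulCommutative (Ω ≃ₐ[E] Ω)] (hζ : IsPrimitiveRoot ζ m)
    (χ : (ZMod m)ˣ →* ℂˣ) (ψ : (Ω ≃ₐ[E] Ω) →* ℂˣ) (hχψ : ∀ h, χ (hζ.autToPow E h) = ψ h)
    (hψ : ψ ≠ 1) :
    ∃ 𝔟 : Ideal (𝓞 E), 𝔟 ≠ ⊥ ∧ 𝔟 ⊔ Ideal.span {(m : 𝓞 E)} = ⊤ ∧ normChar E χ 𝔟 ≠ 1 := by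
  classical
  have hmp : m.Prime := Fact.out
  have htop := closure_frobSet_eq_top E Ω (fun σ τ => mul_comm' σ τ) m hmp.ne_zero
  -- some Frobenius is not killed by `ψ`
  have hex : ∃ σ ∈ frobSet E Ω m, ψ σ ≠ 1 := by
    by_contra hcon
    push Not at hcon
    apply hψ
    have hle : Subgroup.closure (frobSet E Ω m) ≤ ψ.ker := by
      rw [Subgroup.closure_le]
      intro σ hσ
      exact MonoidHom.mem_ker.mpr (hcon σ hσ)
    rw [htop] at hle
    ext σ : 1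
    exact MonoidHom.mem_ker.mp (hle (Subgroup.mem_top σ))
  obtain ⟨σ, ⟨q, P, hq, hqn, hqm, hP, hPq, -, hσP⟩, hσ1⟩ := hex
  have hq0 : q ≠ ⊥ := by
    rintro rfl
    rw [Ideal.absNorm_bot] at hqn
    exact Nat.not_prime_zero hqn
  have hne : absNorm q ≠ m := fun h => hqm (h ▸ dvd_rfl)
  have hmq : (m : 𝓞 E) ∉ q := natCast_notMem_of_prime q hqn hne
  refine ⟨q, hq0, sup_span_eq_top_of_notMem q hq0 hmq, ?_⟩
  rw [normChar_eq_of_isArithFrobAt hζ χ q hq0 hmq P hPq hσP, hχψ]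
  intro h
  exact hσ1 (Units.ext h)

end Fermat.Agent.DS.Cheb.CycloBridge51
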