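/-
Programme DS (S48), brick B3-C2 (helper30), part 1: **Euler product and logarithm of the Dirichlet
series of a bounded completely multiplicative function on the ideals of a number field.**

`K` a number field, `g : Ideal (𝓞 K) →*₀ ℂ` with `‖g 𝔞‖ ≤ 1`, `s > 1` real.

* `LSer g s = ∑' 𝔞, g 𝔞 * N(𝔞)^(-s)`;
* `lser_eq_exp` : `LSer g s = exp (∑' P, log (1 - g P * N(P)^(-s))⁻¹)`;
* `abs_log_norm_lser_sub_le` :
  `|log ‖LSer g s‖ - ∑' P, re (g P) * N(P)^(-s)| ≤ primeZeta K 2`.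
-/
import Mathlib
import Fermat.Agent.CFT.IdealEuler
import Fermat.Agent.CFT.SplitPrimes

set_option autoImplicit false
set_option linter.unusedSectionVars false

open IsDedekindDomain Ideal NumberField Filter Topology
open Fermat.Agent.CFT.SplitPrimes Fermat.Agent.CFT.IdealEuler Fermat.Agent.CFT.IdealZetaSum

namespace Fermat.Agent.DS.Cheb.Euler30

noncomputable section

variable {K : Type*} [Field K] [NumberField K]

/-- `g 𝔞 * N(𝔞)^(-s)` as a completely multiplicative function. -/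
def tw (g : Ideal (𝓞 K) →*₀ ℂ) (s : ℝ) : Ideal (𝓞 K) →*₀ ℂ where
  toFun 𝔞 := g 𝔞 * (((absNorm 𝔞 : ℝ) ^ (-s) : ℝ) : ℂ)
  map_zero' := by
    show g 0 * (((absNorm (0 : Ideal (𝓞 K)) : ℝ) ^ (-s) : ℝ) : ℂ) = 0
    rw [map_zero, zero_mul]
  map_one' := by
    show g 1 * (((absNorm (1 : Ideal (𝓞 K)) : ℝ) ^ (-s) : ℝ) : ℂ) = 1
    rw [map_one, map_one, Nat.cast_one, Real.one_rpow, Complex.ofReal_one, mul_one]
  map_mul' a b := by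
    show g (a * b) * (((absNorm (a * b) : ℝ) ^ (-s) : ℝ) : ℂ) =
      g a * (((absNorm a : ℝ) ^ (-s) : ℝ) : ℂ) * (g b * (((absNorm b : ℝ) ^ (-s) : ℝ) : ℂ))
    rw [map_mul, map_mul, Nat.cast_mul, Real.mul_rpow (Nat.cast_nonneg _) (Nat.cast_nonneg _)]
    push_cast
    ring

theorem tw_apply (g : Ideal (𝓞 K) →*₀ ℂ) (s : ℝ) (𝔞 : Ideal (𝓞 K)) :
    tw g s 𝔞 = g 𝔞 * (((absNorm 𝔞 : ℝ) ^ (-s) : ℝ) : ℂ) := rfl

/-- The Dirichlet series of `g` at the real point `s`. -/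
def LSer (g : Ideal (𝓞 K) →*₀ ℂ) (s : ℝ) : ℂ :=
  ∑' 𝔞 : Ideal (𝓞 K), g 𝔞 * (((absNorm 𝔞 : ℝ) ^ (-s) : ℝ) : ℂ)

theorem norm_tw_le {g : Ideal (𝓞 K) →*₀ ℂ} (hg : ∀ 𝔞, ‖g 𝔞‖ ≤ 1) (s : ℝ)
    (𝔞 : Ideal (𝓞 K)) : ‖tw g s 𝔞‖ ≤ (absNorm 𝔞 : ℝ) ^ (-s) := by
  have h0 : (0 : ℝ) ≤ (absNorm 𝔞 : ℝ) ^ (-s) := Real.rpow_nonneg (Nat.cast_nonneg _) _
  rw [tw_apply, norm_mul, Complex.norm_real, Real.norm_of_nonneg h0]
  calc ‖g 𝔞‖ * (absNorm 𝔞 : ℝ) ^ (-s) ≤ 1 * (absNorm 𝔞 : ℝ) ^ (-s) :=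
        mul_le_mul_of_nonneg_right (hg 𝔞) h0
    _ = _ := one_mul _

theorem summable_norm_tw {g : Ideal (𝓞 K) →*₀ ℂ} (hg : ∀ 𝔞, ‖g 𝔞‖ ≤ 1) {s : ℝ} (hs : 1 < s) :
    Summable (fun 𝔞 : Ideal (𝓞 K) => ‖tw g s 𝔞‖) :=
  Summable.of_nonneg_of_le (fun _ => norm_nonneg _) (fun 𝔞 => norm_tw_le hg s 𝔞)
    (summable_absNorm_rpow K hs)

/-- The trivial bound `‖L(s)‖ ≤ ζ_K(s)`. -/
theorem norm_lser_le {g : Ideal (𝓞 K) →*₀ ℂ} (hg : ∀ 𝔞, ‖g 𝔞‖ ≤ 1) {s : ℝ} (hs : 1 < s) :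
    ‖LSer g s‖ ≤ ∑' 𝔞 : Ideal (𝓞 K), (absNorm 𝔞 : ℝ) ^ (-s) := by
  have h1 := summable_norm_tw hg hs
  refine (norm_tsum_le_tsum_norm h1).trans ?_
  exact h1.tsum_le_tsum (fun 𝔞 => norm_tw_le hg s 𝔞) (summable_absNorm_rpow K hs)

/-- The local term `z_P = g P * N(P)^(-s)`. -/
def zP (g : Ideal (𝓞 K) →*₀ ℂ) (s : ℝ) (P : HeightOneSpectrum (𝓞 K)) : ℂ :=
  g P.asIdeal * ((xP K s P : ℝ) : ℂ)

theorem norm_zP_le {g : Ideal (𝓞 K) →*₀ ℂ} (hg : ∀ 𝔞, ‖g 𝔞‖ ≤ 1) (s : ℝ)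
    (P : HeightOneSpectrum (𝓞 K)) : ‖zP g s P‖ ≤ xP K s P := by
  have h0 := (xP_pos K s P).le
  rw [zP, norm_mul, Complex.norm_real, Real.norm_of_nonneg h0]
  calc ‖g P.asIdeal‖ * xP K s P ≤ 1 * xP K s P := mul_le_mul_of_nonneg_right (hg _) h0
    _ = _ := one_mul _

theorem norm_zP_le_half {g : Ideal (𝓞 K) →*₀ ℂ} (hg : ∀ 𝔞, ‖g 𝔞‖ ≤ 1) {s : ℝ} (hs : 1 ≤ s)
    (P : HeightOneSpectrum (𝓞 K)) : ‖zP g s P‖ ≤ 1 / 2 :=
  (norm_zP_le hg s P).trans (xP_le_half K hs P)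

/-- `‖log (1 - z_P)⁻¹ - z_P‖ ≤ N(P)^(-2)`. -/
theorem norm_log_sub_le {g : Ideal (𝓞 K) →*₀ ℂ} (hg : ∀ 𝔞, ‖g 𝔞‖ ≤ 1) {s : ℝ} (hs : 1 ≤ s)
    (P : HeightOneSpectrum (𝓞 K)) :
    ‖Complex.log (1 - zP g s P)⁻¹ - zP g s P‖ ≤ xP K 2 P := by
  have hh := norm_zP_le_half hg hs P
  have hlt : ‖zP g s P‖ < 1 := by linarith
  have h1 := Complex.norm_log_one_sub_inv_sub_self_le hlt
  have h2 : ‖zP g s P‖ ^ 2 * (1 - ‖zP g s P‖)⁻¹ / 2 ≤ ‖zP g s P‖ ^ 2 := by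
    have hpos : (0 : ℝ) < 1 - ‖zP g s P‖ := by linarith
    have hinv : (1 - ‖zP g s P‖)⁻¹ ≤ 2 := by
      rw [inv_le_comm₀ hpos (by norm_num)]
      linarith
    have hsq : 0 ≤ ‖zP g s P‖ ^ 2 := sq_nonneg _
    nlinarith
  have h3 : ‖zP g s P‖ ^ 2 ≤ xP K s P ^ 2 :=
    pow_le_pow_left₀ (norm_nonneg _) (norm_zP_le hg s P) 2
  exact h1.trans (h2.trans (h3.trans (xP_sq_le K hs P)))

theorem summable_log {g : Ideal (𝓞 K) →*₀ ℂ} (hg : ∀ 𝔞, ‖g 𝔞‖ ≤ 1) {s : ℝ} (hs : 1 < s) :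
    Summable (fun P : HeightOneSpectrum (𝓞 K) => Complex.log (1 - zP g s P)⁻¹) := by
  have hb : Summable (fun P : HeightOneSpectrum (𝓞 K) => xP K 2 P + xP K s P) :=
    (summable_xP K one_lt_two).add (summable_xP K hs)
  refine Summable.of_norm_bounded hb (fun P => ?_)
  have h1 := norm_log_sub_le hg hs.le P
  have h2 := norm_zP_le hg s P
  calc ‖Complex.log (1 - zP g s P)⁻¹‖
      = ‖(Complex.log (1 - zP g s P)⁻¹ - zP g s P) + zP g s P‖ := by rw [sub_add_cancel]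
    _ ≤ ‖Complex.log (1 - zP g s P)⁻¹ - zP g s P‖ + ‖zP g s P‖ := norm_add_le _ _
    _ ≤ xP K 2 P + xP K s P := add_le_add h1 h2

theorem summable_zP {g : Ideal (𝓞 K) →*₀ ℂ} (hg : ∀ 𝔞, ‖g 𝔞‖ ≤ 1) {s : ℝ} (hs : 1 < s) :
    Summable (fun P : HeightOneSpectrum (𝓞 K) => zP g s P) :=
  Summable.of_norm_bounded (summable_xP K hs) (fun P => norm_zP_le hg s P)

theorem one_sub_zP_ne_zero {g : Ideal (𝓞 K) →*₀ ℂ} (hg : ∀ 𝔞, ‖g 𝔞‖ ≤ 1) {s : ℝ} (hs : 1 ≤ s)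
    (P : HeightOneSpectrum (𝓞 K)) : 1 - zP g s P ≠ 0 := by
  intro h
  have h1 : zP g s P = 1 := (sub_eq_zero.mp h).symm
  have := norm_zP_le_half hg hs P
  rw [h1, norm_one] at this
  linarith

/-- **Euler product in exponential form.** -/
theorem lser_eq_exp {g : Ideal (𝓞 K) →*₀ ℂ} (hg : ∀ 𝔞, ‖g 𝔞‖ ≤ 1) {s : ℝ} (hs : 1 < s) :
    LSer g s = Complex.exp (∑' P : HeightOneSpectrum (𝓞 K), Complex.log (1 - zP g s P)⁻¹) := by
  have hprod := hasProd_inv_one_sub (tw g s) (summable_norm_tw hg hs)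
  have hprod' : HasProd (fun P : HeightOneSpectrum (𝓞 K) => (1 - zP g s P)⁻¹) (LSer g s) :=
    hprod
  have hne : ∀ P : HeightOneSpectrum (𝓞 K), (1 - zP g s P)⁻¹ ≠ 0 := fun P =>
    inv_ne_zero (one_sub_zP_ne_zero hg hs.le P)
  have h2 := Complex.hasProd_of_hasSum_log hne (summable_log hg hs).hasSum
  exact hprod'.unique h2

/-- `log ‖L(s)‖` is the real part of the sum of the local logarithms. -/
theorem log_norm_lser {g : Ideal (𝓞 K) →*₀ ℂ} (hg : ∀ 𝔞, ‖g 𝔞‖ ≤ 1) {s : ℝ} (hs : 1 < s) :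
    Real.log ‖LSer g s‖ =
      (∑' P : HeightOneSpectrum (𝓞 K), Complex.log (1 - zP g s P)⁻¹).re := by
  rw [lser_eq_exp hg hs, Complex.norm_exp, Real.log_exp]

theorem lser_ne_zero {g : Ideal (𝓞 K) →*₀ ℂ} (hg : ∀ 𝔞, ‖g 𝔞‖ ≤ 1) {s : ℝ} (hs : 1 < s) :
    LSer g s ≠ 0 := by
  rw [lser_eq_exp hg hs]
  exact Complex.exp_ne_zero _

/-- The real prime sum `∑_P re (g P) N(P)^(-s)`. -/
def reSum (g : Ideal (𝓞 K) →*₀ ℂ) (s : ℝ) : ℝ :=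
  ∑' P : HeightOneSpectrum (𝓞 K), (g P.asIdeal).re * xP K s P

theorem re_zP (g : Ideal (𝓞 K) →*₀ ℂ) (s : ℝ) (P : HeightOneSpectrum (𝓞 K)) :
    (zP g s P).re = (g P.asIdeal).re * xP K s P := by
  rw [zP, Complex.re_mul_ofReal]

/-- **Main estimate**: `|log ‖L(s)‖ - ∑_P re (g P) N(P)^(-s)| ≤ ∑_P N(P)^(-2)`. -/
theorem abs_log_norm_lser_sub_le {g : Ideal (𝓞 K) →*₀ ℂ} (hg : ∀ 𝔞, ‖g 𝔞‖ ≤ 1) {s : ℝ}
    (hs : 1 < s) : |Real.log ‖LSer g s‖ - reSum g s| ≤ primeZeta K 2 := by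
  have hsl := summable_log hg hs
  have hsz := summable_zP hg hs
  have hre : reSum g s = (∑' P : HeightOneSpectrum (𝓞 K), zP g s P).re := by
    rw [Complex.re_tsum hsz]
    exact tsum_congr fun P => (re_zP g s P).symm
  rw [log_norm_lser hg hs, hre, ← Complex.sub_re, ← hsl.tsum_sub hsz]
  refine (Complex.abs_re_le_norm _).trans ?_
  have hd : Summable (fun P : HeightOneSpectrum (𝓞 K) =>
      ‖Complex.log (1 - zP g s P)⁻¹ - zP g s P‖) :=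
    Summable.of_nonneg_of_le (fun _ => norm_nonneg _) (fun P => norm_log_sub_le hg hs.le P)
      (summable_xP K one_lt_two)
  refine (norm_tsum_le_tsum_norm hd).trans ?_
  exact hd.tsum_le_tsum (fun P => norm_log_sub_le hg hs.le P) (summable_xP K one_lt_two)

/-- `R(s) ≤ log B + ∑_P N(P)^(-2)` if `‖L(s)‖ ≤ B`. -/
theorem reSum_le_of_norm_le {g : Ideal (𝓞 K) →*₀ ℂ} (hg : ∀ 𝔞, ‖g 𝔞‖ ≤ 1) {s B : ℝ}
    (hs : 1 < s) (hB : ‖LSer g s‖ ≤ B) : reSum g s ≤ Real.log B + primeZeta K 2 := by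
  have h1 := abs_log_norm_lser_sub_le hg hs
  have hpos : 0 < ‖LSer g s‖ := norm_pos_iff.mpr (lser_ne_zero hg hs)
  have h2 : Real.log ‖LSer g s‖ ≤ Real.log B := Real.log_le_log hpos hB
  have h3 := (abs_le.mp h1).1
  linarith

theorem summable_re_mul {g : Ideal (𝓞 K) →*₀ ℂ} (hg : ∀ 𝔞, ‖g 𝔞‖ ≤ 1) {s : ℝ} (hs : 1 < s) :
    Summable (fun P : HeightOneSpectrum (𝓞 K) => (g P.asIdeal).re * xP K s P) := by
  refine Summable.of_norm_bounded (summable_xP K hs) (fun P => ?_)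
  rw [norm_mul, Real.norm_of_nonneg (xP_pos K s P).le]
  calc ‖(g P.asIdeal).re‖ * xP K s P ≤ 1 * xP K s P := by
        refine mul_le_mul_of_nonneg_right ?_ (xP_pos K s P).le
        exact (Complex.abs_re_le_norm _).trans (hg _)
    _ = _ := one_mul _

/-- **Restriction to a set `T` of primes**: the real prime sum over `T` is at most
`log B + ∑_P N(P)^(-2) + ∑_{P ∉ T} N(P)^(-s)` if `‖L(s)‖ ≤ B`. -/
theorem tsum_indicator_re_le {g : Ideal (𝓞 K) →*₀ ℂ} (hg : ∀ 𝔞, ‖g 𝔞‖ ≤ 1) {s B : ℝ}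
    (hs : 1 < s) (hB : ‖LSer g s‖ ≤ B) (T : Set (HeightOneSpectrum (𝓞 K))) :
    ∑' P, T.indicator (fun P => (g P.asIdeal).re * xP K s P) P ≤
      Real.log B + primeZeta K 2 + ∑' P, Tᶜ.indicator (xP K s) P := by
  have hsum := summable_re_mul hg hs
  have hx := summable_xP K hs
  have h1 := reSum_le_of_norm_le hg hs hB
  have h2 : reSum g s = ∑' P, T.indicator (fun P => (g P.asIdeal).re * xP K s P) P +
      ∑' P, Tᶜ.indicator (fun P => (g P.asIdeal).re * xP K s P) P := by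
    unfold reSum
    rw [← (hsum.indicator T).tsum_add (hsum.indicator Tᶜ)]
    refine tsum_congr (fun P => ?_)
    exact (congrFun (Set.indicator_self_add_compl T
      (fun P => (g P.asIdeal).re * xP K s P)) P).symm
  have h3 : -(∑' P, Tᶜ.indicator (xP K s) P) ≤
      ∑' P, Tᶜ.indicator (fun P => (g P.asIdeal).re * xP K s P) P := by
    rw [← tsum_neg]
    refine ((hx.indicator Tᶜ).neg).tsum_le_tsum (fun P => ?_) (hsum.indicator Tᶜ)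
    by_cases hP : P ∈ Tᶜ
    · rw [Set.indicator_of_mem hP, Set.indicator_of_mem hP]
      have hre : -1 ≤ (g P.asIdeal).re :=
        (abs_le.mp ((Complex.abs_re_le_norm _).trans (hg P.asIdeal))).1
      have hxp := (xP_pos K s P).le
      nlinarith
    · rw [Set.indicator_of_notMem hP, Set.indicator_of_notMem hP, neg_zero]
  linarith

end

end Fermat.Agent.DS.Cheb.Euler30
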