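/-
Programme DS (S48), brick B3-D (helper7): Deuring reduction, part 1.

`L/K` a finite Galois extension of number fields, `G = Gal(L/K)`, `P` a nonzero prime of `𝓞 L`
with trivial inertia group and `σ` a Frobenius at `P`.

* `stabilizer_eq_zpowers` : the decomposition group of `P` is `⟨σ⟩`;
* `isArithFrobAt_smul_iff` : `σ` is a Frobenius at `g • P` iff `g` centralises `σ`;
* `ncard_frobPrimes` : the number of primes `P'` over `P ∩ 𝓞 K` at which `σ` is a Frobenius is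
  `|C_G(σ)| / ord σ`  (stated as `ncard * orderOf σ = Nat.card (centralizer {σ})`).
-/
import Mathlib
import Fermat.Agent.CFT.NotAllSplit
import Fermat.Agent.CFT.ArtinSymbol
import Fermat.Agent.CFT.FrobFunct

set_option autoImplicit false
set_option linter.unusedSectionVars false
set_option linter.style.longLine false
set_option linter.style.haveILetI false

open NumberField
open scoped Pointwise

namespace Fermat.Agent.DS.Cheb.Reduce7Decomp

variable {K L : Type*} [Field K] [Field L] [NumberField K] [NumberField L] [Algebra K L]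
  [IsGalois K L]

/-- At a nonzero prime with trivial inertia, the order of the decomposition group is the residue
degree. -/
theorem card_stabilizer_eq_inertiaDeg {P : Ideal (𝓞 L)} [P.IsPrime] (hP0 : P ≠ ⊥)
    (hunr : P.inertia (L ≃ₐ[K] L) = ⊥) :
    Nat.card (MulAction.stabilizer (L ≃ₐ[K] L) P) = P.inertiaDeg (𝓞 K) := by
  set q : Ideal (𝓞 K) := P.under (𝓞 K) with hq
  haveI : P.LiesOver q := ⟨rfl⟩
  have hq0 : q ≠ ⊥ := fun h => hP0 (Ideal.eq_bot_of_comap_eq_bot h)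
  haveI : q.IsMaximal := Ring.DimensionLEOne.maximalOfPrime hq0 inferInstance
  have hK := Ideal.card_stabilizer_eq (G := L ≃ₐ[K] L) q P
  have h1 := Ideal.card_inertia_eq_ramificationIdxIn (G := L ≃ₐ[K] L) q P
  rw [hunr, Subgroup.card_bot] at h1
  rw [Ideal.inertiaDegIn_eq_inertiaDeg q P (L ≃ₐ[K] L), ← h1, one_mul] at hK
  exact hK

/-- The order of a Frobenius at an unramified prime is at least the residue degree. -/
theorem inertiaDeg_le_orderOf {P : Ideal (𝓞 L)} [P.IsPrime] (hP0 : P ≠ ⊥)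
    {σ : L ≃ₐ[K] L} (hσ : IsArithFrobAt (𝓞 K) σ P) :
    P.inertiaDeg (𝓞 K) ≤ orderOf σ := by
  have hfin : Finite (𝓞 L ⧸ P) := Ideal.finiteQuotientOfFreeOfNeBot P hP0
  have hmax : P.IsMaximal := Ideal.IsPrime.isMaximal inferInstance hP0
  let _ : Field (𝓞 L ⧸ P) := Ideal.Quotient.field P
  have := Fintype.ofFinite (𝓞 L ⧸ P)
  set q := Nat.card (𝓞 K ⧸ P.under (𝓞 K)) with hq
  set k := orderOf σ with hk
  have hk0 : 0 < k := orderOf_pos σ
  have hpow : ∀ x : 𝓞 L, x - x ^ (q ^ k) ∈ P := by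
    intro x
    have h := Fermat.Agent.CFT.ArtinSymbol.isArithFrobAt_pow_apply hσ k x
    rw [hk, pow_orderOf_eq_one, one_smul] at h
    exact h
  have hx : ∀ x : 𝓞 L ⧸ P, x ^ (q ^ k) = x := by
    intro x
    obtain ⟨x, rfl⟩ := Ideal.Quotient.mk_surjective x
    rw [← map_pow]
    exact ((Ideal.Quotient.eq).mpr (hpow x)).symm
  have hqN : Ideal.absNorm (P.under (𝓞 K)) = q := by
    rw [Ideal.absNorm_apply, Submodule.cardQuot_apply]
  have hq2 : 2 ≤ q := by
    rw [← hqN]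
    exact Fermat.Agent.CFT.NotAllSplit.two_le_absNorm_of_isPrime _ (Ideal.under_ne_bot (𝓞 K) hP0)
  have hqk : 1 < q ^ k := Nat.one_lt_pow hk0.ne' (by omega)
  have hcard : Fintype.card (𝓞 L ⧸ P) ≤ q ^ k :=
    Fermat.Agent.CFT.NotAllSplit.card_le_of_pow_eq_self hqk hx
  have hPN : Ideal.absNorm P = Fintype.card (𝓞 L ⧸ P) := by
    rw [Ideal.absNorm_apply, Submodule.cardQuot_apply, Nat.card_eq_fintype_card]
  have hpow' := Ideal.absNorm_pow_inertiaDeg (P.under (𝓞 K)) P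
  rw [hqN, hPN] at hpow'
  rw [← hpow'] at hcard
  exact (Nat.pow_le_pow_iff_right (by omega)).mp hcard

/-- **Decomposition group = ⟨Frobenius⟩** at an unramified prime. -/
theorem stabilizer_eq_zpowers {P : Ideal (𝓞 L)} [P.IsPrime] (hP0 : P ≠ ⊥)
    (hunr : P.inertia (L ≃ₐ[K] L) = ⊥) {σ : L ≃ₐ[K] L} (hσ : IsArithFrobAt (𝓞 K) σ P) :
    MulAction.stabilizer (L ≃ₐ[K] L) P = Subgroup.zpowers σ := by
  symm
  apply Subgroup.eq_of_le_of_card_ge (Subgroup.zpowers_le.mpr hσ.mem_stabilizer)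
  rw [card_stabilizer_eq_inertiaDeg hP0 hunr, Nat.card_zpowers]
  exact inertiaDeg_le_orderOf hP0 hσ

/-- The inertia group of a conjugate prime. -/
theorem inertia_smul_eq_bot {P : Ideal (𝓞 L)} (hunr : P.inertia (L ≃ₐ[K] L) = ⊥)
    (g : L ≃ₐ[K] L) : (g • P).inertia (L ≃ₐ[K] L) = ⊥ := by
  rw [Subgroup.eq_bot_iff_forall]
  intro τ hτ
  have h1 : g⁻¹ * τ * g ∈ P.inertia (L ≃ₐ[K] L) := by
    intro x
    have h : τ • g • x - g • x ∈ g • P := hτ (g • x)
    rw [Ideal.pointwise_smul_eq_comap, Ideal.mem_comap] at h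
    have e : (MulSemiringAction.toRingEquiv (L ≃ₐ[K] L) (𝓞 L) g).symm (τ • g • x - g • x) =
        (g⁻¹ * τ * g) • x - x := by
      change g⁻¹ • (τ • g • x - g • x) = _
      rw [smul_sub, mul_smul, mul_smul, inv_smul_smul]
    rw [← e]
    exact h
  rw [hunr, Subgroup.mem_bot] at h1
  have : τ = g * (g⁻¹ * τ * g) * g⁻¹ := by group
  rw [this, h1]
  group

/-- `σ` is a Frobenius at `g • P` iff `g` commutes with `σ` (unramified case). -/
theorem isArithFrobAt_smul_iff {P : Ideal (𝓞 L)} [P.IsPrime]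
    (hunr : P.inertia (L ≃ₐ[K] L) = ⊥) {σ : L ≃ₐ[K] L} (hσ : IsArithFrobAt (𝓞 K) σ P)
    (g : L ≃ₐ[K] L) :
    IsArithFrobAt (𝓞 K) σ (g • P) ↔ g * σ = σ * g := by
  have hconj : IsArithFrobAt (𝓞 K) (g * σ * g⁻¹) (g • P) := hσ.conj g
  constructor
  · intro h
    have := Fermat.Agent.CFT.ArtinSymbol.isArithFrobAt_unique (inertia_smul_eq_bot hunr g) h hconj
    calc g * σ = (g * σ * g⁻¹) * g := by group
      _ = σ * g := by rw [← this]
  · intro h
    have : g * σ * g⁻¹ = σ := by rw [h]; group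
    rwa [this] at hconj

/-- The primes of `𝓞 L` over `p` at which `σ` is a Frobenius. -/
def frobPrimes (p : Ideal (𝓞 K)) (σ : L ≃ₐ[K] L) : Set (Ideal (𝓞 L)) :=
  {P | P.IsPrime ∧ P.under (𝓞 K) = p ∧ IsArithFrobAt (𝓞 K) σ P}

theorem under_smul (g : L ≃ₐ[K] L) (P : Ideal (𝓞 L)) :
    (g • P).under (𝓞 K) = P.under (𝓞 K) := by
  ext x
  rw [Ideal.under_def, Ideal.under_def, Ideal.mem_comap, Ideal.mem_comap,
    Ideal.pointwise_smul_eq_comap, Ideal.mem_comap]
  have : (RingEquiv.symm ((MulSemiringAction.toRingAut (L ≃ₐ[K] L) (𝓞 L)) g))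
      (algebraMap (𝓞 K) (𝓞 L) x) = algebraMap (𝓞 K) (𝓞 L) x := by
    change g⁻¹ • (algebraMap (𝓞 K) (𝓞 L) x) = _
    exact smul_algebraMap _ _
  rw [this]

/-- The primes with Frobenius `σ` over `p` form one orbit under the centraliser of `σ`. -/
theorem frobPrimes_eq_orbit {P₀ : Ideal (𝓞 L)} [P₀.IsPrime]
    (hunr : P₀.inertia (L ≃ₐ[K] L) = ⊥) {σ : L ≃ₐ[K] L} (hσ : IsArithFrobAt (𝓞 K) σ P₀) :
    frobPrimes (P₀.under (𝓞 K)) σ =
      MulAction.orbit (Subgroup.centralizer ({σ} : Set (L ≃ₐ[K] L))) P₀ := by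
  ext P
  constructor
  · rintro ⟨hP, hPp, hPσ⟩
    obtain ⟨g, hg⟩ := Algebra.IsInvariant.exists_smul_of_under_eq (𝓞 K) (𝓞 L) (L ≃ₐ[K] L) P₀ P
      hPp.symm
    have hcomm : g * σ = σ * g := by
      rw [hg] at hPσ
      exact (isArithFrobAt_smul_iff hunr hσ g).mp hPσ
    have hgC : g ∈ Subgroup.centralizer ({σ} : Set (L ≃ₐ[K] L)) := by
      rw [Subgroup.mem_centralizer_iff]
      intro h hh
      rw [Set.mem_singleton_iff] at hh
      rw [hh]
      exact hcomm.symm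
    exact ⟨⟨g, hgC⟩, hg.symm⟩
  · rintro ⟨⟨g, hgC⟩, rfl⟩
    have hcomm : g * σ = σ * g := by
      rw [Subgroup.mem_centralizer_iff] at hgC
      exact (hgC σ rfl).symm
    refine ⟨?_, under_smul g P₀, (isArithFrobAt_smul_iff hunr hσ g).mpr hcomm⟩
    change (g • P₀).IsPrime
    infer_instance

/-- **Counting primes with a given Frobenius**: over an unramified prime there are exactly
`|C_G(σ)| / ord σ` primes with Frobenius `σ` (if there is one). -/
theorem ncard_frobPrimes_mul_orderOf {P₀ : Ideal (𝓞 L)} [P₀.IsPrime] (hP0 : P₀ ≠ ⊥)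
    (hunr : P₀.inertia (L ≃ₐ[K] L) = ⊥) {σ : L ≃ₐ[K] L} (hσ : IsArithFrobAt (𝓞 K) σ P₀) :
    (frobPrimes (P₀.under (𝓞 K)) σ).ncard * orderOf σ =
      Nat.card (Subgroup.centralizer ({σ} : Set (L ≃ₐ[K] L))) := by
  set C : Subgroup (L ≃ₐ[K] L) := Subgroup.centralizer ({σ} : Set (L ≃ₐ[K] L)) with hC
  rw [frobPrimes_eq_orbit hunr hσ, ← MulAction.index_stabilizer]
  have hstab : MulAction.stabilizer C P₀ = (Subgroup.zpowers σ).subgroupOf C := by
    ext ⟨g, hg⟩
    rw [Subgroup.mem_subgroupOf, ← stabilizer_eq_zpowers hP0 hunr hσ,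
      MulAction.mem_stabilizer_iff, MulAction.mem_stabilizer_iff]
    rfl
  have hle : Subgroup.zpowers σ ≤ C := by
    rw [Subgroup.zpowers_le, hC, Subgroup.mem_centralizer_iff]
    intro h hh
    rw [Set.mem_singleton_iff] at hh
    rw [hh]
  have hcard : Nat.card (MulAction.stabilizer C P₀) = orderOf σ := by
    rw [hstab, Nat.card_congr (Subgroup.subgroupOfEquivOfLe hle).toEquiv, Nat.card_zpowers]
  rw [← hcard]
  exact Subgroup.index_mul_card _

end Fermat.Agent.DS.Cheb.Reduce7Decomp
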