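/-
Programme DS (S48), brick B3-D (helper7): Deuring reduction, part 2.

`L/K` a finite Galois extension of number fields, `σ ∈ Gal(L/K)`, `F` the fixed field of `⟨σ⟩`
(any intermediate field with `F.fixingSubgroup = zpowers σ`), `τ ∈ Gal(L/F)` with
`τ.restrictScalars K = σ`.  At primes of prime absolute norm `ℓ ∤ disc L`:

* `under_mem` : if `σ` is a Frobenius at `P` (over `K`) then `P ∩ 𝓞 F` has absolute norm `ℓ` and
  `τ` is a Frobenius at `P` over `F`;
* `of_under` : conversely if `P ∩ 𝓞 F` has prime absolute norm and `τ` is a Frobenius at `P` over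
  `F`, then `σ` is a Frobenius at `P` over `K`;
* `under_injOn` : `P ↦ P ∩ 𝓞 F` is injective on the primes with Frobenius `σ`.
-/
import Mathlib
import Fermat.Agent.DS.Cheb.Reduce7Decomp
import Fermat.Agent.ES.GAL.ChebDensity23

set_option autoImplicit false
set_option linter.unusedSectionVars false
set_option linter.style.longLine false
set_option linter.style.haveILetI false

open NumberField
open scoped Pointwise
open Fermat.Agent.DS.Cheb.Reduce7Decomp

namespace Fermat.Agent.DS.Cheb.Reduce7Fixed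

variable {K L : Type} [Field K] [Field L] [NumberField K] [NumberField L] [Algebra K L]
  [IsGalois K L]

/-- A prime of `𝓞 L` over a prime of `𝓞 K` whose absolute norm is a prime number not dividing the
discriminant of `L` has trivial inertia group. -/
theorem inertia_eq_bot_of_good {P : Ideal (𝓞 L)} [P.IsPrime]
    (hqn : (Ideal.absNorm (P.under (𝓞 K))).Prime)
    (hd : ¬ ((Ideal.absNorm (P.under (𝓞 K)) : ℕ) : ℤ) ∣ discr L) :
    P.inertia (L ≃ₐ[K] L) = ⊥ :=
  Fermat.Agent.PT.GLOB.FrobGenerate19.inertia_eq_bot_of_not_dvd_discr P hqn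
    (Fermat.Agent.ES.GAL.ChebDensity23.natCast_absNorm_under_mem (K := K) P) hd

theorem ne_bot_of_good {P : Ideal (𝓞 L)} (hqn : (Ideal.absNorm (P.under (𝓞 K))).Prime) :
    P ≠ ⊥ := by
  rintro rfl
  have hbot : (⊥ : Ideal (𝓞 L)).under (𝓞 K) = ⊥ := by
    rw [Ideal.under_def, Ideal.comap_bot_of_injective _ (FaithfulSMul.algebraMap_injective _ _)]
  rw [hbot, Ideal.absNorm_bot] at hqn
  exact Nat.not_prime_zero hqn

variable (F : IntermediateField K L)

/-- If `σ` is a Frobenius over `K` at `P` (prime norm `ℓ ∤ disc L` below) and `F` is the fixed field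
of `⟨σ⟩`, then `P ∩ 𝓞 F` has the same absolute norm as `P ∩ 𝓞 K`. -/
theorem absNorm_under_eq {σ : L ≃ₐ[K] L} (hF : F.fixingSubgroup = Subgroup.zpowers σ)
    {P : Ideal (𝓞 L)} [P.IsPrime]
    (hqn : (Ideal.absNorm (P.under (𝓞 K))).Prime)
    (hd : ¬ ((Ideal.absNorm (P.under (𝓞 K)) : ℕ) : ℤ) ∣ discr L)
    (hσ : IsArithFrobAt (𝓞 K) σ P) :
    Ideal.absNorm (P.under (𝓞 F)) = Ideal.absNorm (P.under (𝓞 K)) := by
  have hP0 : P ≠ ⊥ := ne_bot_of_good hqn
  have hunr := inertia_eq_bot_of_good hqn hd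
  have hle : MulAction.stabilizer (L ≃ₐ[K] L) P ≤ F.fixingSubgroup := by
    rw [hF, stabilizer_eq_zpowers hP0 hunr hσ]
  have h1 := (Fermat.Agent.CFT.FrobFunct.inertiaDeg_ramificationIdx_of_stabilizer_le F P hle).1
  have hKK : (P.under (𝓞 F)).under (𝓞 K) = P.under (𝓞 K) := Ideal.under_under _
  haveI : (P.under (𝓞 F)).LiesOver (P.under (𝓞 K)) := ⟨hKK.symm⟩
  have hpow := Ideal.absNorm_pow_inertiaDeg (P.under (𝓞 K)) (P.under (𝓞 F))
  rw [h1, pow_one] at hpow
  exact hpow.symm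

/-- Frobenius over `K` ⇒ Frobenius over the fixed field of `⟨σ⟩`. -/
theorem isArithFrobAt_of_restrictScalars {σ : L ≃ₐ[K] L}
    (hF : F.fixingSubgroup = Subgroup.zpowers σ) {τ : L ≃ₐ[F] L}
    (hτ : τ.restrictScalars K = σ) {P : Ideal (𝓞 L)} [P.IsPrime]
    (hqn : (Ideal.absNorm (P.under (𝓞 K))).Prime)
    (hd : ¬ ((Ideal.absNorm (P.under (𝓞 K)) : ℕ) : ℤ) ∣ discr L)
    (hσ : IsArithFrobAt (𝓞 K) σ P) :
    IsArithFrobAt (𝓞 F) τ P := by
  intro x
  have h := hσ x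
  change τ • x - x ^ Nat.card (𝓞 F ⧸ P.under (𝓞 F)) ∈ P
  rw [← Fermat.Agent.CFT.NotAllSplit10.absNorm_eq_card, absNorm_under_eq F hF hqn hd hσ,
    Fermat.Agent.CFT.NotAllSplit10.absNorm_eq_card,
    ← Fermat.Agent.CFT.FrobFunct.restrictScalars_smul, hτ]
  exact h

/-- The prime below a prime of prime absolute norm has the same absolute norm. -/
theorem absNorm_under_of_prime {𝔭 : Ideal (𝓞 F)} [𝔭.IsPrime] (hn : (Ideal.absNorm 𝔭).Prime) :
    Ideal.absNorm (𝔭.under (𝓞 K)) = Ideal.absNorm 𝔭 := by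
  haveI : 𝔭.LiesOver (𝔭.under (𝓞 K)) := ⟨rfl⟩
  have hpow := Ideal.absNorm_pow_inertiaDeg (𝔭.under (𝓞 K)) 𝔭
  exact Fermat.Agent.PT.GLOB.FrobGenerate19.eq_of_pow_prime hn hpow

/-- Frobenius over an intermediate field at a prime of prime absolute norm ⇒ Frobenius over `K`. -/
theorem isArithFrobAt_restrictScalars {τ : L ≃ₐ[F] L} {P : Ideal (𝓞 L)} [P.IsPrime]
    (hn : (Ideal.absNorm (P.under (𝓞 F))).Prime)
    (hτ : IsArithFrobAt (𝓞 F) τ P) :
    IsArithFrobAt (𝓞 K) (τ.restrictScalars K) P := by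
  intro x
  have h := hτ x
  have hKK : (P.under (𝓞 F)).under (𝓞 K) = P.under (𝓞 K) := Ideal.under_under _
  change (τ.restrictScalars K) • x - x ^ Nat.card (𝓞 K ⧸ P.under (𝓞 K)) ∈ P
  rw [← Fermat.Agent.CFT.NotAllSplit10.absNorm_eq_card, ← hKK, absNorm_under_of_prime F hn,
    Fermat.Agent.CFT.NotAllSplit10.absNorm_eq_card,
    Fermat.Agent.CFT.FrobFunct.restrictScalars_smul]
  exact h

/-- `P ↦ P ∩ 𝓞 F` is injective on the primes over `q` with Frobenius `σ`. -/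
theorem under_injOn {σ : L ≃ₐ[K] L} (hF : F.fixingSubgroup = Subgroup.zpowers σ)
    {P P' : Ideal (𝓞 L)} [P.IsPrime] [P'.IsPrime]
    (hqn : (Ideal.absNorm (P.under (𝓞 K))).Prime)
    (hd : ¬ ((Ideal.absNorm (P.under (𝓞 K)) : ℕ) : ℤ) ∣ discr L)
    (hσ : IsArithFrobAt (𝓞 K) σ P)
    (h : P.under (𝓞 F) = P'.under (𝓞 F)) : P = P' := by
  have hP0 : P ≠ ⊥ := ne_bot_of_good hqn
  have hunr := inertia_eq_bot_of_good hqn hd
  obtain ⟨g, hg⟩ := Algebra.IsInvariant.exists_smul_of_under_eq (𝓞 F) (𝓞 L) (L ≃ₐ[F] L) P P' h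
  have hgF : g.restrictScalars K ∈ F.fixingSubgroup := by
    rw [IntermediateField.mem_fixingSubgroup_iff]
    intro x hx
    exact g.commutes ⟨x, hx⟩
  rw [hF, ← stabilizer_eq_zpowers hP0 hunr hσ, MulAction.mem_stabilizer_iff,
    Fermat.Agent.CFT.FrobFunct.restrictScalars_smul_ideal] at hgF
  rw [hg, hgF]

end Fermat.Agent.DS.Cheb.Reduce7Fixed
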